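import Mathlib.NumberTheory.Padics.RingHoms
import Fermat.Prelude.Def_GaloisRep_Adic
import Fermat.Agent.EC.TorsionGalois

/-!
# Frames of the Tate module of an elliptic curve

A frame identifies the `p`-power torsion with `ℤ_p²` level by level, and with it the Tate module
with a `GaloisRepAdic ℤ_p`.
-/

noncomputable section

namespace Fermat.Agent.Raising.Tate

open scoped WeierstrassCurve.Affine

local notation "Qbar" => AlgebraicClosure ℚ

/-- A representation on `ℤ_p²` identified, level by level, with the `p`-power torsion of `E`. -/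
structure TateFrame (E : WeierstrassCurve ℚ) (p : ℕ) [Fact p.Prime] : Type 1 where
  /-- the representation -/
  ρ : GaloisRepAdic ℤ_[p]
  /-- the point of level `n` of a vector -/
  pt : ℕ → ρ.V →+ (E⁄Qbar).Point
  range_pt : ∀ (n : ℕ) (x : (E⁄Qbar).Point), p ^ n • x = 0 ↔ x ∈ (pt n).range
  pt_eq_zero : ∀ (n : ℕ) (v : ρ.V), pt n v = 0 ↔
    v ∈ (Ideal.span {(p : ℤ_[p]) ^ n} • ⊤ : Submodule ℤ_[p] ρ.V)
  pt_succ : ∀ (n : ℕ) (v : ρ.V), p • pt (n + 1) v = pt n v
  pt_smul : ∀ (n : ℕ) (σ : Qbar ≃ₐ[ℚ] Qbar) (v : ρ.V), pt n (ρ.ρ σ v) = σ • pt n v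

end Fermat.Agent.Raising.Tate
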