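import Mathlib.RingTheory.AdicCompletion.Basic
import Fermat.Agent.EC.FrobTraceQuad
import Fermat.Agent.EC.TorsionCard
import Fermat.Agent.Raising.Tate.Frame

/-!
# Every elliptic curve over `ℚ` has a Tate frame

Compatible bases of the `p`-power torsion exist by counting, and the action of a Galois element is
read off level by level.
-/

noncomputable section

namespace Fermat.Agent.Raising.Tate

open scoped WeierstrassCurve.Affine

local notation "Qbar" => AlgebraicClosure ℚ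

variable (E : WeierstrassCurve ℚ) [E.IsElliptic] (p : ℕ) [Fact p.Prime]

omit [E.IsElliptic] in
lemma gal_nsmul (σ : Qbar ≃ₐ[ℚ] Qbar) (k : ℕ) (x : (E⁄Qbar).Point) : σ • (k • x) = k • σ • x :=
  map_nsmul (DistribSMul.toAddMonoidHom (E⁄Qbar).Point σ) k x

omit [E.IsElliptic] in
lemma gal_add (σ : Qbar ≃ₐ[ℚ] Qbar) (x y : (E⁄Qbar).Point) : σ • (x + y) = σ • x + σ • y :=
  map_add (DistribSMul.toAddMonoidHom (E⁄Qbar).Point σ) x y

/-- The points killed by `p ^ n`. -/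
def pPowTors (n : ℕ) : AddSubgroup (E⁄Qbar).Point :=
  (nsmulAddMonoidHom (p ^ n) : (E⁄Qbar).Point →+ (E⁄Qbar).Point).ker

variable {E p}

omit [E.IsElliptic] [Fact p.Prime] in
lemma mem_pPowTors {n : ℕ} {x : (E⁄Qbar).Point} : x ∈ pPowTors E p n ↔ p ^ n • x = 0 :=
  Iff.rfl

variable (E p)

lemma card_pPowTors (n : ℕ) : Nat.card (pPowTors E p n) = (p ^ n) ^ 2 := by
  rw [← EC.card_torsionBy (K := Qbar) E (p ^ n)
    (by exact_mod_cast pow_ne_zero _ (Fact.out : p.Prime).ne_zero)]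
  exact Nat.card_congr (Equiv.subtypeEquivRight fun x => by
    rw [mem_pPowTors, Submodule.mem_torsionBy_iff, natCast_zsmul])

lemma finite_pPowTors (n : ℕ) : Finite (pPowTors E p n) :=
  Nat.finite_of_card_ne_zero (by
    rw [card_pPowTors]; exact pow_ne_zero _ (pow_ne_zero _ (Fact.out : p.Prime).ne_zero))

lemma exists_mem_pPowTors_nsmul_eq {n : ℕ} {x : (E⁄Qbar).Point} (hx : x ∈ pPowTors E p n) :
    ∃ y ∈ pPowTors E p (n + 1), p • y = x := by
  have : (E⁄Qbar).IsElliptic := inferInstanceAs (E.map (algebraMap ℚ Qbar)).IsElliptic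
  obtain ⟨y, hy⟩ := EC.exists_nsmul_eq (k := Qbar) (V := E⁄Qbar)
    (Nat.cast_ne_zero.2 (Fact.out : p.Prime).ne_zero) x
  exact ⟨y, by rw [mem_pPowTors, pow_succ, mul_nsmul', hy]; exact hx, hy⟩

lemma exists_pair_pPowTors_one : ∃ P Q : (E⁄Qbar).Point, p • P = 0 ∧ p • Q = 0 ∧
    ∀ a b : ℤ, a • P + b • Q = 0 → (p : ℤ) ∣ a ∧ (p : ℤ) ∣ b := by
  have hp : p.Prime := Fact.out
  have := finite_pPowTors E p 1
  have hc := card_pPowTors E p 1
  rw [pow_one] at hc
  have hnt : Nontrivial (pPowTors E p 1) := Finite.one_lt_card_iff_nontrivial.mp (by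
    rw [hc]; exact Nat.one_lt_pow two_ne_zero hp.one_lt)
  obtain ⟨P, hP⟩ := exists_ne (0 : pPowTors E p 1)
  have hP' : p • P = 0 := by
    have h := mem_pPowTors.mp P.2
    rw [pow_one] at h
    exact Subtype.ext h
  have hord : addOrderOf P = p := addOrderOf_eq_prime hP' hP
  obtain ⟨Q, hQ⟩ : ∃ Q : pPowTors E p 1, Q ∉ AddSubgroup.zmultiples P := by
    by_contra h
    push Not at h
    have h2 : Nat.card (AddSubgroup.zmultiples P) = Nat.card (pPowTors E p 1) :=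
      Nat.card_congr (Equiv.subtypeUnivEquiv h)
    rw [Nat.card_zmultiples, hord, hc, sq] at h2
    exact absurd h2 (by nlinarith [hp.one_lt])
  have hQ' : p • Q = 0 := by
    have h := mem_pPowTors.mp Q.2
    rw [pow_one] at h
    exact Subtype.ext h
  refine ⟨P, Q, congrArg Subtype.val hP', congrArg Subtype.val hQ', fun a b hab => ?_⟩
  have hab' : a • P + b • Q = 0 := Subtype.ext hab
  have hb : (p : ℤ) ∣ b := by
    by_contra hb
    obtain ⟨u, v, huv⟩ := ((Nat.prime_iff_prime_int.mp hp).coprime_iff_not_dvd.mpr hb)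
    apply hQ
    refine ⟨-(v * a), ?_⟩
    show (-(v * a)) • P = Q
    have hp0 : (p : ℤ) • Q = 0 := by rw [natCast_zsmul, hQ']
    calc (-(v * a)) • P = v • (b • Q) := by
          rw [neg_smul, mul_smul, ← smul_neg, eq_neg_of_add_eq_zero_left hab', neg_neg]
      _ = (u * p + v * b) • Q := by rw [add_smul, mul_smul u, hp0, smul_zero, zero_add, mul_smul]
      _ = Q := by rw [huv, one_smul]
  refine ⟨?_, hb⟩
  obtain ⟨c, rfl⟩ := hb
  rw [mul_comm, mul_smul, natCast_zsmul, hQ', smul_zero, add_zero] at hab'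
  rw [← hord]
  exact addOrderOf_dvd_iff_zsmul_eq_zero.mpr hab'

/-- Compatible bases of all the `p ^ n`-torsion groups. -/
lemma exists_compatible_bases : ∃ P Q : ℕ → (E⁄Qbar).Point,
    (∀ n, p • P (n + 1) = P n) ∧ (∀ n, p • Q (n + 1) = Q n) ∧
    (∀ n, p ^ n • P n = 0) ∧ (∀ n, p ^ n • Q n = 0) ∧
    ∀ n (a b : ℤ), a • P n + b • Q n = 0 → (p : ℤ) ^ n ∣ a ∧ (p : ℤ) ^ n ∣ b := by
  classical
  obtain ⟨P₁, Q₁, hP₁, hQ₁, hind⟩ := exists_pair_pPowTors_one E p
  have hlift : ∀ k (x : (E⁄Qbar).Point), ∃ y : (E⁄Qbar).Point,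
      p ^ k • x = 0 → p ^ (k + 1) • y = 0 ∧ p • y = x := fun k x => by
    by_cases h : p ^ k • x = 0
    · obtain ⟨y, h1, h2⟩ := exists_mem_pPowTors_nsmul_eq E p (mem_pPowTors.mpr h)
      exact ⟨y, fun _ => ⟨mem_pPowTors.mp h1, h2⟩⟩
    · exact ⟨0, fun h' => absurd h' h⟩
  choose L hL using hlift
  let seq : (E⁄Qbar).Point → ℕ → (E⁄Qbar).Point := fun x₁ n => Nat.rec 0
    (fun k y => if k = 0 then x₁ else L k y) n
  have hseq1 : ∀ x₁, seq x₁ 1 = x₁ := fun x₁ => rfl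
  have hseq : ∀ x₁, p • x₁ = 0 → ∀ n, p ^ n • seq x₁ n = 0 ∧ p • seq x₁ (n + 1) = seq x₁ n := by
    intro x₁ hx₁ n
    have htor : ∀ n, p ^ n • seq x₁ n = 0 := by
      intro n
      induction n with
      | zero => exact nsmul_zero _
      | succ k ih =>
        rcases Nat.eq_zero_or_pos k with rfl | hk
        · rw [zero_add, pow_one, hseq1]; exact hx₁
        · show p ^ (k + 1) • (if k = 0 then x₁ else L k (seq x₁ k)) = 0
          rw [if_neg hk.ne']; exact (hL k _ ih).1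
    refine ⟨htor n, ?_⟩
    rcases Nat.eq_zero_or_pos n with rfl | hn
    · exact hx₁
    · show p • (if n = 0 then x₁ else L n (seq x₁ n)) = seq x₁ n
      rw [if_neg hn.ne']; exact (hL n _ (htor n)).2
  refine ⟨seq P₁, seq Q₁, fun n => (hseq P₁ hP₁ n).2, fun n => (hseq Q₁ hQ₁ n).2,
    fun n => (hseq P₁ hP₁ n).1, fun n => (hseq Q₁ hQ₁ n).1, ?_⟩
  have hdesc : ∀ x₁, p • x₁ = 0 → ∀ n, p ^ n • seq x₁ (n + 1) = x₁ := by
    intro x₁ hx₁ n
    induction n with
    | zero => rw [pow_zero, one_nsmul, zero_add, hseq1]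
    | succ k ih => rw [pow_succ, mul_nsmul', (hseq x₁ hx₁ (k + 1)).2, ih]
  intro n
  induction n with
  | zero => intro a b _; simp
  | succ k ih =>
    intro a b hab
    have h := congrArg (p • ·) hab
    simp only [nsmul_add, nsmul_zero, smul_comm p (_ : ℤ)] at h
    rw [(hseq P₁ hP₁ k).2, (hseq Q₁ hQ₁ k).2] at h
    obtain ⟨⟨a', rfl⟩, ⟨b', rfl⟩⟩ := ih a b h
    rw [mul_comm ((p : ℤ) ^ k) a', mul_comm ((p : ℤ) ^ k) b', mul_smul, mul_smul,
      ← Nat.cast_pow, natCast_zsmul, natCast_zsmul, hdesc P₁ hP₁, hdesc Q₁ hQ₁] at hab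
    obtain ⟨h1, h2⟩ := hind a' b' hab
    exact ⟨by rw [pow_succ]; exact mul_dvd_mul_left _ h1,
      by rw [pow_succ]; exact mul_dvd_mul_left _ h2⟩

omit [E.IsElliptic] [Fact p.Prime] in
lemma zmod_lift_intCast {x : (E⁄Qbar).Point} {n : ℕ} (hx : p ^ n • x = 0) (a : ℤ) :
    ZMod.lift (p ^ n) ⟨zmultiplesHom _ x, by simpa [← natCast_zsmul] using hx⟩ (a : ZMod (p ^ n)) =
      a • x := by
  simp [ZMod.lift_coe]

omit [E.IsElliptic] in
/-- The level `n` point attached to a vector of `ℤ_p²`. -/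
def ptHom {P Q : ℕ → (E⁄Qbar).Point} (hP : ∀ n, p ^ n • P n = 0) (hQ : ∀ n, p ^ n • Q n = 0)
    (n : ℕ) : ℤ_[p] × ℤ_[p] →+ (E⁄Qbar).Point :=
  ((ZMod.lift (p ^ n) ⟨zmultiplesHom _ (P n), by simpa [← natCast_zsmul] using hP n⟩).comp
    (PadicInt.toZModPow n).toAddMonoidHom).coprod
  ((ZMod.lift (p ^ n) ⟨zmultiplesHom _ (Q n), by simpa [← natCast_zsmul] using hQ n⟩).comp
    (PadicInt.toZModPow n).toAddMonoidHom)

omit [E.IsElliptic] in
lemma ptHom_apply {P Q : ℕ → (E⁄Qbar).Point} (hP : ∀ n, p ^ n • P n = 0)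
    (hQ : ∀ n, p ^ n • Q n = 0) {n : ℕ} {v : ℤ_[p] × ℤ_[p]} {a b : ℤ}
    (ha : PadicInt.toZModPow n v.1 = (a : ZMod (p ^ n)))
    (hb : PadicInt.toZModPow n v.2 = (b : ZMod (p ^ n))) :
    ptHom E p hP hQ n v = a • P n + b • Q n := by
  simp only [ptHom, AddMonoidHom.coprod_apply, AddMonoidHom.comp_apply,
    RingHom.toAddMonoidHom_eq_coe, AddMonoidHom.coe_coe, ha, hb,
    zmod_lift_intCast E p (hP n), zmod_lift_intCast E p (hQ n)]

omit [Fact p.Prime] in
lemma mem_span_smul_top_prod {R : Type*} [CommRing R] {c : R} {v : R × R} :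
    v ∈ (Ideal.span {c} • ⊤ : Submodule R (R × R)) ↔ c ∣ v.1 ∧ c ∣ v.2 := by
  rw [Submodule.ideal_span_singleton_smul, Submodule.mem_smul_pointwise_iff_exists]
  constructor
  · rintro ⟨w, -, rfl⟩
    exact ⟨⟨w.1, rfl⟩, ⟨w.2, rfl⟩⟩
  · rintro ⟨⟨a, ha⟩, ⟨b, hb⟩⟩
    exact ⟨(a, b), Submodule.mem_top, Prod.ext ha.symm hb.symm⟩

omit [E.IsElliptic] in
/-- A `p`-adic sequence with `f (n + 1) ≡ f n` modulo `p ^ n` has a limit. -/
lemma exists_padicInt_limit {f : ℕ → ℤ_[p]}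
    (hf : ∀ n, (p : ℤ_[p]) ^ n ∣ f (n + 1) - f n) : ∃ L, ∀ n, (p : ℤ_[p]) ^ n ∣ L - f n := by
  have hcauchy : ∀ {m n : ℕ}, m ≤ n → f m ≡ f n
      [SMOD (IsLocalRing.maximalIdeal ℤ_[p] ^ m • ⊤ : Submodule ℤ_[p] ℤ_[p])] := by
    intro m n hmn
    rw [smul_eq_mul, Ideal.mul_top, SModEq.sub_mem, PadicInt.maximalIdeal_eq_span_p,
      Ideal.span_singleton_pow, Ideal.mem_span_singleton, ← neg_sub, dvd_neg]
    induction n, hmn using Nat.le_induction with
    | base => simp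
    | succ k hk ih =>
      rw [← sub_add_sub_cancel (f (k + 1)) (f k)]
      exact dvd_add ((pow_dvd_pow _ hk).trans (hf k)) ih
  obtain ⟨L, hL⟩ := IsPrecomplete.prec (I := IsLocalRing.maximalIdeal ℤ_[p])
    (M := ℤ_[p]) inferInstance hcauchy
  refine ⟨L, fun n => ?_⟩
  have h := hL n
  rw [smul_eq_mul, Ideal.mul_top, SModEq.sub_mem, PadicInt.maximalIdeal_eq_span_p,
    Ideal.span_singleton_pow, Ideal.mem_span_singleton, ← neg_sub, dvd_neg] at h
  exact h

section Frame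

variable {P Q : ℕ → (E⁄Qbar).Point} (hP : ∀ n, p ^ n • P n = 0) (hQ : ∀ n, p ^ n • Q n = 0)
  (hind : ∀ n (a b : ℤ), a • P n + b • Q n = 0 → (p : ℤ) ^ n ∣ a ∧ (p : ℤ) ^ n ∣ b)

omit [E.IsElliptic] in
include hind in
/-- The kernel of the level `n` map is `p ^ n ℤ_p²`. -/
lemma ptHom_eq_zero_iff (n : ℕ) (v : ℤ_[p] × ℤ_[p]) : ptHom E p hP hQ n v = 0 ↔
    v ∈ (Ideal.span {(p : ℤ_[p]) ^ n} • ⊤ : Submodule ℤ_[p] (ℤ_[p] × ℤ_[p])) := by
  obtain ⟨a, ha⟩ := ZMod.intCast_surjective (PadicInt.toZModPow n v.1)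
  obtain ⟨b, hb⟩ := ZMod.intCast_surjective (PadicInt.toZModPow n v.2)
  rw [mem_span_smul_top_prod, ← Ideal.mem_span_singleton, ← Ideal.mem_span_singleton,
    ← PadicInt.ker_toZModPow, RingHom.mem_ker, RingHom.mem_ker, ← ha, ← hb,
    ZMod.intCast_zmod_eq_zero_iff_dvd, ZMod.intCast_zmod_eq_zero_iff_dvd, Nat.cast_pow,
    ptHom_apply E p hP hQ ha.symm hb.symm]
  refine ⟨hind n a b, ?_⟩
  rintro ⟨⟨a', rfl⟩, ⟨b', rfl⟩⟩
  rw [mul_comm _ a', mul_comm _ b', mul_smul, mul_smul, ← Nat.cast_pow, natCast_zsmul,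
    natCast_zsmul, hP, hQ, zsmul_zero, zsmul_zero, add_zero]

omit [E.IsElliptic] in
/-- The level maps are compatible under multiplication by `p`. -/
lemma nsmul_ptHom_succ (hPs : ∀ n, p • P (n + 1) = P n) (hQs : ∀ n, p • Q (n + 1) = Q n) (n : ℕ)
    (v : ℤ_[p] × ℤ_[p]) : p • ptHom E p hP hQ (n + 1) v = ptHom E p hP hQ n v := by
  obtain ⟨a, ha⟩ := ZMod.intCast_surjective (PadicInt.toZModPow (n + 1) v.1)
  obtain ⟨b, hb⟩ := ZMod.intCast_surjective (PadicInt.toZModPow (n + 1) v.2)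
  have hdown : ∀ (x : ℤ_[p]) (c : ℤ), PadicInt.toZModPow (n + 1) x = (c : ZMod (p ^ (n + 1))) →
      PadicInt.toZModPow n x = (c : ZMod (p ^ n)) := fun x c hc => by
    rw [← PadicInt.zmod_cast_comp_toZModPow n (n + 1) n.le_succ, RingHom.comp_apply, hc,
      map_intCast]
  rw [ptHom_apply E p hP hQ ha.symm hb.symm,
    ptHom_apply E p hP hQ (hdown _ _ ha.symm) (hdown _ _ hb.symm), nsmul_add,
    smul_comm p a, smul_comm p b, hPs, hQs]

include hind in
/-- The level `n` map reaches exactly the points killed by `p ^ n`. -/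
lemma mem_range_ptHom_iff (n : ℕ) (x : (E⁄Qbar).Point) :
    p ^ n • x = 0 ↔ x ∈ (ptHom E p hP hQ n).range := by
  constructor
  · intro hx
    have := finite_pPowTors E p n
    have : NeZero (p ^ n) := ⟨pow_ne_zero _ (Fact.out : p.Prime).ne_zero⟩
    let f : ZMod (p ^ n) × ZMod (p ^ n) → pPowTors E p n := fun u =>
      ⟨(u.1.val : ℤ) • P n + (u.2.val : ℤ) • Q n, add_mem
        (zsmul_mem (mem_pPowTors.mpr (hP n)) _) (zsmul_mem (mem_pPowTors.mpr (hQ n)) _)⟩
    have hf : Function.Injective f := by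
      intro u u' h
      have h' : ((u.1.val : ℤ) - u'.1.val) • P n + ((u.2.val : ℤ) - u'.2.val) • Q n = 0 := by
        have hh := congrArg Subtype.val h
        simp only [f] at hh
        rw [sub_smul, sub_smul, sub_add_sub_comm, hh, sub_self]
      obtain ⟨h1, h2⟩ := hind n _ _ h'
      rw [← Nat.cast_pow, ← ZMod.intCast_zmod_eq_zero_iff_dvd] at h1 h2
      push_cast at h1 h2
      rw [ZMod.natCast_zmod_val, ZMod.natCast_zmod_val, sub_eq_zero] at h1 h2
      exact Prod.ext h1 h2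
    obtain ⟨u, hu⟩ := (hf.bijective_of_nat_card_le (by
      rw [card_pPowTors, Nat.card_prod, Nat.card_zmod, sq])).2 ⟨x, mem_pPowTors.mpr hx⟩
    refine ⟨(((u.1.val : ℤ) : ℤ_[p]), ((u.2.val : ℤ) : ℤ_[p])), ?_⟩
    rw [ptHom_apply E p hP hQ (map_intCast _ _) (map_intCast _ _)]
    exact congrArg Subtype.val hu
  · rintro ⟨v, rfl⟩
    rw [← map_nsmul, ptHom_eq_zero_iff E p hP hQ hind, ← Nat.cast_smul_eq_nsmul ℤ_[p],
      Nat.cast_pow]
    exact Submodule.smul_mem_smul (Ideal.mem_span_singleton_self _) Submodule.mem_top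

omit [E.IsElliptic] in
include hind in
/-- A `p`-adic scalar acts at level `n` through its residue. -/
lemma ptHom_smul (n : ℕ) (c : ℤ_[p]) (w : ℤ_[p] × ℤ_[p]) :
    ptHom E p hP hQ n (c • w) = (PadicInt.toZModPow n c).val • ptHom E p hP hQ n w := by
  have : NeZero (p ^ n) := ⟨pow_ne_zero _ (Fact.out : p.Prime).ne_zero⟩
  rw [← map_nsmul, ← sub_eq_zero, ← map_sub, ptHom_eq_zero_iff E p hP hQ hind,
    ← Nat.cast_smul_eq_nsmul ℤ_[p], ← sub_smul]
  refine Submodule.smul_mem_smul ?_ Submodule.mem_top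
  rw [← PadicInt.ker_toZModPow, RingHom.mem_ker, map_sub, map_natCast, ZMod.natCast_zmod_val,
    sub_self]

omit [E.IsElliptic] in
include hind in
/-- The levels separate vectors. -/
lemma ptHom_ext {v w : ℤ_[p] × ℤ_[p]} (h : ∀ n, ptHom E p hP hQ n v = ptHom E p hP hQ n w) :
    v = w := by
  rw [← sub_eq_zero]
  have hz := fun n => mem_span_smul_top_prod.mp
    ((ptHom_eq_zero_iff E p hP hQ hind n (v - w)).mp (by rw [map_sub, h n, sub_self]))
  refine Prod.ext ?_ ?_ <;> rw [← PadicInt.ext_of_toZModPow] <;> intro n <;>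
    (simp only [Prod.fst_zero, Prod.snd_zero];
      rw [map_zero, ← RingHom.mem_ker, PadicInt.ker_toZModPow, Ideal.mem_span_singleton])
  exacts [(hz n).1, (hz n).2]

include hind in
/-- Every compatible sequence of torsion points comes from a vector. -/
lemma exists_ptHom_eq (hPs : ∀ n, p • P (n + 1) = P n) (hQs : ∀ n, p • Q (n + 1) = Q n)
    {x : ℕ → (E⁄Qbar).Point} (hx : ∀ n, p ^ n • x n = 0) (hxs : ∀ n, p • x (n + 1) = x n) :
    ∃ v, ∀ n, ptHom E p hP hQ n v = x n := by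
  choose w hw using fun n => (mem_range_ptHom_iff E p hP hQ hind n (x n)).mp (hx n)
  have hstep := fun n => mem_span_smul_top_prod.mp
    ((ptHom_eq_zero_iff E p hP hQ hind n (w (n + 1) - w n)).mp (by
      rw [map_sub, ← nsmul_ptHom_succ E p hP hQ hPs hQs, hw, hw, hxs, sub_self]))
  obtain ⟨L₁, h₁⟩ := exists_padicInt_limit p (f := fun n => (w n).1) fun n => (hstep n).1
  obtain ⟨L₂, h₂⟩ := exists_padicInt_limit p (f := fun n => (w n).2) fun n => (hstep n).2
  refine ⟨(L₁, L₂), fun n => ?_⟩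
  rw [← hw n, ← sub_eq_zero, ← map_sub, ptHom_eq_zero_iff E p hP hQ hind, mem_span_smul_top_prod]
  exact ⟨h₁ n, h₂ n⟩

end Frame

/-- Every elliptic curve over `ℚ` has a Tate frame. -/
theorem nonempty_tateFrame : Nonempty (TateFrame E p) := by
  have hp : p.Prime := Fact.out
  obtain ⟨P, Q, hPs, hQs, hP, hQ, hind⟩ := exists_compatible_bases E p
  let pt : ℕ → ℤ_[p] × ℤ_[p] →+ (E⁄Qbar).Point := ptHom E p hP hQ
  have hker : ∀ n v, p ^ n • pt n v = 0 := fun n v =>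
    (mem_range_ptHom_iff E p hP hQ hind n _).mpr ⟨v, rfl⟩
  have hact : ∀ (σ : Qbar ≃ₐ[ℚ] Qbar) (v : ℤ_[p] × ℤ_[p]), ∃ w, ∀ n, pt n w = σ • pt n v :=
    fun σ v => exists_ptHom_eq E p hP hQ hind hPs hQs
      (fun n => by rw [← gal_nsmul, hker n v]; rfl)
      (fun n => by rw [← gal_nsmul, nsmul_ptHom_succ E p hP hQ hPs hQs])
  choose act hact using hact
  let lin : (Qbar ≃ₐ[ℚ] Qbar) → Module.End ℤ_[p] (ℤ_[p] × ℤ_[p]) := fun σ =>
    { toFun := act σ
      map_add' := fun v w => ptHom_ext E p hP hQ hind fun n => by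
        show pt n _ = pt n _
        rw [hact, map_add, gal_add, map_add, hact, hact]
      map_smul' := fun c v => ptHom_ext E p hP hQ hind fun n => by
        show pt n _ = pt n _
        rw [RingHom.id_apply, hact, ptHom_smul E p hP hQ hind, ptHom_smul E p hP hQ hind, hact,
          gal_nsmul] }
  refine ⟨⟨{
    V := ℤ_[p] × ℤ_[p]
    finrank_eq := by rw [Module.finrank_prod, Module.finrank_self]
    ρ := { toFun := lin
           map_one' := LinearMap.ext fun v => ptHom_ext E p hP hQ hind fun n => by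
            show pt n (act 1 v) = pt n v
            rw [hact, one_smul]
           map_mul' := fun σ τ => LinearMap.ext fun v => ptHom_ext E p hP hQ hind fun n => by
            show pt n (act (σ * τ) v) = pt n (act σ (act τ v))
            rw [hact, hact, hact, mul_smul] }
    isAdicContinuous := fun n => by
      obtain ⟨L, hL, h⟩ := EC.galoisFactorsThroughFiniteLevel E (p ^ n) (pow_ne_zero _ hp.ne_zero)
      refine ⟨L, hL, fun σ hσ v => ?_⟩
      rw [PadicInt.maximalIdeal_eq_span_p, Ideal.span_singleton_pow,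
        ← ptHom_eq_zero_iff E p hP hQ hind, map_sub, sub_eq_zero]
      show pt n (act σ v) = pt n v
      rw [hact]
      exact congrArg Subtype.val (LinearMap.congr_fun (h σ hσ)
        (⟨pt n v, by rw [Submodule.mem_torsionBy_iff, natCast_zsmul]; exact hker n v⟩ :
          Submodule.torsionBy ℤ (E⁄Qbar).Point ((p ^ n : ℕ) : ℤ))) },
    pt, mem_range_ptHom_iff E p hP hQ hind, ptHom_eq_zero_iff E p hP hQ hind,
    nsmul_ptHom_succ E p hP hQ hPs hQs, fun n σ v => hact σ v n⟩⟩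

end Fermat.Agent.Raising.Tate
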