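import Fermat.Prelude.Def_GaloisRep_LocalConditions
import Fermat.Agent.EC.FrobTrace
import Fermat.Agent.Gal.Compare
import Fermat.Agent.Raising.Tate.Exists

/-!
# Galois properties of a Tate frame

Away from the bad primes and `p` the representation is unramified and Frobenius has characteristic
polynomial `X² - a_ℓ X + ℓ`; the determinant is the cyclotomic character.  The determinant needs no
pairing at level `p ^ n`: an element which is not scalar modulo `p` is approximated by powers of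
Frobenius elements, where the quadratic relation fixes trace and determinant.
-/

noncomputable section

namespace Fermat.Agent.Raising.Tate

open IsLocalRing Module
open scoped WeierstrassCurve.Affine

local notation "Qbar" => AlgebraicClosure ℚ

/-- A multiple of an endomorphism of a plane which is scalar comes from a scalar endomorphism. -/
lemma exists_eq_smul_one_of_smul_eq {R V : Type*} [CommRing R] [IsDomain R] [AddCommGroup V]
    [Module R V] (b : Basis (Fin 2) R V) {f : Module.End R V} {t d : R} (ht : t ≠ 0)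
    (h : t • f = d • 1) : ∃ c : R, f = c • 1 := by
  refine ⟨LinearMap.toMatrix b b f 0 0, (LinearMap.toMatrix b b).injective ?_⟩
  have hM : t • LinearMap.toMatrix b b f = d • 1 := by
    rw [← map_smul, h, map_smul, LinearMap.toMatrix_one]
  have e := fun i j => congrFun (congrFun hM i) j
  rw [map_smul, LinearMap.toMatrix_one]
  ext i j
  have e00 := e 0 0
  have e11 := e 1 1
  have e01 := e 0 1
  have e10 := e 1 0
  simp [Matrix.smul_apply, ht] at e00 e11 e01 e10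
  fin_cases i <;> fin_cases j <;> simp [e01, e10]
  exact mul_left_cancel₀ ht (e11.trans e00.symm)

/-- An exponent by which a Galois element acts on the roots of unity of a given order. -/
lemma exists_root_exponent {N : ℕ} (hN : 0 < N) (σ : Qbar ≃ₐ[ℚ] Qbar) :
    ∃ a : ℕ, ∀ μ : Qbar, μ ^ N = 1 → σ μ = μ ^ a := by
  have : NeZero N := ⟨hN.ne'⟩
  obtain ⟨ζ, hζ⟩ := HasEnoughRootsOfUnity.exists_primitiveRoot Qbar N
  obtain ⟨a, -, ha⟩ := hζ.eq_pow_of_pow_eq_one (ξ := σ ζ)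
    (by rw [← map_pow, hζ.pow_eq_one, map_one])
  refine ⟨a, fun μ hμ => ?_⟩
  obtain ⟨i, -, rfl⟩ := hζ.eq_pow_of_pow_eq_one hμ
  rw [map_pow, ← ha, ← pow_mul, ← pow_mul, mul_comm]

namespace TateFrame

section General

variable {E : WeierstrassCurve ℚ} {p : ℕ} [Fact p.Prime] (F : TateFrame E p)

/-- A vector vanishes at level `p ^ n` exactly when it is divisible by `p ^ n`. -/
lemma pt_eq_zero_iff_mem_pow (n : ℕ) (v : F.ρ.V) :
    F.pt n v = 0 ↔ v ∈ (maximalIdeal ℤ_[p] ^ n • ⊤ : Submodule ℤ_[p] F.ρ.V) := by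
  rw [F.pt_eq_zero, PadicInt.maximalIdeal_eq_span_p, Ideal.span_singleton_pow]

lemma ext_pt {v w : F.ρ.V} (h : ∀ n, F.pt n v = F.pt n w) : v = w := by
  rw [← sub_eq_zero]
  have hm : v - w ∈ ⨅ n : ℕ, (maximalIdeal ℤ_[p] ^ n • ⊤ : Submodule ℤ_[p] F.ρ.V) :=
    (Submodule.mem_iInf _).mpr fun n => (F.pt_eq_zero_iff_mem_pow n _).mp
      (by rw [map_sub, h n, sub_self])
  rwa [Ideal.iInf_pow_smul_eq_bot_of_isLocalRing _ (maximalIdeal.isMaximal ℤ_[p]).ne_top,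
    Submodule.mem_bot] at hm

lemma pt_intCast_smul (n : ℕ) (a : ℤ) (v : F.ρ.V) :
    F.pt n ((a : ℤ_[p]) • v) = a • F.pt n v := by
  rw [Int.cast_smul_eq_zsmul, map_zsmul]

lemma pow_nsmul_pt (n : ℕ) (v : F.ρ.V) : p ^ n • F.pt n v = 0 :=
  (F.range_pt n _).mpr ⟨v, rfl⟩

lemma nsmul_pt_one (v : F.ρ.V) : p • F.pt 1 v = 0 := by simpa using F.pow_nsmul_pt 1 v

/-- An element lying in every power of the maximal ideal is zero. -/
lemma eq_zero_of_mem_pow {x : ℤ_[p]} (h : ∀ n : ℕ, 0 < n → x ∈ maximalIdeal ℤ_[p] ^ n) :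
    x = 0 := by
  have : x ∈ ⨅ n : ℕ, maximalIdeal ℤ_[p] ^ n := Ideal.mem_iInf.mpr fun n => by
    rcases Nat.eq_zero_or_pos n with rfl | hn
    · rw [pow_zero, Ideal.one_eq_top]; exact Submodule.mem_top
    · exact h n hn
  rwa [Ideal.iInf_pow_eq_bot_of_isLocalRing _ (maximalIdeal.isMaximal ℤ_[p]).ne_top,
    Ideal.mem_bot] at this

lemma det_eq_natCast (hdet : F.ρ.DetIsCyclotomic p) {σ : Qbar ≃ₐ[ℚ] Qbar} {a : ℕ}
    (ha : ∀ (n : ℕ) (μ : Qbar), μ ^ p ^ n = 1 → σ μ = μ ^ a) :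
    LinearMap.det (F.ρ.ρ σ) = (a : ℤ_[p]) :=
  sub_eq_zero.mp (eq_zero_of_mem_pow fun n _ => by
    rw [PadicInt.maximalIdeal_eq_span_p, Ideal.span_singleton_pow, ← Nat.cast_pow]
    exact hdet.2 n σ a (ha n))

/-- The element `g` acts as a scalar modulo `p`. -/
def IsScalarModP (g : Qbar ≃ₐ[ℚ] Qbar) : Prop :=
  ∃ c : ℤ_[p], ∀ v, F.ρ.ρ g v - c • v ∈ (maximalIdeal ℤ_[p] • ⊤ : Submodule ℤ_[p] F.ρ.V)

lemma exists_not_isScalarModP
    (h : ∃ (σ : Qbar ≃ₐ[ℚ] Qbar) (P : (E⁄Qbar).Point),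
      p • P = 0 ∧ σ • P ∉ AddSubgroup.zmultiples P) :
    ∃ g, ¬ F.IsScalarModP g := by
  obtain ⟨σ, P, hP, hσ⟩ := h
  refine ⟨σ, fun ⟨c, hc⟩ => hσ ?_⟩
  obtain ⟨v, rfl⟩ := (F.range_pt 1 P).mp (by rwa [pow_one])
  have h1 : F.pt 1 (F.ρ.ρ σ v - c • v) = 0 := by
    rw [F.pt_eq_zero_iff_mem_pow, pow_one]; exact hc v
  rw [map_sub, sub_eq_zero, F.pt_smul] at h1
  rw [h1]
  obtain ⟨a, ha⟩ : ∃ a : ℤ, c - (a : ℤ_[p]) ∈ maximalIdeal ℤ_[p] :=
    ⟨((PadicInt.toZModPow 1 c).val : ℤ), by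
      have : NeZero (p ^ 1) := ⟨pow_ne_zero _ (Fact.out : p.Prime).ne_zero⟩
      rw [← pow_one (maximalIdeal ℤ_[p]), PadicInt.maximalIdeal_eq_span_p,
        Ideal.span_singleton_pow, ← PadicInt.ker_toZModPow, RingHom.mem_ker, map_sub, map_intCast,
        Int.cast_natCast, ZMod.natCast_zmod_val, sub_self]⟩
  refine ⟨a, ?_⟩
  show a • F.pt 1 v = F.pt 1 (c • v)
  rw [← F.pt_intCast_smul, eq_comm, ← sub_eq_zero, ← map_sub, ← sub_smul,
    F.pt_eq_zero_iff_mem_pow, pow_one]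
  exact Submodule.smul_mem_smul ha Submodule.mem_top

lemma maximalIdeal_smul_top_ne_top :
    (maximalIdeal ℤ_[p] • ⊤ : Submodule ℤ_[p] F.ρ.V) ≠ ⊤ := fun h =>
  two_ne_zero (α := ℕ) (F.ρ.finrank_eq.symm.trans (by
    have : Subsingleton F.ρ.V := by
      have h0 := Submodule.eq_bot_of_le_smul_of_le_jacobson_bot (maximalIdeal ℤ_[p])
        (⊤ : Submodule ℤ_[p] F.ρ.V) Module.Finite.fg_top h.ge
        (IsLocalRing.maximalIdeal_le_jacobson _)
      exact ⟨fun x y => ((Submodule.mem_bot _).mp (h0 ▸ Submodule.mem_top)).trans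
        ((Submodule.mem_bot _).mp (h0 ▸ Submodule.mem_top)).symm⟩
    exact Module.finrank_zero_of_subsingleton))

lemma apply_mem_smul (g : Qbar ≃ₐ[ℚ] Qbar) {I : Ideal ℤ_[p]} {x : F.ρ.V}
    (hx : x ∈ (I • ⊤ : Submodule ℤ_[p] F.ρ.V)) :
    F.ρ.ρ g x ∈ (I • ⊤ : Submodule ℤ_[p] F.ρ.V) :=
  Submodule.smul_induction_on (p := fun z => F.ρ.ρ g z ∈ (I • ⊤ : Submodule ℤ_[p] F.ρ.V)) hx
    (fun r hr z _ => by rw [map_smul]; exact Submodule.smul_mem_smul hr Submodule.mem_top)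
    (fun x y hx hy => by rw [map_add]; exact Submodule.add_mem _ hx hy)

lemma isUnit_of_scalar {g : Qbar ≃ₐ[ℚ] Qbar} {c : ℤ_[p]}
    (hc : ∀ v, F.ρ.ρ g v - c • v ∈ (maximalIdeal ℤ_[p] • ⊤ : Submodule ℤ_[p] F.ρ.V)) :
    IsUnit c := by
  by_contra hcu
  refine F.maximalIdeal_smul_top_ne_top (eq_top_iff.mpr fun v _ => ?_)
  have h := hc (F.ρ.ρ g⁻¹ v)
  rw [← Module.End.mul_apply, ← map_mul, mul_inv_cancel, map_one, Module.End.one_apply,
    Submodule.sub_mem_iff_left _ (Submodule.smul_mem_smul (r := c) (by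
      rwa [IsLocalRing.mem_maximalIdeal]) Submodule.mem_top)] at h
  exact h

lemma not_isScalarModP_mul {g h : Qbar ≃ₐ[ℚ] Qbar} (hg : F.IsScalarModP g)
    (hh : ¬ F.IsScalarModP h) : ¬ F.IsScalarModP (g * h) := by
  rintro ⟨d, hd⟩
  obtain ⟨c, hc⟩ := hg
  obtain ⟨u, rfl⟩ := F.isUnit_of_scalar hc
  refine hh ⟨(↑u⁻¹ : ℤ_[p]) * d, fun v => ?_⟩
  have hkey : (↑u : ℤ_[p]) • F.ρ.ρ h v - d • v ∈
      (maximalIdeal ℤ_[p] • ⊤ : Submodule ℤ_[p] F.ρ.V) := by
    have := Submodule.sub_mem _ (hd v) (hc (F.ρ.ρ h v))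
    rwa [map_mul, Module.End.mul_apply, sub_sub_sub_cancel_left] at this
  have := Submodule.smul_mem _ (↑u⁻¹ : ℤ_[p]) hkey
  rwa [smul_sub, ← mul_smul, ← mul_smul, Units.inv_mul, one_smul] at this

end General

section Good

variable {W : WeierstrassCurve ℤ} {p : ℕ} [Fact p.Prime]
  (F : TateFrame (W.map (Int.castRingHom ℚ)) p) {ℓ : ℕ}
  {A : ValuationSubring Qbar} {σ : Qbar ≃ₐ[ℚ] Qbar}

/-- At a good prime different from `p` the representation is unramified. -/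
theorem isUnramifiedAt_of_good (hℓ : ℓ.Prime) (hℓp : ℓ ≠ p) (hgood : W.IsGoodPrimeFor ℓ) :
    F.ρ.IsUnramifiedAt ℓ := fun A hA σ hσ => LinearMap.ext fun v => F.ext_pt fun n => by
  rw [F.pt_smul, Module.End.one_apply]
  exact EC.inertia_fixes_torsion hℓ hA
    (fun h => hℓp ((Nat.prime_dvd_prime_iff_eq hℓ Fact.out).mp (hℓ.dvd_of_dvd_pow h)))
    hσ (EC.inZeroComponentAt_of_good hℓ hA hgood _) (F.pow_nsmul_pt n v)

/-- Frobenius satisfies the quadratic relation of the reduced curve. -/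
theorem frobenius_quadratic (hℓ : ℓ.Prime) (hℓp : ℓ ≠ p) (hgood : W.IsGoodPrimeFor ℓ)
    (hA : A.LiesOverPrime ℓ) (hσ : A.IsFrobeniusAt σ ℓ) :
    F.ρ.ρ σ * F.ρ.ρ σ - (W.apOfModel ℓ : ℤ_[p]) • F.ρ.ρ σ + (ℓ : ℤ_[p]) • 1 = 0 := by
  refine LinearMap.ext fun v => F.ext_pt fun n => ?_
  rw [LinearMap.add_apply, LinearMap.sub_apply, Module.End.mul_apply, LinearMap.smul_apply,
    LinearMap.smul_apply, Module.End.one_apply, LinearMap.zero_apply, map_zero, map_add, map_sub,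
    F.pt_intCast_smul, show ((ℓ : ℤ_[p])) = ((ℓ : ℤ) : ℤ_[p]) from (Int.cast_natCast ℓ).symm,
    F.pt_intCast_smul, F.pt_smul, F.pt_smul]
  exact EC.frobenius_torsion_quadratic W ℓ hℓ
    (fun h => hℓp ((Nat.prime_dvd_prime_iff_eq hℓ Fact.out).mp (hℓ.dvd_of_dvd_pow h)))
    hgood hA hσ (F.pow_nsmul_pt n v)

/-- A multiple of a Frobenius element is scalar: trace and determinant against the relation. -/
theorem frobenius_trace_det_relation (hℓ : ℓ.Prime) (hℓp : ℓ ≠ p) (hgood : W.IsGoodPrimeFor ℓ)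
    (hA : A.LiesOverPrime ℓ) (hσ : A.IsFrobeniusAt σ ℓ) :
    (F.ρ.trace σ - (W.apOfModel ℓ : ℤ_[p])) • F.ρ.ρ σ =
      (LinearMap.det (F.ρ.ρ σ) - (ℓ : ℤ_[p])) • 1 := by
  have h := F.frobenius_quadratic hℓ hℓp hgood hA hσ
  rw [Gal.cayleyHamilton_two F.ρ.finrank_eq] at h
  rw [← sub_eq_zero, sub_smul, sub_smul, ← h]
  simp only [GaloisRepAdic.trace]
  abel

/-- A Frobenius element which is not scalar has the expected trace and determinant. -/
theorem frobenius_trace_det_of_not_isScalar (hℓ : ℓ.Prime) (hℓp : ℓ ≠ p)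
    (hgood : W.IsGoodPrimeFor ℓ) (hA : A.LiesOverPrime ℓ) (hσ : A.IsFrobeniusAt σ ℓ)
    (hns : ∀ c : ℤ_[p], F.ρ.ρ σ ≠ c • 1) :
    F.ρ.trace σ = (W.apOfModel ℓ : ℤ_[p]) ∧ LinearMap.det (F.ρ.ρ σ) = (ℓ : ℤ_[p]) := by
  have h := F.frobenius_trace_det_relation hℓ hℓp hgood hA hσ
  have ht : F.ρ.trace σ - (W.apOfModel ℓ : ℤ_[p]) = 0 := by
    by_contra ht
    obtain ⟨c, hc⟩ := exists_eq_smul_one_of_smul_eq (Gal.basisTwo F.ρ.finrank_eq) ht h
    exact hns c hc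
  refine ⟨sub_eq_zero.mp ht, sub_eq_zero.mp ?_⟩
  rw [ht, zero_smul] at h
  have hd := congrArg (fun f : Module.End ℤ_[p] F.ρ.V =>
    LinearMap.toMatrix (Gal.basisTwo F.ρ.finrank_eq) (Gal.basisTwo F.ρ.finrank_eq) f 0 0) h
  simpa [LinearMap.toMatrix_one] using hd.symm

/-- **The determinant of the Tate module is cyclotomic.** -/
theorem detIsCyclotomic (hΔ : W.Δ ≠ 0)
    (hirr : ∃ (σ : Qbar ≃ₐ[ℚ] Qbar) (P : ((W.map (Int.castRingHom ℚ))⁄Qbar).Point),
      p • P = 0 ∧ σ • P ∉ AddSubgroup.zmultiples P) :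
    F.ρ.DetIsCyclotomic p := by
  classical
  have hp : p.Prime := Fact.out
  refine ⟨by rw [PadicInt.maximalIdeal_eq_span_p]; exact Ideal.mem_span_singleton_self _,
    fun n g a ha => ?_⟩
  rcases Nat.eq_zero_or_pos n with rfl | hn
  · simp [pow_zero]
  have hkey : ∀ (g : Qbar ≃ₐ[ℚ] Qbar) (a : ℕ), ¬ F.IsScalarModP g →
      (∀ μ : Qbar, μ ^ p ^ n = 1 → g μ = μ ^ a) →
      LinearMap.det (F.ρ.ρ g) - (a : ℤ_[p]) ∈ Ideal.span {((p ^ n : ℕ) : ℤ_[p])} := by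
    intro g a hg ha
    have : NeZero (p ^ n) := ⟨pow_ne_zero _ hp.ne_zero⟩
    obtain ⟨ζ, hζ⟩ := HasEnoughRootsOfUnity.exists_primitiveRoot Qbar (p ^ n)
    obtain ⟨L, hL, hLfix⟩ := F.ρ.isAdicContinuous n
    have : FiniteDimensional ℚ (IntermediateField.adjoin ℚ ({ζ} : Set Qbar)) :=
      IntermediateField.adjoin.finiteDimensional
        ((AlgebraicClosure.isAlgebraic ℚ).isAlgebraic ζ).isIntegral
    obtain ⟨ℓ, hℓ, hℓS, A, hA, τ, hτ, e, -, hge, -⟩ :=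
      Gal.exists_frobenius_generates (L ⊔ IntermediateField.adjoin ℚ ({ζ} : Set Qbar)) g
        (insert p W.Δ.natAbs.primeFactors)
    rw [Finset.mem_insert, not_or] at hℓS
    have hgood : W.IsGoodPrimeFor ℓ := fun h => hℓS.2
      (Nat.mem_primeFactors.mpr ⟨hℓ, Int.natCast_dvd.mp h, Int.natAbs_ne_zero.mpr hΔ⟩)
    have hcong : ∀ v, F.ρ.ρ g v - F.ρ.ρ (τ ^ e) v ∈
        (maximalIdeal ℤ_[p] ^ n • ⊤ : Submodule ℤ_[p] F.ρ.V) := by
      intro v
      have h1 := F.apply_mem_smul (τ ^ e) (hLfix ((τ ^ e)⁻¹ * g) (fun x hx => by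
        rw [AlgEquiv.mul_apply, hge x ((le_sup_left :
          L ≤ L ⊔ IntermediateField.adjoin ℚ ({ζ} : Set Qbar)) hx)]
        exact (τ ^ e).symm_apply_apply x) v)
      rwa [map_sub, ← Module.End.mul_apply, ← map_mul, mul_inv_cancel_left] at h1
    have hns : ∀ c : ℤ_[p], F.ρ.ρ τ ≠ c • 1 := by
      intro c hc
      refine hg ⟨c ^ e, fun v => ?_⟩
      have h1 := Submodule.smul_mono_left (Ideal.pow_le_self hn.ne') (hcong v)
      rwa [map_pow, hc, smul_pow, one_pow, LinearMap.smul_apply, Module.End.one_apply] at h1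
    obtain ⟨-, hdet⟩ := F.frobenius_trace_det_of_not_isScalar hℓ hℓS.1 hgood hA hτ hns
    have hdg : LinearMap.det (F.ρ.ρ g) - ((ℓ ^ e : ℕ) : ℤ_[p]) ∈ maximalIdeal ℤ_[p] ^ n := by
      have := (Gal.trace_det_congr (Gal.basisTwo F.ρ.finrank_eq) hcong).2
      rwa [map_pow, map_pow, hdet, ← Nat.cast_pow] at this
    have hpow : ∀ i : ℕ, (τ ^ i) ζ = ζ ^ ℓ ^ i := by
      intro i
      induction i with
      | zero => simp
      | succ i ih =>
        rw [pow_succ', AlgEquiv.mul_apply, ih, map_pow,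
          Gal.isFrobeniusAt_rootOfUnity hℓ hA hτ (m := p ^ n)
            (fun h => hℓS.1 ((Nat.prime_dvd_prime_iff_eq hℓ hp).mp (hℓ.dvd_of_dvd_pow h)))
            hζ.pow_eq_one, ← pow_mul, pow_succ']
    have hroot : ζ ^ ℓ ^ e = ζ ^ a := by
      rw [← ha ζ hζ.pow_eq_one, ← hpow e]
      exact (hge ζ ((le_sup_right : IntermediateField.adjoin ℚ ({ζ} : Set Qbar) ≤
        L ⊔ IntermediateField.adjoin ℚ ({ζ} : Set Qbar))
          (IntermediateField.subset_adjoin ℚ _ rfl))).symm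
    have hmod : (ℓ ^ e : ℕ) ≡ a [MOD p ^ n] := by
      refine hζ.pow_inj (Nat.mod_lt _ (pow_pos hp.pos n)) (Nat.mod_lt _ (pow_pos hp.pos n)) ?_
      rw [hζ.eq_orderOf, pow_mod_orderOf, pow_mod_orderOf, hroot]
    have hcast : ((ℓ ^ e : ℕ) : ℤ_[p]) - (a : ℤ_[p]) ∈ Ideal.span {((p ^ n : ℕ) : ℤ_[p])} := by
      rw [Nat.cast_pow (p), ← PadicInt.ker_toZModPow, RingHom.mem_ker, map_sub, map_natCast,
        map_natCast, sub_eq_zero]
      exact (ZMod.natCast_eq_natCast_iff _ _ _).mpr hmod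
    rw [PadicInt.maximalIdeal_eq_span_p, Ideal.span_singleton_pow, ← Nat.cast_pow] at hdg
    have := Ideal.add_mem _ hdg hcast
    rwa [sub_add_sub_cancel] at this
  by_cases hg : F.IsScalarModP g
  · obtain ⟨h, hh⟩ := F.exists_not_isScalarModP hirr
    obtain ⟨c, hc⟩ := exists_root_exponent (pow_pos hp.pos n) h
    have h1 := hkey h c hh hc
    have h2 := hkey (g * h) (c * a) (F.not_isScalarModP_mul hg hh) fun μ hμ => by
      rw [AlgEquiv.mul_apply, hc μ hμ, map_pow, ha μ hμ, ← pow_mul, mul_comm]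
    rw [← Ideal.Quotient.eq_zero_iff_mem, map_sub, sub_eq_zero] at h1 h2 ⊢
    rw [map_mul, map_mul, map_mul, Nat.cast_mul, map_mul, h1] at h2
    have hu : IsUnit (Ideal.Quotient.mk (Ideal.span {((p ^ n : ℕ) : ℤ_[p])}) (c : ℤ_[p])) := by
      rw [← h1]
      exact (((Group.isUnit h).map F.ρ.ρ).map LinearMap.det).map _
    rw [mul_comm] at h2
    exact hu.mul_left_cancel h2
  · exact hkey g a hg ha

/-- **The trace of Frobenius at a good prime.** -/
theorem trace_frobenius (hΔ : W.Δ ≠ 0)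
    (hirr : ∃ (σ : Qbar ≃ₐ[ℚ] Qbar) (P : ((W.map (Int.castRingHom ℚ))⁄Qbar).Point),
      p • P = 0 ∧ σ • P ∉ AddSubgroup.zmultiples P)
    (hℓ : ℓ.Prime) (hℓp : ℓ ≠ p) (hgood : W.IsGoodPrimeFor ℓ)
    (hA : A.LiesOverPrime ℓ) (hσ : A.IsFrobeniusAt σ ℓ) :
    F.ρ.trace σ = (W.apOfModel ℓ : ℤ_[p]) := by
  have hp : p.Prime := Fact.out
  have hdet : LinearMap.det (F.ρ.ρ σ) - (ℓ : ℤ_[p]) = 0 :=
    sub_eq_zero.mpr (F.det_eq_natCast (F.detIsCyclotomic hΔ hirr) fun n μ hμ =>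
      Gal.isFrobeniusAt_rootOfUnity hℓ hA hσ
        (fun h => hℓp ((Nat.prime_dvd_prime_iff_eq hℓ hp).mp (hℓ.dvd_of_dvd_pow h))) hμ)
  have h := F.frobenius_trace_det_relation hℓ hℓp hgood hA hσ
  rw [hdet, zero_smul] at h
  rcases smul_eq_zero.mp h with h | h
  · exact sub_eq_zero.mp h
  · have : Nontrivial F.ρ.V :=
      Module.nontrivial_of_finrank_pos (R := ℤ_[p]) (by rw [F.ρ.finrank_eq]; omega)
    exact absurd h (((Group.isUnit σ).map F.ρ.ρ).ne_zero)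

end Good

end TateFrame

/-- An irreducible mod `p` representation moves some line. -/
theorem exists_smul_notMem_zmultiples [DecidableEq Qbar] {E : WeierstrassCurve ℚ} [E.IsElliptic]
    {p : ℕ} [Fact p.Prime]
    (h : WeierstrassCurve.Affine.Point.GaloisRepIsIrreducible (K := Qbar) ℚ E.toAffine p) :
    ∃ (σ : Qbar ≃ₐ[ℚ] Qbar) (P : (E⁄Qbar).Point),
      p • P = 0 ∧ σ • P ∉ AddSubgroup.zmultiples P := by
  by_contra hcon
  push Not at hcon
  obtain ⟨hnt, hN⟩ := h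
  obtain ⟨P, hP⟩ := exists_ne (0 : Submodule.torsionBy ℤ (E⁄Qbar).Point (p : ℤ))
  have hp0 : (p : Qbar) ≠ 0 := Nat.cast_ne_zero.mpr (Fact.out : p.Prime).ne_zero
  rcases hN (Submodule.span (ZMod p) {P}) (fun σ x hx => by
    obtain ⟨c, rfl⟩ := Submodule.mem_span_singleton.mp hx
    obtain ⟨m, hm⟩ := hcon σ P.1
      (by rw [← natCast_zsmul]; exact (Submodule.mem_torsionBy_iff _ _).mp P.2)
    obtain ⟨k, rfl⟩ := ZMod.intCast_surjective c
    refine Submodule.mem_span_singleton.mpr ⟨((k * m : ℤ) : ZMod p), Subtype.ext ?_⟩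
    rw [Int.cast_smul_eq_zsmul, Int.cast_smul_eq_zsmul]
    show (k * m) • (P : (E⁄Qbar).Point) = σ • (k • (P : (E⁄Qbar).Point))
    rw [WeierstrassCurve.Affine.Point.algEquiv_smul_zsmul, ← show m • (P : (E⁄Qbar).Point) =
      σ • (P : (E⁄Qbar).Point) from hm, mul_smul]) with hb | ht
  · exact hP ((Submodule.mem_bot _).mp (hb ▸ Submodule.mem_span_singleton_self P))
  · have h2 := EC.finrank_torsionBy (K := Qbar) E p hp0
    have h1 : Module.finrank (ZMod p) (Submodule.span (ZMod p) {P}) = 1 := finrank_span_singleton hP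
    rw [ht, finrank_top] at h1
    omega

end Fermat.Agent.Raising.Tate
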