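import Mathlib.Data.Fintype.Pigeonhole
import Fermat.Agent.Tate.Component
import Fermat.Agent.Tate.Frobenius

/-!
# Components of the torsion of odd order at a place of multiplicative reduction

On `y² + xy = x³ + t` a finite group of points of odd order maps onto a cyclic group of components;
the decomposition group acts on the components by a sign, inertia trivially.
-/

noncomputable section

namespace Fermat.Agent.Raising.Tate

open WeierstrassCurve Fermat.Agent.Tate
open scoped WeierstrassCurve.Affine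
open Fermat.Agent.SmallExponents (vcX vcY vcHom vcHom_some vcHom_injective vcHom_surjective)

section Node

variable {K : Type} [Field K] [DecidableEq K] {A : ValuationSubring K} {t : K}

local notation "v" => A.valuation

/-- A point of odd order reducing to the node lies on a side component. -/
theorem isPlus_or_neg_of_odd (ht : v t < 1) (ht0 : t ≠ 0) {N : ℕ} (hN : Odd N)
    {P : (nodeCurve t).Point} (hP : Deep A P) (h : N • P = 0) :
    ∃ g, IsPlus A P g ∨ IsPlus A (-P) g := by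
  obtain ⟨x, y, hns, rfl, hx⟩ := hP
  refine ⟨v x, isPlus_or_isPlus_neg hx ?_⟩
  by_contra hle
  rw [not_lt] at hle
  obtain ⟨k, hk⟩ := hN
  have hd := not_deep_nsmul ht (not_deep_add_self_of_mid ht ht0 (h := hns) hx hle) (k + 1)
  rw [Fermat.Agent.Tate.mul_succ_eq_one_of_odd hk h, deep_some] at hd
  exact hd hx

/-- The valuation of the abscissa. -/
def xVal (A : ValuationSubring K) : (nodeCurve t).Point → A.ValueGroup
  | .zero => 0
  | @Affine.Point.some _ _ _ x _ _ => A.valuation x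

omit [DecidableEq K] in
theorem xVal_eq {P : (nodeCurve t).Point} {g : A.ValueGroup} (h : IsPlus A P g) :
    xVal A P = g := by
  obtain ⟨x, y, hns, rfl, rfl, -⟩ := h
  rfl

/-- The components met by a finite group of points of odd order form a cyclic group. -/
theorem exists_component_generator (ht : v t < 1) (ht0 : t ≠ 0)
    (H : AddSubgroup (nodeCurve t).Point) [Finite H] {N : ℕ} (hN : Odd N)
    (hNH : ∀ P ∈ H, N • P = 0) :
    ∃ G ∈ H, ∀ R ∈ H, ∃ k : ℤ, ¬ Deep A (R - k • G) := by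
  classical
  by_cases hS : ∃ R ∈ H, ∃ g, IsPlus A R g
  swap
  · refine ⟨0, H.zero_mem, fun R hR => ⟨0, fun hd => hS ?_⟩⟩
    rw [smul_zero, sub_zero] at hd
    obtain ⟨g, hg | hg⟩ := isPlus_or_neg_of_odd ht ht0 hN hd (hNH R hR)
    · exact ⟨R, hR, g, hg⟩
    · exact ⟨-R, H.neg_mem hR, g, hg⟩
  have hfin : {R : (nodeCurve t).Point | R ∈ H ∧ ∃ g, IsPlus A R g}.Finite :=
    (Set.finite_coe_iff.1 (‹Finite H› : Finite (H : Set (nodeCurve t).Point))).subset
      fun R hR => hR.1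
  obtain ⟨R₀, hR₀, hR₀'⟩ := hS
  obtain ⟨G, hGS, hmax⟩ := Finset.exists_max_image hfin.toFinset (xVal A)
    ⟨R₀, hfin.mem_toFinset.2 ⟨hR₀, hR₀'⟩⟩
  obtain ⟨hGH, δ, hδ⟩ := hfin.mem_toFinset.1 hGS
  have hplus : ∀ R ∈ H, ∀ g, IsPlus A R g → ∃ k : ℤ, ¬ Deep A (R - k • G) := by
    by_contra! hne
    obtain ⟨R₁, hR₁, g₁, hg₁, hk₁⟩ := hne
    have hBfin : {R | R ∈ H ∧ (∃ g, IsPlus A R g) ∧ ∀ k : ℤ, Deep A (R - k • G)}.Finite :=
      hfin.subset fun R hR => ⟨hR.1, hR.2.1⟩
    obtain ⟨R, hRB, hRmax⟩ := Finset.exists_max_image hBfin.toFinset (xVal A)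
      ⟨R₁, hBfin.mem_toFinset.2 ⟨hR₁, ⟨g₁, hg₁⟩, hk₁⟩⟩
    obtain ⟨hRH, ⟨g, hg⟩, hk⟩ := hBfin.mem_toFinset.1 hRB
    have hle : g ≤ δ := by
      rw [← xVal_eq hg, ← xVal_eq hδ]
      exact hmax R (hfin.mem_toFinset.2 ⟨hRH, g, hg⟩)
    rcases hle.lt_or_eq with hlt | rfl
    · have hsub := isPlus_sub hg hδ hlt
      have hbig : g < g / δ := by
        obtain ⟨-, y, -, -, -, hδ1, -, hy⟩ := hδ
        obtain ⟨-, y', -, -, -, -, -, hy'⟩ := id hg
        have hδpos : 0 < δ := lt_of_le_of_lt zero_le hy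
        rw [lt_div_iff₀ hδpos]
        refine mul_lt_of_lt_one_right (lt_of_le_of_lt zero_le hy') ?_
        exact hδ1
      have : ∃ k : ℤ, ¬ Deep A (R - G - k • G) := by
        by_contra! hd
        have := hRmax (R - G) (hBfin.mem_toFinset.2 ⟨H.sub_mem hRH hGH, ⟨_, hsub⟩, hd⟩)
        rw [xVal_eq hsub, xVal_eq hg] at this
        exact absurd this (not_le.2 hbig)
      obtain ⟨k, hk'⟩ := this
      refine hk' ?_
      have := hk (k + 1)
      rwa [add_smul, one_smul, add_comm, ← sub_sub] at this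
    · refine not_deep_sub_of_isPlus hg hδ ?_
      simpa using hk 1
  refine ⟨G, hGH, fun R hR => ?_⟩
  by_cases hd : Deep A R
  swap
  · exact ⟨0, by rwa [zero_smul, sub_zero]⟩
  obtain ⟨g, hg | hg⟩ := isPlus_or_neg_of_odd ht ht0 hN hd (hNH R hR)
  · exact hplus R hR g hg
  · obtain ⟨k, hk⟩ := hplus (-R) (H.neg_mem hR) g hg
    refine ⟨-k, ?_⟩
    rwa [← deep_neg_iff, show -(R - (-k) • G) = -R - k • G by rw [neg_smul]; abel]

variable {F : Type} [Field F] [Algebra F K] {σ : K ≃ₐ[F] K}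

omit [DecidableEq K] in
/-- Elements of the decomposition group fix the value of an algebraic element. -/
theorem val_apply_eq_self [Algebra.IsAlgebraic F K] (hd : σ ∈ A.decompositionSubgroup F) (x : K) :
    v (σ x) = v x := by
  classical
  have hfin : (Set.range fun n : ℕ => (σ ^ n) x).Finite := by
    refine ((minpoly F x).rootSet_finite K).subset ?_
    rintro _ ⟨n, rfl⟩
    rw [Polynomial.mem_rootSet_of_ne
      (minpoly.ne_zero ((Algebra.IsAlgebraic.isAlgebraic (R := F) x).isIntegral)),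
      Polynomial.aeval_algHom_apply, minpoly.aeval, map_zero]
  have := hfin.to_subtype
  obtain ⟨a, b, hab, he⟩ := Finite.exists_ne_map_eq_of_infinite
    fun n : ℕ => (⟨(σ ^ n) x, n, rfl⟩ : Set.range fun n : ℕ => (σ ^ n) x)
  obtain ⟨m, hm⟩ : ∃ m, (σ ^ (m + 1)) x = x := by
    wlog hlt : a < b generalizing a b
    · exact this b a hab.symm he.symm (lt_of_le_of_ne (not_lt.1 hlt) hab.symm)
    refine ⟨b - a - 1, (σ ^ a).injective ?_⟩
    rw [← AlgEquiv.mul_apply, ← pow_add, show a + (b - a - 1 + 1) = b by omega]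
    exact (congrArg Subtype.val he).symm
  have hchain : ∀ R : A.ValueGroup → A.ValueGroup → Prop,
      (∀ a b c, R a b → R b c → R a c) → (∀ y z : K, R (v y) (v z) → R (v (σ y)) (v (σ z))) →
      R (v (σ x)) (v x) → ∀ n, R (v ((σ ^ (n + 1)) x)) (v x) := by
    intro R htr hmap h n
    induction n with
    | zero => simpa using h
    | succ n ih =>
      rw [pow_succ', AlgEquiv.mul_apply]
      exact htr _ _ _ (hmap _ _ ih) h
  rcases lt_trichotomy (v (σ x)) (v x) with h | h | h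
  · have := hchain (· < ·) (fun _ _ _ => lt_trans) (fun y z => (val_lt_val_iff hd y z).2) h m
    rw [hm] at this
    exact absurd this (lt_irrefl _)
  · exact h
  · have := hchain (· > ·) (fun _ _ _ h h' => lt_trans h' h)
      (fun y z => (val_lt_val_iff hd z y).2) h m
    rw [hm] at this
    exact absurd this (lt_irrefl _)

/-- The decomposition group preserves the component of a point of odd order. -/
theorem not_deep_sub_apply_of_odd [Algebra.IsAlgebraic F K] (ht : v t < 1) (ht0 : t ≠ 0)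
    (hd : σ ∈ A.decompositionSubgroup F) {N : ℕ} (hN : Odd N)
    {x y : K} {h : (nodeCurve t).Nonsingular x y} {h' : (nodeCurve t).Nonsingular (σ x) (σ y)}
    (htor : N • Affine.Point.some x y h = 0) :
    ¬ Deep A (Affine.Point.some (σ x) (σ y) h' - Affine.Point.some x y h) := by
  have he := val_apply_eq_self hd x
  by_cases hx : v x < 1
  · obtain ⟨g, hg | hg⟩ := isPlus_or_neg_of_odd ht ht0 hN (deep_some (h := h) |>.2 hx) htor
    · obtain ⟨x', y', _, e, rfl, -, hxt, hy⟩ := hg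
      cases e
      exact not_deep_sub_of_isPlus (g := v x)
        ⟨_, _, h', rfl, he, hx, hxt, he ▸ (val_lt_val_iff hd y x).2 hy⟩
        ⟨x, y, h, rfl, rfl, hx, hxt, hy⟩
    · obtain ⟨x', y', _, e, rfl, -, hxt, hy⟩ := hg
      rw [Affine.Point.neg_some, Affine.Point.some.injEq] at e
      obtain ⟨rfl, rfl⟩ := e
      rw [nodeCurve_negY] at hy
      have hy' : v (-σ y - σ x) < v x := by
        have := (val_lt_val_iff hd (-y - x) x).2 hy
        rwa [map_sub σ, map_neg σ, he] at this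
      have := not_deep_sub_of_isPlus (A := A) (g := v x)
        (P := -Affine.Point.some (σ x) (σ y) h') (Q := -Affine.Point.some x y h)
        ⟨_, _, _, Affine.Point.neg_some h', he, hx, hxt, by rw [nodeCurve_negY]; exact hy'⟩
        ⟨x, _, _, Affine.Point.neg_some h, rfl, hx, hxt, by rw [nodeCurve_negY]; exact hy⟩
      rwa [← deep_neg_iff, neg_sub, sub_neg_eq_add, add_comm, ← sub_eq_add_neg] at this
  · rw [sub_eq_add_neg]
    exact not_deep_add ht (by rwa [deep_some, he]) (by rwa [deep_neg_iff, deep_some])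

end Node

section Curve

variable {W : WeierstrassCurve ℤ} {A : ValuationSubring (AlgebraicClosure ℚ)} {q : ℕ}

local notation "Qbar" => AlgebraicClosure ℚ

/-- The components of the odd torsion at a multiplicative prime form a cyclic group. -/
theorem exists_inE0_generator (hq : q.Prime) (hA : A.LiesOverPrime q) (hΔ0 : W.Δ ≠ 0)
    (hΔ : (q : ℤ) ∣ W.Δ) (hc₄ : ¬ (q : ℤ) ∣ W.c₄)
    (H : AddSubgroup ((W.map (Int.castRingHom ℚ))⁄Qbar).Point) [Finite H] {N : ℕ} (hN : Odd N)
    (hNH : ∀ P ∈ H, N • P = 0) :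
    ∃ G ∈ H, ∀ R ∈ H, ∃ k : ℤ, InE0 A (W := qbarCurve W) (R - k • G) := by
  obtain ⟨h0, hv, hc⟩ := qbarCurve_multiplicative hq hA hΔ0 hΔ hc₄
  obtain ⟨D, -⟩ := exists_normalData (W := qbarCurve W) (isInt_qbarCurve A W) h0 hv hc
  let f := vcHom (qbarCurve W) D.C
  have hfin : Finite (H.comap f) :=
    Finite.of_injective (fun P => (⟨f P.1, P.2⟩ : H)) fun P Q h =>
      Subtype.ext (vcHom_injective _ _ (congrArg Subtype.val h))
  suffices ∀ (V : WeierstrassCurve.Affine Qbar) (_ : V = nodeCurve D.t) (H' : AddSubgroup V.Point),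
      Finite H' → (∀ P ∈ H', N • P = 0) →
      ∃ G ∈ H', ∀ R ∈ H', ∃ k : ℤ, InE0 A (R - k • G) by
    obtain ⟨G, hG, hk⟩ := this (D.C • qbarCurve W).toAffine D.hC (H.comap f) hfin
      fun P hP => vcHom_injective (qbarCurve W) D.C
        ((map_nsmul f N P).trans ((hNH _ hP).trans (map_zero f).symm))
    refine ⟨f G, hG, fun R hR => ?_⟩
    obtain ⟨R, rfl⟩ := vcHom_surjective (qbarCurve W) D.C R
    obtain ⟨k, hk⟩ := hk R hR
    refine ⟨k, ?_⟩
    rw [← map_zsmul f, ← map_sub f]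
    exact (inE0_vcHom_iff D _).2 hk
  rintro V rfl H' hH' hNH'
  obtain ⟨G, hG, hk⟩ := exists_component_generator (A := A) D.ht D.ht0 H' hN hNH'
  exact ⟨G, hG, fun R hR => (hk R hR).imp fun k h => (inE0_iff_not_deep D.ht _).2 h⟩

/-- The decomposition group acts on the components of odd torsion by a sign, trivial on inertia. -/
theorem exists_sign (hq : q.Prime) (hA : A.LiesOverPrime q) (hΔ0 : W.Δ ≠ 0)
    (hΔ : (q : ℤ) ∣ W.Δ) (hc₄ : ¬ (q : ℤ) ∣ W.c₄) {σ : Qbar ≃ₐ[ℚ] Qbar}
    (hd : σ ∈ A.decompositionSubgroup ℚ) :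
    ∃ z : ℤ, z * z = 1 ∧ (σ ∈ A.inertiaSubgroupIn ℚ → z = 1) ∧
      ∀ (N : ℕ), Odd N → ∀ P : ((W.map (Int.castRingHom ℚ))⁄Qbar).Point, N • P = 0 →
        InE0 A (W := qbarCurve W) (σ • P - z • P) := by
  obtain ⟨hΔ0', hΔv, hc⟩ := qbarCurve_multiplicative hq hA hΔ0 hΔ hc₄
  obtain ⟨D, hD⟩ := exists_normalData (W := qbarCurve W) (isInt_qbarCurve A W) hΔ0' hΔv hc
  have ha₁ : σ (qbarCurve W).a₁ = (qbarCurve W).a₁ := by rw [qbar_a₁, map_intCast]
  have ha₂ : σ (qbarCurve W).a₂ = (qbarCurve W).a₂ := by rw [qbar_a₂, map_intCast]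
  have ha₃ : σ (qbarCurve W).a₃ = (qbarCurve W).a₃ := by rw [qbar_a₃, map_intCast]
  have ha₄ : σ (qbarCurve W).a₄ = (qbarCurve W).a₄ := by rw [qbar_a₄, map_intCast]
  have ha₆ : σ (qbarCurve W).a₆ = (qbarCurve W).a₆ := by rw [qbar_a₆, map_intCast]
  obtain ⟨htσ, hr, hw, hus⟩ := D.decomposition_cases hd ha₁ ha₂ ha₃ ha₄ ha₆
  classical
  refine ⟨if σ (D.C.u : Qbar) = D.C.u then 1 else -1, by split_ifs <;> rfl,
    fun hI => if_pos (hD σ hI ha₁ ha₂ ha₃ ha₄ ha₆).2.1, fun N hN P hP => ?_⟩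
  set f := vcHom (qbarCurve W) D.C with hf
  have hadd := fun (P Q : (qbarCurve W).Point) (hP : InE0 A P) =>
    inE0_add_of_multiplicative (isInt_qbarCurve A W) hΔ0' hΔv hc hP (Q := Q)
  have hneg := fun (P : (qbarCurve W).Point) (hP : InE0 A P) =>
    inE0_neg_of_multiplicative (isInt_qbarCurve A W) hΔ0' hΔv hc hP
  obtain ⟨P₀, rfl⟩ := vcHom_surjective (qbarCurve W) D.C P
  rcases P₀ with _ | ⟨x₀, y₀, h₀⟩
  · have e : f (0 : ((D.C • qbarCurve W).toAffine).Point) = 0 := map_zero f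
    change InE0 A (W := qbarCurve W) (σ • f 0 - _ • f 0)
    rw [e]
    change InE0 A (W := qbarCurve W) (Affine.Point.map σ.toAlgHom 0 - _)
    rw [map_zero, smul_zero, sub_zero]
    exact inE0_zero
  have hCW : (D.C • qbarCurve W).toAffine = nodeCurve D.t := D.hC
  have h₀' := node_nonsingular_apply D.ht D.ht0 htσ hCW h₀
  have hnd : InE0 A (W := qbarCurve W)
      (f (.some (σ x₀) (σ y₀) h₀') - f (.some x₀ y₀ h₀)) := by
    have htor : N • Affine.Point.some x₀ y₀ h₀ = 0 :=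
      vcHom_injective (qbarCurve W) D.C
        ((map_nsmul f N _).trans (hP.trans (map_zero f).symm))
    rw [← map_sub]
    refine (inE0_vcHom_iff D _).2 ?_
    revert htor
    clear hP
    revert h₀' h₀
    rw [hCW]
    intro h₀ h₀' htor
    exact (inE0_iff_not_deep D.ht _).2 (not_deep_sub_apply_of_odd D.ht D.ht0 hd hN htor)
  have hxy : ∃ h, f (.some x₀ y₀ h₀) =
      Affine.Point.some (W' := qbarCurve W) (vcX D.C x₀) (vcY D.C x₀ y₀) h :=
    ⟨_, vcHom_some _ _ _⟩
  obtain ⟨h, hPeq⟩ := hxy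
  have hX : vcX D.C (σ x₀) = σ (vcX D.C x₀) := by
    simp only [vcX, map_add, map_mul, map_pow, hr]
    rcases hus with ⟨hu, -⟩ | ⟨hu, -⟩ <;> rw [hu]; ring
  rcases hus with ⟨hu, hs⟩ | ⟨hu, hs⟩
  · rw [if_pos hu, one_smul]
    convert hnd using 2
    rw [hPeq, smul_some, hf, vcHom_some, Affine.Point.some.injEq]
    refine ⟨hX.symm, ?_⟩
    simp only [vcY, map_add, map_mul, map_pow, hu, hs, hw]
  · have hne : σ (D.C.u : Qbar) ≠ D.C.u := fun e => by
      rw [hu, neg_eq_iff_add_eq_zero, ← two_mul] at e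
      exact D.C.u.ne_zero ((mul_eq_zero.1 e).resolve_left two_ne_zero)
    rw [if_neg hne, neg_one_zsmul, sub_neg_eq_add]
    convert hneg _ hnd using 1
    rw [neg_sub, sub_eq_add_neg, add_comm]
    congr 1
    rw [hPeq, smul_some, hf, vcHom_some, Affine.Point.neg_some, Affine.Point.some.injEq]
    refine ⟨hX.symm, ?_⟩
    have hY : σ (vcY D.C x₀ y₀) =
        vcY D.C (σ x₀) ((D.C • qbarCurve W).toAffine.negY (σ x₀) (σ y₀)) := by
      rw [hCW, nodeCurve_negY]
      simp only [vcY, map_add, map_mul, map_pow, hu, hs, hw]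
      ring
    rw [hY, Fermat.Agent.SmallExponents.vc_negY]

end Curve

end Fermat.Agent.Raising.Tate
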