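import Mathlib.RingTheory.AdicCompletion.Basic
import Fermat.Prelude.Def_GaloisRep_StrictOrdinary
import Fermat.Prelude.Thm_IsAdicComplete_of_module_finite
import Fermat.Agent.Raising.Tate.Components
import Fermat.Agent.Raising.Tate.Galois
import Fermat.Agent.Tate.Line

/-!
# The Tate module at a place of multiplicative reduction over `p` is ordinary

The line consists of the compatible systems of points of nonsingular reduction.
-/

noncomputable section

namespace Fermat.Agent.Raising.Tate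

open WeierstrassCurve Fermat.Agent.Tate IsLocalRing Module
open scoped WeierstrassCurve.Affine

local notation "Qbar" => AlgebraicClosure ℚ

variable {p : ℕ} [Fact p.Prime] {W : WeierstrassCurve ℤ}

section Group

/-- The points of nonsingular reduction at a multiplicative place. -/
def e0Group {A : ValuationSubring Qbar} (hA : A.LiesOverPrime p) (hΔ0 : W.Δ ≠ 0)
    (hΔ : (p : ℤ) ∣ W.Δ) (hc₄ : ¬ (p : ℤ) ∣ W.c₄) :
    AddSubgroup ((W.map (Int.castRingHom ℚ))⁄Qbar).Point where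
  carrier := {P | InE0 A (W := qbarCurve W) P}
  add_mem' := fun ha hb =>
    let ⟨h0, hv, hc⟩ := qbarCurve_multiplicative Fact.out hA hΔ0 hΔ hc₄
    inE0_add_of_multiplicative (isInt_qbarCurve A W) h0 hv hc ha hb
  zero_mem' := inE0_zero
  neg_mem' := fun ha =>
    let ⟨h0, hv, hc⟩ := qbarCurve_multiplicative Fact.out hA hΔ0 hΔ hc₄
    inE0_neg_of_multiplicative (isInt_qbarCurve A W) h0 hv hc ha

variable {G : Type*} [AddCommGroup G]

/-- In a cyclic group the elements killed by `p` are the multiples of any one of them not zero. -/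
theorem exists_zsmul_eq_of_cyclic {a x y : G} (hy : y ∈ AddSubgroup.zmultiples a)
    (hx : x ∈ AddSubgroup.zmultiples a) (hpx : p • x = 0) (hpy : p • y = 0) (hy0 : y ≠ 0) :
    ∃ i : ℤ, x = i • y := by
  have hp : p.Prime := Fact.out
  obtain ⟨j, rfl⟩ := hy
  obtain ⟨k, rfl⟩ := hx
  simp only at hpx hpy hy0 ⊢
  rw [← natCast_zsmul, smul_smul, ← addOrderOf_dvd_iff_zsmul_eq_zero] at hpx hpy
  rw [ne_eq, ← addOrderOf_dvd_iff_zsmul_eq_zero] at hy0
  set m := (addOrderOf a : ℤ)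
  obtain ⟨r, hr⟩ : (p : ℤ) ∣ m := by
    by_contra h
    exact hy0
      (((Nat.prime_iff_prime_int.1 hp).coprime_iff_not_dvd.2 h).symm.dvd_of_dvd_mul_left hpy)
  have hp0 : (p : ℤ) ≠ 0 := by exact_mod_cast hp.ne_zero
  rw [hr, mul_dvd_mul_iff_left hp0] at hpx hpy
  obtain ⟨j', rfl⟩ := hpy
  obtain ⟨k', rfl⟩ := hpx
  have hj' : ¬ (p : ℤ) ∣ j' := fun ⟨c, hc⟩ => hy0 (by rw [hr, hc]; exact ⟨c, by ring⟩)
  obtain ⟨u, w, huw⟩ := (Nat.prime_iff_prime_int.1 hp).coprime_iff_not_dvd.2 hj'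
  refine ⟨k' * w, ?_⟩
  have hrp : (r * (p : ℤ)) • a = 0 := by
    rw [mul_comm, ← hr]; exact addOrderOf_dvd_iff_zsmul_eq_zero.1 dvd_rfl
  calc (r * k') • a = ((k' * w) * (r * j') + (k' * u) * (r * (p : ℤ))) • a := by
        congr 1
        linear_combination (-(r * k')) * huw
    _ = (k' * w) • ((r * j') • a) := by
        rw [add_smul, mul_smul (k' * u), hrp, smul_zero, add_zero, mul_smul]

end Group

namespace TateFrame

variable (T : TateFrame (W.map (Int.castRingHom ℚ)) p) {A : ValuationSubring Qbar}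
  (hA : A.LiesOverPrime p) (hΔ0 : W.Δ ≠ 0) (hΔ : (p : ℤ) ∣ W.Δ) (hc₄ : ¬ (p : ℤ) ∣ W.c₄)
  (hp2 : p ≠ 2)

/-- The line of the points of nonsingular reduction. -/
def e0Line : Submodule ℤ_[p] T.ρ.V where
  carrier := {v | ∀ n, T.pt n v ∈ e0Group hA hΔ0 hΔ hc₄}
  zero_mem' n := by rw [map_zero]; exact zero_mem _
  add_mem' ha hb n := by rw [map_add]; exact add_mem (ha n) (hb n)
  smul_mem' c v hv n := by
    obtain ⟨a, ha⟩ : ∃ a : ℤ, c - (a : ℤ_[p]) ∈ Ideal.span {(p : ℤ_[p]) ^ n} :=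
      ⟨((c.appr n : ℕ) : ℤ), by rw [Int.cast_natCast]; exact PadicInt.appr_spec n c⟩
    have h : T.pt n (c • v) = a • T.pt n v := by
      rw [← T.pt_intCast_smul, ← sub_eq_zero, ← map_sub, ← sub_smul, T.pt_eq_zero]
      exact Submodule.smul_mem_smul ha Submodule.mem_top
    rw [h]
    exact zsmul_mem (hv n) a

theorem pt_nat_smul_succ (n : ℕ) (v : T.ρ.V) : T.pt (n + 1) ((p : ℤ_[p]) • v) = T.pt n v := by
  rw [Nat.cast_smul_eq_nsmul, map_nsmul, T.pt_succ]

theorem finite_range_pt (n : ℕ) : Finite (T.pt n).range := by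
  have : Finite (ℤ_[p] ⧸ Ideal.span {(p : ℤ_[p]) ^ n}) :=
    Finite.of_equiv _ ((Ideal.quotEquivOfEq (PadicInt.ker_toZModPow n).symm).trans
      (RingHom.quotientKerEquivOfSurjective (ZMod.ringHom_surjective
        (PadicInt.toZModPow n)))).symm.toEquiv
  let b := Gal.basisTwo T.ρ.finrank_eq
  let f : (Fin 2 → ℤ_[p] ⧸ Ideal.span {(p : ℤ_[p]) ^ n}) → (T.pt n).range := fun c =>
    ⟨T.pt n (∑ i, Quotient.out (c i) • b i), _, rfl⟩
  refine Finite.of_surjective f ?_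
  rintro ⟨_, v, rfl⟩
  refine ⟨fun i => Ideal.Quotient.mk _ (b.repr v i), Subtype.ext ?_⟩
  show T.pt n _ = T.pt n v
  conv_rhs => rw [← b.sum_repr v]
  rw [← sub_eq_zero, ← map_sub, ← Finset.sum_sub_distrib, T.pt_eq_zero]
  refine Submodule.sum_mem _ fun i _ => ?_
  rw [← sub_smul]
  exact Submodule.smul_mem_smul (Ideal.Quotient.eq.1 (Ideal.Quotient.mk_out _)) Submodule.mem_top

include hp2 in
/-- The components met by one level form a cyclic group. -/
theorem exists_generator_pt (n : ℕ) : ∃ G ∈ (T.pt n).range, ∀ R ∈ (T.pt n).range,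
    ∃ k : ℤ, R - k • G ∈ e0Group hA hΔ0 hΔ hc₄ := by
  have := T.finite_range_pt n
  exact exists_inE0_generator Fact.out hA hΔ0 hΔ hc₄ (T.pt n).range
    (N := p ^ n) (((Fact.out : p.Prime).odd_of_ne_two hp2).pow)
    fun P hP => (T.range_pt n P).2 hP

include hp2 in
/-- A point of level `1` of singular reduction. -/
theorem exists_pt_one_notMem : ∃ v, T.pt 1 v ∉ e0Group hA hΔ0 hΔ hc₄ := by
  obtain ⟨h0, hv, hc⟩ := qbarCurve_multiplicative Fact.out hA hΔ0 hΔ hc₄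
  obtain ⟨P, hP, hPd⟩ := exists_torsion_not_inE0 (p := p) (W := qbarCurve W)
    (isInt_qbarCurve A W) h0 hv hc hp2
  obtain ⟨v, hv⟩ := (T.range_pt 1 P).1 (by rw [pow_one]; exact hP)
  exact ⟨v, by rw [hv]; exact hPd⟩

include hp2 in
/-- Modulo nonsingular reduction, a point with multiple of nonsingular reduction is a multiple of
any level `1` point of singular reduction. -/
theorem exists_sub_zsmul_mem {n : ℕ} {R : ((W.map (Int.castRingHom ℚ))⁄Qbar).Point}
    (hR : p ^ (n + 1) • R = 0) (hpR : p • R ∈ e0Group hA hΔ0 hΔ hc₄) {u : T.ρ.V}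
    (hu : T.pt 1 u ∉ e0Group hA hΔ0 hΔ hc₄) :
    ∃ i : ℤ, R - i • T.pt 1 u ∈ e0Group hA hΔ0 hΔ hc₄ := by
  set E0 := e0Group hA hΔ0 hΔ hc₄
  obtain ⟨G, -, hgen⟩ := T.exists_generator_pt hA hΔ0 hΔ hc₄ hp2 (n + 1)
  have hu' : p • T.pt 1 u = 0 := T.nsmul_pt_one u
  have hmem : ∀ S ∈ (T.pt (n + 1)).range,
      QuotientAddGroup.mk' E0 S ∈ AddSubgroup.zmultiples (QuotientAddGroup.mk' E0 G) := by
    intro S hS
    obtain ⟨k, hk⟩ := hgen S hS
    refine ⟨k, ?_⟩
    show k • QuotientAddGroup.mk' E0 G = _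
    rw [← map_zsmul, QuotientAddGroup.mk'_eq_mk']
    exact ⟨S - k • G, hk, add_sub_cancel _ _⟩
  obtain ⟨i, hi⟩ := exists_zsmul_eq_of_cyclic (p := p)
    (hmem (T.pt 1 u) ((T.range_pt _ _).1 (by rw [pow_succ, mul_nsmul', hu', nsmul_zero])))
    (hmem R ((T.range_pt _ _).1 hR))
    (by rw [← map_nsmul]; exact (QuotientAddGroup.eq_zero_iff _).2 hpR)
    (by rw [← map_nsmul, hu', map_zero])
    (fun h => hu ((QuotientAddGroup.eq_zero_iff _).1 h))
  refine ⟨i, (QuotientAddGroup.eq_zero_iff _).1 ?_⟩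
  show QuotientAddGroup.mk' E0 (R - i • T.pt 1 u) = 0
  rw [map_sub, map_zsmul, hi, sub_self]

include hp2 in
/-- A primitive vector of the line. -/
theorem exists_mem_e0Line : ∃ v ∈ T.e0Line hA hΔ0 hΔ hc₄, T.pt 1 v ≠ 0 := by
  have hp : p.Prime := Fact.out
  set E0 := e0Group hA hΔ0 hΔ hc₄
  obtain ⟨u, hu⟩ := T.exists_pt_one_notMem hA hΔ0 hΔ hc₄ hp2
  have hu1 : p • T.pt 1 u = 0 := T.nsmul_pt_one u
  -- level one
  obtain ⟨w, hw⟩ : ∃ w, T.pt 1 w ∈ E0 ∧ T.pt 1 w ≠ 0 := by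
    by_contra! h
    have key : ∀ v : T.ρ.V, ∃ i : ℤ, T.pt 1 v = i • T.pt 1 u := fun v => by
      have hv1 : p • T.pt 1 v = 0 := T.nsmul_pt_one v
      obtain ⟨i, hi⟩ := T.exists_sub_zsmul_mem hA hΔ0 hΔ hc₄ hp2 (n := 0) (R := T.pt 1 v)
        (by rw [zero_add, pow_one]; exact hv1) (by rw [hv1]; exact zero_mem _) hu
      refine ⟨i, sub_eq_zero.1 ?_⟩
      rw [← T.pt_intCast_smul, ← map_sub] at hi ⊢
      exact h _ hi
    let b := Gal.basisTwo T.ρ.finrank_eq
    obtain ⟨i, hi⟩ := key (b 0)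
    obtain ⟨j, hj⟩ := key (b 1)
    have h0 : T.pt 1 ((j : ℤ_[p]) • b 0 - (i : ℤ_[p]) • b 1) = 0 := by
      rw [map_sub, T.pt_intCast_smul, T.pt_intCast_smul, hi, hj, smul_smul, smul_smul, mul_comm,
        sub_self]
    rw [T.pt_eq_zero, pow_one] at h0
    have e := fun k => Gal.repr_mem_of_mem_smul_top b h0 k
    have e0 := e 0
    have e1 := e 1
    simp at e0 e1
    have hz : ∀ v, T.pt 1 v = 0 := fun v => by
      have hij : ∀ k, T.pt 1 (b k) = 0 := fun k => by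
        have hk : ∀ m : ℤ, (p : ℤ_[p]) ∣ (m : ℤ_[p]) → m • T.pt 1 u = 0 := fun m hm => by
          rw [← Ideal.mem_span_singleton, ← PadicInt.maximalIdeal_eq_span_p,
            IsLocalRing.mem_maximalIdeal,
            PadicInt.mem_nonunits, PadicInt.norm_int_lt_one_iff_dvd] at hm
          obtain ⟨c, rfl⟩ := hm
          rw [mul_comm, mul_smul, natCast_zsmul, hu1, zsmul_zero]
        fin_cases k
        · exact hi.trans (hk i (Ideal.mem_span_singleton.1 e1))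
        · exact hj.trans (hk j (Ideal.mem_span_singleton.1 e0))
      rw [T.pt_eq_zero, pow_one]
      rw [← b.sum_repr v]
      exact Submodule.sum_mem _ fun k _ => Submodule.smul_mem _ _ (by
        have := hij k
        rwa [T.pt_eq_zero, pow_one] at this)
    exact hu (by rw [hz u]; exact zero_mem _)
  -- all levels
  have step : ∀ (n : ℕ) (v : T.ρ.V), ∃ v' : T.ρ.V, T.pt n v ∈ E0 →
      T.pt (n + 1) v' ∈ E0 ∧
        v' - v ∈ (Ideal.span {(p : ℤ_[p]) ^ n} • ⊤ : Submodule ℤ_[p] T.ρ.V) := by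
    intro n v
    by_cases hv : T.pt n v ∈ E0
    swap
    · exact ⟨v, fun h => absurd h hv⟩
    obtain ⟨i, hi⟩ := T.exists_sub_zsmul_mem hA hΔ0 hΔ hc₄ hp2 (R := T.pt (n + 1) v)
      (T.pow_nsmul_pt _ v) (by rwa [T.pt_succ]) hu
    obtain ⟨z, hz⟩ := (T.range_pt (n + 1) (i • T.pt 1 u)).1
      (by rw [pow_succ, mul_nsmul', smul_comm p, hu1, zsmul_zero, nsmul_zero])
    refine ⟨v - z, fun _ => ⟨by rw [map_sub, hz]; exact hi, ?_⟩⟩
    rw [sub_sub_cancel_left, neg_mem_iff, ← T.pt_eq_zero, ← T.pt_succ, hz, smul_comm, hu1,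
      zsmul_zero]
  choose nxt hnxt using step
  let seq : ℕ → T.ρ.V := fun n => Nat.rec (motive := fun _ => T.ρ.V) w (fun k y => nxt (k + 1) y) n
  have hseq : ∀ n, T.pt (n + 1) (seq n) ∈ E0 := fun n => by
    induction n with
    | zero => exact hw.1
    | succ n ih => exact (hnxt (n + 1) (seq n) ih).1
  have hcong : ∀ n, seq (n + 1) - seq n ∈
      (Ideal.span {(p : ℤ_[p]) ^ (n + 1)} • ⊤ : Submodule ℤ_[p] T.ρ.V) :=
    fun n => (hnxt (n + 1) (seq n) (hseq n)).2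
  have : IsAdicComplete (maximalIdeal ℤ_[p]) T.ρ.V := IsAdicComplete.of_module_finite _ _
  have hmono : ∀ a k, T.pt (a + 1) (seq (a + k) - seq a) = 0 := fun a k => by
    rw [T.pt_eq_zero]
    induction k with
    | zero => simp
    | succ k ih =>
      have h1 := Submodule.smul_mono_left (Ideal.span_singleton_le_span_singleton.2
        (pow_dvd_pow (p : ℤ_[p]) (show a + 1 ≤ a + k + 1 by omega))) (hcong (a + k))
      have h2 := add_mem h1 ih
      rwa [sub_add_sub_cancel] at h2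
  obtain ⟨v, hv⟩ := IsPrecomplete.prec' (I := maximalIdeal ℤ_[p]) seq fun {a c} hac => by
    obtain ⟨k, rfl⟩ := Nat.le.dest hac
    rw [SModEq.sub_mem, PadicInt.maximalIdeal_eq_span_p, Ideal.span_singleton_pow,
      ← neg_mem_iff, neg_sub, ← T.pt_eq_zero, ← T.pt_succ, hmono, nsmul_zero]
  have hval : ∀ n, T.pt (n + 1) v = T.pt (n + 1) (seq (n + 1)) := fun n => by
    rw [eq_comm, ← sub_eq_zero, ← map_sub, T.pt_eq_zero, ← Ideal.span_singleton_pow,
      ← PadicInt.maximalIdeal_eq_span_p]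
    exact SModEq.sub_mem.1 (hv (n + 1))
  have hval' : ∀ n, T.pt (n + 1) v = T.pt (n + 1) (seq n) := fun n => by
    rw [hval, ← sub_eq_zero, ← map_sub]
    exact hmono n 1
  refine ⟨v, fun n => ?_, ?_⟩
  · rcases n with _ | n
    · have h0 : T.pt 0 v = 0 := by
        have := T.pow_nsmul_pt 0 v
        rwa [pow_zero, one_nsmul] at this
      rw [h0]
      exact zero_mem _
    · rw [hval']; exact hseq n
  · rw [show T.pt 1 v = T.pt 1 w from hval' 0]
    exact hw.2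

include hp2 in
/-- The line is a direct summand of rank one. -/
theorem exists_basis_e0Line : ∃ b : Basis (Fin 2) ℤ_[p] T.ρ.V,
    T.e0Line hA hΔ0 hΔ hc₄ = ℤ_[p] ∙ b 0 := by
  obtain ⟨v, hv, hv1⟩ := T.exists_mem_e0Line hA hΔ0 hΔ hc₄ hp2
  obtain ⟨u, hu⟩ := T.exists_pt_one_notMem hA hΔ0 hΔ hc₄ hp2
  let b := Gal.basisTwo T.ρ.finrank_eq
  have hdet : IsUnit (b.det ![v, u]) := by
    by_contra hd
    rw [← mem_nonunits_iff, ← IsLocalRing.mem_maximalIdeal, PadicInt.maximalIdeal_eq_span_p,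
      Ideal.mem_span_singleton, Basis.det_apply, Matrix.det_fin_two] at hd
    simp only [Basis.toMatrix_apply, Matrix.cons_val_zero, Matrix.cons_val_one,
      Matrix.cons_val_fin_one] at hd
    -- some coordinate of `v` is a unit
    obtain ⟨k, hk⟩ : ∃ k, IsUnit (b.repr v k) := by
      by_contra! h
      refine hv1 ?_
      rw [T.pt_eq_zero, pow_one, ← b.sum_repr v]
      refine Submodule.sum_mem _ fun k _ => Submodule.smul_mem_smul ?_ Submodule.mem_top
      rw [← PadicInt.maximalIdeal_eq_span_p]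
      exact (IsLocalRing.mem_maximalIdeal _).2 (h k)
    obtain ⟨r, hr⟩ := hk
    obtain ⟨a, ha⟩ : ∃ a : ℤ, (↑r⁻¹ * b.repr u k) - (a : ℤ_[p]) ∈ Ideal.span {(p : ℤ_[p]) ^ 1} :=
      ⟨(((↑r⁻¹ * b.repr u k).appr 1 : ℕ) : ℤ), by
        rw [Int.cast_natCast]; exact PadicInt.appr_spec 1 _⟩
    refine hu ?_
    have hz : T.pt 1 u = a • T.pt 1 v := by
      rw [← T.pt_intCast_smul, ← sub_eq_zero, ← map_sub, T.pt_eq_zero, pow_one,
        ← b.sum_repr (u - _)]
      refine Submodule.sum_mem _ fun i _ => Submodule.smul_mem_smul ?_ Submodule.mem_top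
      rw [map_sub, map_smul, Finsupp.sub_apply, Finsupp.smul_apply, smul_eq_mul,
        Ideal.mem_span_singleton]
      rw [pow_one, Ideal.mem_span_singleton] at ha
      rw [show b.repr u i - (a : ℤ_[p]) * b.repr v i =
        (b.repr u i - ↑r⁻¹ * b.repr u k * b.repr v i) +
          (↑r⁻¹ * b.repr u k - (a : ℤ_[p])) * b.repr v i by ring]
      refine dvd_add ?_ (ha.mul_right _)
      have hrr : (↑r⁻¹ : ℤ_[p]) * b.repr v k = 1 := by rw [← hr, Units.inv_mul]
      have key : ∀ x, (p : ℤ_[p]) ∣ b.repr v k * x → (p : ℤ_[p]) ∣ x := fun x hx => by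
        have := hx.mul_left (↑r⁻¹ : ℤ_[p])
        rwa [← mul_assoc, hrr, one_mul] at this
      refine key _ ?_
      rw [show b.repr v k * (b.repr u i - ↑r⁻¹ * b.repr u k * b.repr v i) =
        b.repr v k * b.repr u i - (↑r⁻¹ * b.repr v k) * (b.repr u k * b.repr v i) by ring, hrr,
        one_mul]
      fin_cases k <;> fin_cases i
      · simp [mul_comm]
      · simpa [mul_comm] using hd
      · simpa [mul_comm, sub_eq_add_neg, add_comm] using dvd_neg.2 hd
      · simp [mul_comm]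
    rw [hz]
    exact zsmul_mem (hv 1) a
  obtain ⟨hli, hspan⟩ := (Basis.is_basis_iff_det b).2 hdet
  refine ⟨Basis.mk hli hspan.ge, ?_⟩
  rw [Basis.mk_apply, Matrix.cons_val_zero]
  refine le_antisymm (fun x hx => ?_) ((Submodule.span_singleton_le_iff_mem _ _).2 hv)
  set b' := Basis.mk hli hspan.ge
  have hx' := b'.sum_repr x
  rw [Fin.sum_univ_two, Basis.mk_apply, Basis.mk_apply] at hx'
  simp only [Matrix.cons_val_zero, Matrix.cons_val_one, Matrix.cons_val_fin_one] at hx'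
  suffices h0 : b'.repr x 1 = 0 by
    rw [h0, zero_smul, add_zero] at hx'
    exact Submodule.mem_span_singleton.2 ⟨_, hx'⟩
  by_contra hc
  obtain ⟨n, r, hr⟩ := IsDiscreteValuationRing.eq_unit_mul_pow_irreducible hc
    (PadicInt.irreducible_p (p := p))
  have hmem : ((p : ℤ_[p]) ^ n) • u ∈ T.e0Line hA hΔ0 hΔ hc₄ := by
    have h1 : b'.repr x 1 • u ∈ T.e0Line hA hΔ0 hΔ hc₄ := by
      rw [show b'.repr x 1 • u = x - b'.repr x 0 • v by rw [eq_sub_iff_add_eq', hx']]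
      exact sub_mem hx (Submodule.smul_mem _ _ hv)
    rw [hr] at h1
    have := Submodule.smul_mem _ (↑r⁻¹ : ℤ_[p]) h1
    rwa [smul_smul, ← mul_assoc, Units.inv_mul, one_mul] at this
  clear hr
  induction n with
  | zero =>
    rw [pow_zero, one_smul] at hmem
    exact hu (hmem 1)
  | succ n ih =>
    refine ih fun m => ?_
    have := hmem (m + 1)
    rwa [pow_succ', mul_smul, T.pt_nat_smul_succ] at this

include hp2 in
/-- The decomposition group acts on the quotient by a sign. -/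
theorem exists_sign_e0Line {σ : Qbar ≃ₐ[ℚ] Qbar} (hd : σ ∈ A.decompositionSubgroup ℚ) :
    ∃ z : ℤ_[p], z * z = 1 ∧ (σ ∈ A.inertiaSubgroupIn ℚ → z = 1) ∧
      ∀ v, T.ρ.ρ σ v - z • v ∈ T.e0Line hA hΔ0 hΔ hc₄ := by
  obtain ⟨z, hz, hzI, hzP⟩ := exists_sign Fact.out hA hΔ0 hΔ hc₄ hd
  refine ⟨(z : ℤ_[p]), by rw [← Int.cast_mul, hz, Int.cast_one],
    fun hI => by rw [hzI hI, Int.cast_one], fun v n => ?_⟩
  rw [map_sub, T.pt_smul, T.pt_intCast_smul]
  exact hzP (p ^ n) (((Fact.out : p.Prime).odd_of_ne_two hp2).pow) _ (T.pow_nsmul_pt n v)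

/-- The line is stable under the decomposition group. -/
theorem apply_mem_e0Line {σ : Qbar ≃ₐ[ℚ] Qbar} (hd : σ ∈ A.decompositionSubgroup ℚ) {v : T.ρ.V}
    (hv : v ∈ T.e0Line hA hΔ0 hΔ hc₄) : T.ρ.ρ σ v ∈ T.e0Line hA hΔ0 hΔ hc₄ := fun n => by
  rw [T.pt_smul]
  exact inE0_smul_of_mem_decomposition hd (hv n)

end TateFrame

/-- **The Tate module is strictly ordinary at a place of multiplicative reduction over `p`.** -/
theorem TateFrame.isStrictOrdinaryAt (T : TateFrame (W.map (Int.castRingHom ℚ)) p) (hp2 : p ≠ 2)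
    (hΔ0 : W.Δ ≠ 0) (hΔ : (p : ℤ) ∣ W.Δ) (hc₄ : ¬ (p : ℤ) ∣ W.c₄)
    (hdet : T.ρ.DetIsCyclotomic p) : T.ρ.IsStrictOrdinaryAt p := by
  refine ⟨hdet.1, fun A hA => ?_⟩
  obtain ⟨b, hb⟩ := T.exists_basis_e0Line hA hΔ0 hΔ hc₄ hp2
  refine ⟨T.e0Line hA hΔ0 hΔ hc₄, ⟨b, hb⟩,
    fun σ hσ v hv => T.apply_mem_e0Line hA hΔ0 hΔ hc₄ hσ hv, fun σ hσ v => ?_, fun σ hσ => ?_⟩
  · obtain ⟨z, -, hz1, hz⟩ := T.exists_sign_e0Line hA hΔ0 hΔ hc₄ hp2
      (mem_decomposition_of_mem_inertia hσ)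
    simpa [hz1 hσ] using hz v
  obtain ⟨z, hz2, -, hz⟩ := T.exists_sign_e0Line hA hΔ0 hΔ hc₄ hp2 hσ
  have hb0 : b 0 ∈ T.e0Line hA hΔ0 hΔ hc₄ := hb ▸ Submodule.mem_span_singleton_self _
  obtain ⟨x, hx⟩ := Submodule.mem_span_singleton.1 (hb ▸ T.apply_mem_e0Line hA hΔ0 hΔ hc₄ hσ hb0)
  obtain ⟨y, hy⟩ := Submodule.mem_span_singleton.1 (hb ▸ hz (b 1))
  refine ⟨x, z, fun w hw => ?_, hz, fun n a ha => ?_⟩
  · rw [hb] at hw
    obtain ⟨c, rfl⟩ := Submodule.mem_span_singleton.1 hw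
    rw [map_smul, ← hx, smul_comm]
  have hdetσ : LinearMap.det (T.ρ.ρ σ) = x * z := by
    rw [← LinearMap.det_toMatrix b, Matrix.det_fin_two]
    simp only [LinearMap.toMatrix_apply]
    rw [← hx, sub_eq_iff_eq_add.1 hy.symm]
    simp
  have h := hdet.2 n σ a ha
  rw [hdetσ] at h
  have h1 := Ideal.mul_mem_right z _ h
  rwa [sub_mul, mul_assoc, hz2, mul_one] at h1

end Fermat.Agent.Raising.Tate
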