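import Mathlib.LinearAlgebra.Lagrange
import Fermat.Prelude.Def_WeierstrassCurve_PeuRamifiee
import Fermat.Agent.LoweringAtP.PeuRamifie.Main
import Fermat.Agent.TW.Flat.OfFlat
import Fermat.Agent.TW.Flat.Ord

/-!
# A semistable curve with flat residual representation at `p` is peu ramifié there

At a prime of multiplicative reduction with `p ∤ v_p(Δ)`, the abscissa of a deep `p`-torsion point
generates a layer of maximal break over `ℚ_p(ζ_p)`, so the torsion has no finite model.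
-/

noncomputable section

namespace Fermat.Agent.Raising.Tate

open Polynomial WeierstrassCurve Fermat.Agent.Tate Fermat.Agent.TW
open scoped WeierstrassCurve.Affine TensorProduct
open Fermat.Agent.LoweringAtP.PeuRamifie (inertiaField inertiaConj inertiaConj_some exists_smul_line
  exists_line_generator node_hom_inertiaConj)

local notation "Qbar" => AlgebraicClosure ℚ
local notation "GQ" => (AlgebraicClosure ℚ ≃ₐ[ℚ] AlgebraicClosure ℚ)

variable {A : ValuationSubring (AlgebraicClosure ℚ)} {p : ℕ} [hpf : Fact p.Prime]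

local notation "v" => A.valuation

section Break

variable (D : TW.Flat.TameLvl A p)

/-- An additive function on `Γ₀` takes multiples on powers. -/
theorem apply_pow_eq_mul {φ : GQ → ZMod p} (hmul : ∀ g ∈ D.Γ0, ∀ h ∈ D.Γ0, φ (g * h) = φ g + φ h)
    {g : GQ} (hg : g ∈ D.Γ0) (n : ℕ) : φ (g ^ n) = n * φ g := by
  induction n with
  | zero =>
    have e1 := hmul 1 (one_mem _) 1 (one_mem _)
    rw [one_mul] at e1
    rw [pow_zero, Nat.cast_zero, zero_mul]
    linear_combination -e1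
  | succ n ih =>
    rw [pow_succ, hmul _ (pow_mem hg n) _ hg, ih, Nat.cast_add, Nat.cast_one]
    ring

/-- An element of valuation exponent prime to `p` fixed by the kernel of `φ` detects the break. -/
theorem hasBreak_of_generator {φ : GQ → ZMod p}
    (hmul : ∀ g ∈ D.Γ0, ∀ h ∈ D.Γ0, φ (g * h) = φ g + φ h) {s : Qbar} {e : ℤ}
    (hs : v s = D.Q ^ e) (he : (e : ZMod p) ≠ 0) (hker : ∀ h ∈ D.Γ0, φ h = 0 → h s = s) {b : ℕ}
    (hgain : ∀ h ∈ D.Γ0, v (h s / s - 1) ≤ D.Q ^ b) : D.HasBreak φ b := by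
  classical
  have hp := hpf.out
  intro t htA ht h hh
  by_cases hz : φ h = 0
  · rw [ht h hh hz, sub_self, map_zero]; exact zero_le
  have hpow : ∀ g ∈ D.Γ0, ∀ n : ℕ, φ (g ^ n) = n * φ g := fun g hg =>
    apply_pow_eq_mul D hmul hg
  obtain ⟨h1, h1mem, h11⟩ : ∃ h1 ∈ D.Γ0, φ h1 = 1 := ⟨h ^ ((φ h)⁻¹).val, pow_mem hh _, by
    rw [hpow h hh, ZMod.natCast_val, ZMod.cast_id, inv_mul_cancel₀ hz]⟩
  have hshift : ∀ u : Qbar, (∀ g ∈ D.Γ0, φ g = 0 → g u = u) → ∀ g ∈ D.Γ0, ∀ m : ZMod p,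
      g ((h1 ^ m.val) u) = (h1 ^ (m + φ g).val) u := fun u hu g hg m => by
    have hmem := mul_mem (mul_mem (inv_mem (pow_mem h1mem (m + φ g).val)) hg)
      (pow_mem h1mem m.val)
    have h0 : φ ((h1 ^ (m + φ g).val)⁻¹ * g * h1 ^ m.val) = 0 := by
      have e1 := hmul _ (pow_mem h1mem (m + φ g).val) _ hmem
      rw [← mul_assoc, mul_inv_cancel_left, hmul _ hg _ (pow_mem h1mem _),
        hpow _ h1mem, hpow _ h1mem, h11, ZMod.natCast_val, ZMod.natCast_val,
        ZMod.cast_id, ZMod.cast_id] at e1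
      linear_combination -e1
    have e2 := congrArg (fun y => (h1 ^ (m + φ g).val) y) (hu _ hmem h0)
    simpa [AlgEquiv.mul_apply, ← AlgEquiv.aut_inv] using e2
  set S : ZMod p → Qbar := fun m => (h1 ^ m.val) s with hS
  set T : ZMod p → Qbar := fun m => (h1 ^ m.val) t with hT
  have hinj : Set.InjOn S (↑(Finset.univ : Finset (ZMod p))) := by
    intro m _ m' _ hmm
    by_contra hne
    set d := m' - m with hd
    have hd0 : d ≠ 0 := sub_ne_zero.mpr (Ne.symm hne)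
    have hk : ∀ k : ℕ, φ (h1 ^ k) = k := fun k => by rw [hpow _ h1mem, h11, mul_one]
    have hSd : S 0 = S d := by
      have e1 := congrArg (fun y => (h1 ^ (-m).val) y) hmm
      simpa only [hS, hshift s hker _ (pow_mem h1mem _), hk, ZMod.natCast_val, ZMod.cast_id,
        ← sub_eq_add_neg, sub_self] using e1
    have hper : ∀ n : ℕ, S (n * d) = s := fun n => by
      induction n with
      | zero => simp [hS]
      | succ n ih =>
        have e1 := hshift s hker (h1 ^ d.val) (pow_mem h1mem _) (n * d)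
        rw [hk, ZMod.natCast_val, ZMod.cast_id] at e1
        rw [Nat.cast_add, Nat.cast_one, add_mul, one_mul]
        show (h1 ^ (↑n * d + d).val) s = s
        rw [← e1]
        have : (h1 ^ ((n : ZMod p) * d).val) s = s := ih
        rw [this]
        exact hSd.symm.trans (by simp [hS])
    have hall : ∀ g ∈ D.Γ0, g s = s := fun g hg => by
      have e1 := hshift s hker g hg 0
      rw [zero_add, ZMod.val_zero, pow_zero, AlgEquiv.one_apply] at e1
      rw [e1]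
      have := hper (φ g / d).val
      rwa [ZMod.natCast_val, ZMod.cast_id, div_mul_cancel₀ _ hd0] at this
    have hs0 : s ≠ 0 := fun h0 => by
      rw [h0, map_zero] at hs
      exact zpow_ne_zero _ D.Q_pos.ne' hs.symm
    obtain ⟨n, hn⟩ := D.exists_val_eq hall hs0
    rw [hs, D.zpow_inj] at hn
    exact he (by rw [hn]; push_cast; rw [ZMod.natCast_self, zero_mul])
  set F := Lagrange.interpolate Finset.univ S T with hF
  have hdeg : F.degree < (p : WithBot ℕ) := by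
    have e1 := Lagrange.degree_interpolate_lt (r := T) hinj
    rwa [Finset.card_univ, ZMod.card] at e1
  have heval : ∀ m, F.eval (S m) = T m := fun m =>
    Lagrange.eval_interpolate_at_node (r := T) hinj (Finset.mem_univ m)
  have hfix : ∀ l, ∀ g ∈ D.Γ0, g (F.coeff l) = F.coeff l := fun l g hg => by
    have hmap : F.map (g : Qbar →+* Qbar) = F := by
      refine Lagrange.eq_interpolate_of_eval_eq (r := T) hinj ?_ fun m _ => ?_
      · rw [Finset.card_univ, ZMod.card]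
        exact lt_of_le_of_lt Polynomial.degree_map_le hdeg
      · have e1 : (h1 ^ m.val) s = g (S (m - φ g)) := by
          rw [hS, hshift s hker g hg, sub_add_cancel]
        have e2 : g (T (m - φ g)) = T m := by
          rw [hT, hshift t ht g hg, sub_add_cancel]
        show (F.map (g : Qbar →+* Qbar)).eval ((h1 ^ m.val) s) = T m
        rw [e1, ← e2, ← heval (m - φ g), eval_map]
        exact (Polynomial.hom_eval₂ F (RingHom.id Qbar) (g : Qbar →+* Qbar) _).symm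
    conv_rhs => rw [← hmap, coeff_map]
    rfl
  have hexp : t = ∑ i ∈ Finset.range p, F.coeff i * s ^ i := by
    have e1 : F.eval s = t := by
      have := heval 0
      simpa [hS, hT] using this
    rw [← e1]
    refine Polynomial.eval_eq_sum_range' ?_ s
    rcases eq_or_ne F 0 with h0 | h0
    · rw [h0, natDegree_zero]; exact hp.pos
    · exact (natDegree_lt_iff_degree_lt h0).mpr hdeg
  exact TW.Flat.TameLvl.val_apply_sub_le hs he hh (hgain h hh) hfix htA hexp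

end Break

/-- The displacement of a deep point along the line is that of a root of unity. -/
theorem val_apply_div_sub_one_pow_le (hp2 : p ≠ 2) (hA : A.LiesOverPrime p) {τ : Qbar}
    (ht : v τ < 1) (ht0 : τ ≠ 0) (hτ : τ ∈ inertiaField A) {x y : Qbar}
    {hns : (nodeCurve τ).Nonsingular x y} (hx : v x < 1) (hx0 : x ≠ 0)
    (htor : p • Affine.Point.some x y hns = 0) {Q : (nodeCurve τ).Point} (hQp : p • Q = 0)
    {ζ : Qbar} (hζ : IsPrimitiveRoot ζ p)
    (hline : ∀ σ, ∀ hσ : σ ∈ A.inertiaSubgroupIn ℚ, ∃ c : ℕ, inertiaConj hτ hσ Q = c • Q ∧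
      σ ζ = ζ ^ c)
    {σ : GQ} (hσ : σ ∈ A.inertiaSubgroupIn ℚ) (hclose : v (σ x - x) < v x) {a : ℕ}
    (ha : inertiaConj hτ hσ (Affine.Point.some x y hns) = Affine.Point.some x y hns + a • Q) :
    v (σ x / x - 1) ^ (p - 1) ≤ v (p : Qbar) := by
  rcases eq_or_ne (σ x) x with he | hne
  · rw [he, div_self hx0, sub_self, map_zero, zero_pow (by have := hpf.out.two_le; omega)]
    exact zero_le
  obtain ⟨g, e⟩ := inertiaConj_some hτ hσ hns
  rw [ha] at e
  obtain ⟨hv, -, hbr⟩ := val_apply_x_eq ht ht0 hp2 (mem_decomposition_of_mem_inertia hσ)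
    (hτ σ hσ) hx htor
  obtain ⟨x₃, y₃, h₃, e₃, h13, h23⟩ := LoweringAtP.PeuRamifie.val_abscissa_sub (h₁ := hns)
    (h₂ := g) hx hv
    (Ne.symm hne) hbr hclose
  set R := Affine.Point.some x₃ y₃ h₃ with hR
  have hRQ : R = -(a • Q) := by rw [← e₃, ← e]; abel
  have hRp : p • R = 0 := by
    rw [hRQ, smul_neg, ← mul_nsmul, mul_comm, mul_nsmul, hQp, nsmul_zero, neg_zero]
  have hδ := LoweringAtP.PeuRamifie.val_zPar_pow_eq hp2 hA ht hτ (Q := R) (inE1_some.2 h13)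
    (Affine.Point.some_ne_zero h₃) hRp hζ fun ρ hρ => by
      obtain ⟨c, hc, hcζ⟩ := hline ρ hρ
      exact ⟨c, by rw [hRQ, map_neg, map_nsmul, hc, neg_nsmul, smul_comm a c], hcζ⟩
  have hsq := val_zPar_sq (isInt_nodeCurve (A := A) ht) (h := h₃) h13
  have hxpos : 0 < v x := zero_lt_iff.2 ((Valuation.ne_zero_iff _).2 hx0)
  have hz : v (σ x / x - 1) = v (zPar (nodeCurve τ) R) := by
    refine (pow_left_inj₀ zero_le zero_le two_ne_zero).1 ?_
    rw [div_sub_one hx0, map_div₀, div_pow, div_eq_iff (pow_pos hxpos 2).ne', ← h23,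
      ← mul_assoc, hR, hsq, one_mul]
  rw [hz, hδ]

variable {W : WeierstrassCurve ℤ}

/-- An element of inertia moves `x` by less than `|x|` when `|x|^p` is a power of `|p|`. -/
theorem val_apply_sub_lt (hA : A.LiesOverPrime p) {σ : GQ} (hσ : σ ∈ A.inertiaSubgroupIn ℚ)
    {x : Qbar} {m : ℕ} (hx : v x ^ p = v (p : Qbar) ^ m) : v (σ x - x) < v x := by
  have hp := hpf.out
  have hp0 := LoweringAtP.PeuRamifie.val_p_pos hp hA
  have hx0 : x ≠ 0 := fun h0 => by
    rw [h0, map_zero, zero_pow hp.ne_zero] at hx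
    exact (pow_pos hp0 m).ne hx
  have hdec := TW.Flat.inertia_le_decomposition hσ
  have : CharP (IsLocalRing.ResidueField A) p := Gal.residueField_charP hp hA
  set z : Qbar := x ^ p / (p : Qbar) ^ m with hz
  have hvz : v z = 1 := by
    rw [hz, map_div₀, map_pow, map_pow, hx, div_self (pow_pos hp0 _).ne']
  have hz0 : z ≠ 0 := (Valuation.ne_zero_iff _).1 (by rw [hvz]; exact one_ne_zero)
  have hlt := val_sub_lt_one_of_mem_inertia hσ ((mem_iff A).2 hvz.le)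
  have hwA : σ x / x ∈ A := TW.Flat.div_mem_of_decomposition hdec x
  have hw : (σ x / x) ^ p = σ z / z := by
    rw [hz, map_div₀, map_pow, map_pow, map_natCast, div_pow, div_div_div_cancel_right₀]
    exact pow_ne_zero _ (Nat.cast_ne_zero.mpr hp.ne_zero)
  have h1 : v ((σ x / x) ^ p - 1) < 1 := by
    rw [hw, div_sub_one hz0, map_div₀, hvz, div_one]; exact hlt
  have h2 : v (σ x / x - 1) < 1 := by
    rw [← TW.Flat.red_eq_iff hwA A.one_mem, TW.Flat.red_one]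
    rw [← TW.Flat.red_eq_iff (pow_mem hwA p) A.one_mem, TW.Flat.red_one, TW.Flat.red_pow hwA]
      at h1
    exact frobenius_inj (IsLocalRing.ResidueField A) p (by simpa [frobenius_def] using h1)
  rwa [div_sub_one hx0, map_div₀,
    div_lt_one₀ (zero_lt_iff.2 ((Valuation.ne_zero_iff _).2 hx0))] at h2

/-- The exponent of a deep abscissa lies strictly between `0` and `p`. -/
theorem pos_and_lt_of_val_pow_eq {t x : Qbar} (ht : v t < 1) (hx : v x < 1) {i : ℕ}
    (hi : v x ^ p = v t ^ i) (hxt : v t < v x ^ 2) : i ≠ 0 ∧ i < p := by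
  have hp := hpf.out
  refine ⟨fun h0 => ?_, ?_⟩
  · rw [h0, pow_zero] at hi
    exact (pow_lt_one₀ zero_le hx hp.ne_zero).ne hi
  · by_contra hge
    have h1 : v x ^ p ≤ v t ^ p :=
      hi.le.trans (pow_le_pow_right_of_le_one' ht.le (not_lt.1 hge))
    have h2 := (pow_le_pow_iff_left₀ zero_le zero_le hp.ne_zero).1 h1
    exact lt_irrefl _ ((h2.trans_lt hxt).trans_le (pow_le_of_le_one zero_le hx.le two_ne_zero))

/-- The level `ℚ_p(ζ_p)` fixes a point on which inertia acts through the cyclotomic character. -/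
theorem smul_eq_self_of_cyclotomic (D : TW.Flat.TameLvl A p)
    {xQ : Submodule.torsionBy ℤ ((W.map (Int.castRingHom ℚ))⁄Qbar).Point (p : ℤ)}
    (hline : ∀ σ ∈ A.inertiaSubgroupIn ℚ, ∃ c : ℕ,
      σ • xQ = c • xQ ∧ σ (zetaP p) = zetaP p ^ c) {h : GQ} (hh : h ∈ D.Γ0) : h • xQ = xQ := by
  have hp := hpf.out
  have hne : NeZero p := ⟨hp.ne_zero⟩
  have hζ : IsPrimitiveRoot (zetaP p) p := zetaP_spec
  obtain ⟨c, hc, hcζ⟩ := hline h (D.le_inertia hh)
  have hω : h (zetaP p) = zetaP p := by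
    have e := D.apply_muP_of_mem hh (1 : ZMod p)
    rwa [TW.Flat.muP_one] at e
  rw [hω] at hcζ
  have h1 : zetaP p ^ (c % p) = zetaP p ^ 1 := by
    rw [pow_one, ← pow_eq_pow_mod c hζ.pow_eq_one, ← hcζ]
  have h2 := hζ.pow_inj (Nat.mod_lt _ hp.pos) hp.one_lt h1
  have hxp : p • xQ = 0 := Subtype.ext (nsmul_torsionBy xQ)
  rw [hc, ← Nat.mod_add_div c p, h2, add_nsmul, mul_nsmul, hxp, nsmul_zero, add_zero, one_nsmul]

/-- The valuation of a deep abscissa is a power of the uniformiser with exponent prime to `p`. -/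
theorem exists_val_eq_zpow (D : TW.Flat.TameLvl A p) {t x : Qbar} {n i : ℕ} (hn : ¬ p ∣ n)
    (ht : v t = v (p : Qbar) ^ n) (hi : v x ^ p = v t ^ i) (hi0 : i ≠ 0) (hip : i < p) :
    ∃ e : ℤ, v x = D.Q ^ e ∧ (e : ZMod p) ≠ 0 := by
  have hp := hpf.out
  refine ⟨((D.M * n * i : ℕ) : ℤ), ?_, ?_⟩
  · refine (pow_left_inj₀ zero_le zero_le hp.ne_zero).1 ?_
    rw [hi, ht, ← D.Q_pow_eq, zpow_natCast, ← pow_mul, ← pow_mul, ← pow_mul]
    congr 1
    ring
  · rw [Int.cast_natCast, Ne, ZMod.natCast_eq_zero_iff, hp.dvd_mul, hp.dvd_mul]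
    rintro ((h | h) | h)
    · exact D.p_not_dvd_M h
    · exact hn h
    · exact hi0 (Nat.eq_zero_of_dvd_of_lt h hip)

/-- **The break.** At a multiplicative `p` with `p ∤ v_p(Δ)` the level `ℚ_p(ζ_p)` moves a torsion
point towards the line through a character of maximal break. -/
theorem exists_largeBreak (hp2 : p ≠ 2) (hA : A.LiesOverPrime p) (hΔ0 : W.Δ ≠ 0)
    (hΔ : (p : ℤ) ∣ W.Δ) (hc₄ : ¬ (p : ℤ) ∣ W.c₄) (hv : ¬ p ∣ padicValInt p W.Δ)
    (D : TW.Flat.TameLvl A p) :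
    ∃ (U : AddSubgroup (Submodule.torsionBy ℤ ((W.map (Int.castRingHom ℚ))⁄Qbar).Point (p : ℤ)))
      (ℓ : Submodule.torsionBy ℤ ((W.map (Int.castRingHom ℚ))⁄Qbar).Point (p : ℤ) →+ ZMod p)
      (x y : Submodule.torsionBy ℤ ((W.map (Int.castRingHom ℚ))⁄Qbar).Point (p : ℤ))
      (φ : GQ → ZMod p) (h1 : GQ),
      (∀ h ∈ D.Γ0, ∀ u ∈ U, h • u = u) ∧ y ∈ U ∧ ℓ y = 1 ∧
      (∀ h ∈ D.Γ0, h • x - x ∈ U ∧ ℓ (h • x - x) = φ h) ∧
      h1 ∈ D.Γ0 ∧ φ h1 = 1 ∧ D.HasBreak φ (p * D.T) := by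
  classical
  have hp := hpf.out
  have hvΔ : v (W.Δ : Qbar) < 1 := (val_intCast_lt_one_iff hp hA _).2 hΔ
  have hvc₄ : v (W.c₄ : Qbar) = 1 := (val_intCast_eq_one_iff hp hA _).2 hc₄
  have hell : (W.map (Int.castRingHom ℚ)).IsElliptic := ⟨by
    rw [map_Δ, isUnit_iff_ne_zero]; simpa using hΔ0⟩
  have hne : NeZero p := ⟨hp.ne_zero⟩
  set N := e0Torsion W A p hΔ0 hvΔ hvc₄ with hN
  have hN1 : Module.finrank (ZMod p) N = 1 := finrank_e0Torsion hΔ0 hvΔ hvc₄ hp2
  have hM : Module.finrank (ZMod p)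
      (Submodule.torsionBy ℤ ((W.map (Int.castRingHom ℚ))⁄Qbar).Point (p : ℤ)) = 2 :=
    EC.finrank_torsionBy (K := Qbar) (W.map (Int.castRingHom ℚ)) p
      (Nat.cast_ne_zero.2 hp.ne_zero)
  have hfinM : Module.Finite (ZMod p)
      (Submodule.torsionBy ℤ ((W.map (Int.castRingHom ℚ))⁄Qbar).Point (p : ℤ)) :=
    Module.finite_of_finrank_pos (hM ▸ two_pos)
  obtain ⟨P, hP, hPd⟩ : ∃ P : ((W.map (Int.castRingHom ℚ))⁄Qbar).Point,
      p • P = 0 ∧ ¬ InE0 A (W := qbarCurve W) P :=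
    exists_torsion_not_inE0 (p := p) (W := qbarCurve W) (isInt_qbarCurve A W)
      (by simpa [qbar_Δ] using hΔ0) (by rwa [qbar_Δ]) (by rwa [qbar_c₄]) hp2
  let xP : Submodule.torsionBy ℤ ((W.map (Int.castRingHom ℚ))⁄Qbar).Point (p : ℤ) :=
    ⟨P, by rw [Submodule.mem_torsionBy_iff, natCast_zsmul]; exact hP⟩
  have hxP : xP ∉ N := hPd
  obtain ⟨xQ, hxQ, hxQ0', hspan, ℓ, hℓ⟩ := exists_line_generator hN1
  set ζ := zetaP p with hζdef
  have hζ : IsPrimitiveRoot ζ p := zetaP_spec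
  have hPact : ∀ σ ∈ A.inertiaSubgroupIn ℚ, ∃ b : ℕ, σ • xP = xP + b • xQ := fun σ hσ => by
    have hmem : xP - σ • xP ∈ N :=
      inE0_sub_smul hp hA hΔ0 hΔ hc₄ hσ hp2 (nsmul_torsionBy xP)
    obtain ⟨k, hk⟩ := hspan _ (N.neg_mem hmem)
    exact ⟨k, by rw [← hk]; abel⟩
  have hline : ∀ σ ∈ A.inertiaSubgroupIn ℚ, ∃ c : ℕ, σ • xQ = c • xQ ∧ σ ζ = ζ ^ c := by
    intro σ hσ
    have hmem : σ • xQ ∈ N :=
      inE0_smul_of_mem_decomposition (mem_decomposition_of_mem_inertia hσ) hxQ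
    obtain ⟨c, hc⟩ := hspan _ hmem
    obtain ⟨b, hb⟩ := hPact σ hσ
    exact ⟨c, hc, exists_smul_line hM hxQ hxQ0' hxP hζ hc hb⟩
  have hQfix : ∀ h ∈ D.Γ0, h • xQ = xQ := fun h hh => smul_eq_self_of_cyclotomic D hline hh
  have hU : ∀ h ∈ D.Γ0, ∀ u ∈ N, h • u = u := fun h hh u hu => by
    obtain ⟨k, rfl⟩ := hspan u hu
    rw [smul_comm, hQfix h hh]
  set φ : GQ → ZMod p := fun h => ℓ (h • xP - xP) with hφdef
  have hφb : ∀ h ∈ D.Γ0, ∃ b : ℕ, h • xP = xP + b • xQ ∧ φ h = b := fun h hh => by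
    obtain ⟨b, hb⟩ := hPact h (D.le_inertia hh)
    exact ⟨b, hb, by simp only [hφdef]; rw [hb, add_sub_cancel_left, map_nsmul, hℓ, nsmul_one]⟩
  have hmem : ∀ h ∈ D.Γ0, h • xP - xP ∈ N := fun h hh => by
    obtain ⟨b, hb, -⟩ := hφb h hh
    rw [hb, add_sub_cancel_left]
    exact nsmul_mem hxQ b
  have hmul : ∀ g ∈ D.Γ0, ∀ h ∈ D.Γ0, φ (g * h) = φ g + φ h := fun g hg h hh => by
    simp only [hφdef]
    rw [mul_smul, show g • h • xP - xP = g • (h • xP - xP) + (g • xP - xP) by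
      rw [smul_sub]; abel, hU g hg _ (hmem h hh), map_add, add_comm]
  -- the normal form
  obtain ⟨Dn, hDn⟩ := exists_normalData (W := qbarCurve W) (isInt_qbarCurve A W)
    (by simpa [qbar_Δ] using hΔ0) (by rwa [qbar_Δ]) (by rwa [qbar_c₄])
  have hfix : ∀ σ ∈ A.inertiaSubgroupIn ℚ, σ Dn.t = Dn.t ∧ σ (Dn.C.u : Qbar) = Dn.C.u ∧
      σ Dn.C.r = Dn.C.r ∧ σ Dn.C.s = Dn.C.s ∧ σ Dn.C.t = Dn.C.t := fun σ hσ =>
    hDn σ hσ (by rw [qbar_a₁, map_intCast]) (by rw [qbar_a₂, map_intCast])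
      (by rw [qbar_a₃, map_intCast]) (by rw [qbar_a₄, map_intCast]) (by rw [qbar_a₆, map_intCast])
  have hτ : Dn.t ∈ inertiaField A := fun σ hσ => (hfix σ hσ).1
  obtain ⟨ψ, ⟨hψi, hψs⟩, hψsome, hψE0⟩ := LoweringAtP.PeuRamifie.exists_node_hom Dn
  have hcomm : ∀ σ, ∀ hσ : σ ∈ A.inertiaSubgroupIn ℚ, ∀ R,
      ψ (inertiaConj hτ hσ R) = σ • (ψ R : ((W.map (Int.castRingHom ℚ))⁄Qbar).Point) := by
    intro σ hσ R
    obtain ⟨-, hu, hr, hs, hw⟩ := hfix σ hσ
    exact node_hom_inertiaConj hτ hψsome hσ hu hr hs hw R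
  obtain ⟨P₀, hP₀⟩ := hψs P
  obtain ⟨Q₀, hQ₀⟩ := hψs xQ.1
  rcases P₀ with _ | ⟨x, y, hns⟩
  · refine absurd ?_ hPd
    rw [← hP₀]
    show InE0 A (ψ 0)
    rw [map_zero]
    exact inE0_zero
  have hx : v x < 1 := by
    have h1 : ¬ InE0 A (W := qbarCurve W) P := hPd
    rwa [← hP₀, hψE0, not_not, deep_some] at h1
  have htor : p • Affine.Point.some x y hns = 0 :=
    hψi (by rw [map_nsmul, hP₀, map_zero]; exact hP)
  have hQ₀p : p • Q₀ = 0 := hψi (by rw [map_nsmul, hQ₀, map_zero]; exact nsmul_torsionBy xQ)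
  have hn' : v Dn.t = v (p : Qbar) ^ padicValInt p W.Δ := by
    rw [Dn.hΔ, qbar_Δ, LoweringAtP.PeuRamifie.val_intCast_eq_pow hA hΔ0]
  obtain ⟨i, hi, hxt, -⟩ := exists_pow_val_eq Dn.ht Dn.ht0 hp2 hx htor
  have hp0 := LoweringAtP.PeuRamifie.val_p_pos hp hA
  have ht0v : 0 < v Dn.t := zero_lt_iff.2 ((Valuation.ne_zero_iff _).2 Dn.ht0)
  have hx0 : x ≠ 0 := fun h0 => by
    rw [h0, map_zero, zero_pow hp.ne_zero] at hi
    exact (pow_pos ht0v i).ne hi
  obtain ⟨hi0, hip⟩ := pos_and_lt_of_val_pow_eq (A := A) Dn.ht hx hi hxt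
  set n := padicValInt p W.Δ with hndef
  obtain ⟨e, hve, he⟩ := exists_val_eq_zpow D hv hn' hi hi0 hip
  have hactx : ∀ h, ∀ hh : h ∈ D.Γ0, ∀ b : ℕ, h • xP = xP + b • xQ →
      inertiaConj hτ (D.le_inertia hh) (Affine.Point.some x y hns) =
        Affine.Point.some x y hns + b • Q₀ := fun h hh b hb =>
    hψi (by rw [hcomm, map_add, map_nsmul, hP₀, hQ₀]; exact congrArg Subtype.val hb)
  have hker : ∀ h ∈ D.Γ0, φ h = 0 → h x = x := fun h hh h0 => by
    obtain ⟨b, hb, hφ⟩ := hφb h hh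
    rw [hφ, ZMod.natCast_eq_zero_iff] at h0
    obtain ⟨g, e'⟩ := inertiaConj_some hτ (D.le_inertia hh) hns
    obtain ⟨k, rfl⟩ := h0
    rw [hactx h hh _ hb, mul_nsmul, hQ₀p, nsmul_zero, add_zero, Affine.Point.some.injEq] at e'
    exact e'.1.symm
  -- nearness
  have hclose : ∀ h ∈ D.Γ0, v (h x - x) < v x := fun h hh =>
    val_apply_sub_lt hA (D.le_inertia hh) (hi.trans (by rw [hn', ← pow_mul]))
  have hgain : ∀ h ∈ D.Γ0, v (h x / x - 1) ≤ D.Q ^ (p * D.T) := fun h hh => by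
    obtain ⟨b, hb, -⟩ := hφb h hh
    have h1 := val_apply_div_sub_one_pow_le hp2 hA Dn.ht Dn.ht0 hτ hx hx0 htor hQ₀p hζ
      (fun σ hσ => (hline σ hσ).imp fun c hc =>
        ⟨hψi (by rw [hcomm, map_nsmul, hQ₀]; exact congrArg Subtype.val hc.1), hc.2⟩)
      (D.le_inertia hh) (hclose h hh) (hactx h hh b hb)
    refine (pow_le_pow_iff_left₀ zero_le zero_le
      (show p - 1 ≠ 0 by have := hp.two_le; omega)).1 (h1.trans_eq ?_)
    rw [← D.Q_pow_eq, D.M_eq, ← pow_mul]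
    congr 1
    ring
  obtain ⟨h0, hh0, hne0⟩ : ∃ h ∈ D.Γ0, φ h ≠ 0 := by
    by_contra hall
    push Not at hall
    obtain ⟨k, hk⟩ := D.exists_val_eq (fun h hh => hker h hh (hall h hh)) hx0
    rw [hve, D.zpow_inj] at hk
    exact he (by rw [hk]; push_cast; rw [ZMod.natCast_self, zero_mul])
  refine ⟨N.toAddSubgroup, ℓ.toAddMonoidHom, xP, xQ, φ, h0 ^ ((φ h0)⁻¹).val, hU, hxQ, hℓ,
    fun h hh => ⟨hmem h hh, rfl⟩, pow_mem hh0 _, ?_,
    hasBreak_of_generator D hmul hve he hker hgain⟩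
  rw [apply_pow_eq_mul D hmul hh0, ZMod.natCast_val, ZMod.cast_id, inv_mul_cancel₀ hne0]

/-- A flat representation containing the torsion makes the curve peu ramifié. -/
theorem isPeuRamifieeAt_of_isFlatAt_embedding [(W.map (Int.castRingHom ℚ)).IsElliptic]
    (hp2 : p ≠ 2) (hsemi : (p : ℤ) ∣ W.Δ → ¬ (p : ℤ) ∣ W.c₄) {k : Type} [Field k]
    {r : ResidualGaloisRep k} (hflat : (GaloisRepAdic.ofResidualGaloisRep r).IsFlatAt p)
    (j : Submodule.torsionBy ℤ ((W.map (Int.castRingHom ℚ))⁄Qbar).Point (p : ℤ) →+ r.V)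
    (hjinj : Function.Injective j) (hj : ∀ (σ : GQ) u, j (σ • u) = r.ρ σ (j u)) :
    (W.map (Int.castRingHom ℚ)).IsPeuRamifieeAt p p := by
  classical
  have hp := hpf.out
  rw [IsPeuRamifieeAt, map_Δ, eq_intCast, padicValRat.of_int, Int.natCast_dvd_natCast]
  by_contra hv
  have hΔ0 : W.Δ ≠ 0 := fun h0 => hv (by simp [h0])
  by_cases hΔ : (p : ℤ) ∣ W.Δ
  swap
  · exact hv (by simp [padicValInt.eq_zero_of_not_dvd hΔ])
  obtain ⟨A, hA⟩ := Gal.exists_liesOverPrime hp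
  obtain ⟨D, -, -⟩ := TW.Flat.exists_ordLvl hA hp2
  obtain ⟨U, ℓ, x, y, φ, h1, hU, hy, hℓy, hx, h1mem, h11, hbr⟩ :=
    exists_largeBreak hp2 hA hΔ0 hΔ (hsemi hΔ) hv D
  set ρ := GaloisRepAdic.ofResidualGaloisRep r
  have : Finite k :=
    haveI := hflat.1
    Finite.of_injective _ (IsLocalRing.residue k).injective
  have : Finite (Submodule.torsionBy ℤ ((W.map (Int.castRingHom ℚ))⁄Qbar).Point (p : ℤ)) :=
    EC.finite_torsionBy _ p (Nat.cast_ne_zero.2 hp.ne_zero)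
  obtain ⟨H, _, _, hfin, -, -, e, hadd, heq⟩ :=
    hflat.2 ⊥ (Finite.of_surjective _ Ideal.Quotient.mk_surjective)
  let E0 : (ρ.V ⧸ (⊥ : Ideal k) • (⊤ : Submodule k ρ.V)) ≃ₗ[k] ρ.V :=
    Submodule.quotEquivOfEqBot _ (Submodule.bot_smul _)
  have hmodel : TW.Flat.HasModel A D.Γ0 (fun σ (z : ρ.V) => ρ.ρ σ z) := by
    refine TW.Flat.hasModel_of_points (H := H) hA (e.trans E0.toEquiv) (fun f g => ?_)
      (fun σ f g h => ?_) _
    · show E0 (e (f * g)) = E0 (e f) + E0 (e g)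
      rw [hadd, map_add]
    · show E0 (e g) = ρ.ρ σ (E0 (e f))
      rw [heq σ f g h]
      generalize e f = z
      obtain ⟨w, rfl⟩ := Submodule.Quotient.mk_surjective _ z
      rfl
  obtain ⟨P, hP⟩ := hmodel
  exact D.false_of_large_break (P := P.restrict j fun σ _ u => hj σ u)
    (P.sep_restrict hP j (fun σ _ u => hj σ u) hjinj) le_rfl
    (fun z => Subtype.ext (nsmul_torsionBy z)) (fun h _ a b => smul_add h a b) hU ℓ hy hℓy hx
    h1mem h11 hbr le_rfl

end Fermat.Agent.Raising.Tate
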