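import Mathlib.Algebra.Polynomial.Basis
import Mathlib.AlgebraicGeometry.EllipticCurve.Affine.Point
import Mathlib.RingTheory.AlgebraTower
import Mathlib.RingTheory.DedekindDomain.Dvr
import Mathlib.RingTheory.DiscreteValuationRing.TFAE
import Fermat.Agent.Flat.PoleIdeal

/-!
# The coordinate ring of a Weierstrass curve: pole-order basis and normality

The monomials `X^i Y^j` with `j < 2` form a basis indexed by the pole orders `ℕ \ {1}`, with
multiplication triangular for the order; this gives the model of a curve with good reduction.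
-/

noncomputable section

namespace Fermat.Agent.Raising.Tate

open WeierstrassCurve Polynomial Module
open scoped Polynomial.Bivariate

/-- The pole orders at infinity. -/
abbrev poleOrds : Set ℕ := {n | n ≠ 1}

/-- Pole orders as monomials `X ^ i Y ^ j`, `j ≤ 1`. -/
def monoIdx : ℕ × Fin 2 ≃ poleOrds where
  toFun m := ⟨2 * m.1 + 3 * (m.2 : ℕ), by
    show 2 * m.1 + 3 * (m.2 : ℕ) ≠ 1
    omega⟩
  invFun s := if (s : ℕ) % 2 = 0 then ((s : ℕ) / 2, 0) else (((s : ℕ) - 3) / 2, 1)
  left_inv := by
    rintro ⟨i, j⟩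
    fin_cases j
    · simp only [Fin.zero_eta, mul_zero, add_zero]
      rw [if_pos (by omega)]
      simp
    · simp only [Fin.mk_one, mul_one]
      rw [if_neg (by omega)]
      refine Prod.ext ?_ rfl
      show (2 * i + 3 - 3) / 2 = i
      omega
  right_inv := by
    rintro ⟨s, hs⟩
    refine Subtype.ext ?_
    change s ≠ 1 at hs
    dsimp only
    split_ifs with h
    · simp only [Fin.val_zero]; omega
    · simp only [Fin.val_one]; omega

section Ring

variable {R : Type*} [CommRing R] (V : WeierstrassCurve.Affine R)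

/-- The pole-order basis `X ^ i`, `X ^ i Y`. -/
def crBasis : Basis poleOrds R V.CoordinateRing :=
  ((Polynomial.basisMonomials R).smulTower (Affine.CoordinateRing.basis V)).reindex monoIdx

theorem crBasis_apply (m : ℕ × Fin 2) :
    crBasis V (monoIdx m) = (X ^ m.1 : R[X]) • Affine.CoordinateRing.basis V m.2 := by
  rw [crBasis, Basis.reindex_apply, Equiv.symm_apply_apply, Basis.smulTower_apply,
    Polynomial.coe_basisMonomials, Polynomial.X_pow_eq_monomial]

theorem crBasis_repr (p q : R[X]) (m : ℕ × Fin 2) :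
    (crBasis V).repr (p • (1 : V.CoordinateRing) + q • Affine.CoordinateRing.mk V Y) (monoIdx m) =
      if m.2 = 0 then p.coeff m.1 else q.coeff m.1 := by
  rw [crBasis, Basis.repr_reindex_apply, Equiv.symm_apply_apply, Basis.smulTower_repr,
    ← Affine.CoordinateRing.basis_zero, ← Affine.CoordinateRing.basis_one, map_add, map_smul,
    map_smul, Basis.repr_self, Basis.repr_self]
  obtain ⟨i, j⟩ := m
  fin_cases j <;> simp [Polynomial.basisMonomials, Polynomial.toFinsuppIsoLinear] <;> rfl

theorem crBasis_zero : crBasis V ⟨0, show (0 : ℕ) ≠ 1 from zero_ne_one⟩ = 1 := by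
  rw [show (⟨0, show (0 : ℕ) ≠ 1 from zero_ne_one⟩ : poleOrds) = monoIdx (0, 0) from
    Subtype.ext rfl, crBasis_apply, Affine.CoordinateRing.basis_zero, pow_zero, one_smul]

/-- The product of two basis vectors. -/
theorem crBasis_mul (m n : ℕ × Fin 2) : ∃ p q : R[X],
    crBasis V (monoIdx m) * crBasis V (monoIdx n) =
      p • (1 : V.CoordinateRing) + q • Affine.CoordinateRing.mk V Y ∧
    (∀ k : ℕ, 2 * m.1 + 3 * (m.2 : ℕ) + (2 * n.1 + 3 * (n.2 : ℕ)) < 2 * k → p.coeff k = 0) ∧
    (∀ k : ℕ, 2 * m.1 + 3 * (m.2 : ℕ) + (2 * n.1 + 3 * (n.2 : ℕ)) < 2 * k + 3 → q.coeff k = 0) ∧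
    (∀ k : ℕ, 2 * k = 2 * m.1 + 3 * (m.2 : ℕ) + (2 * n.1 + 3 * (n.2 : ℕ)) → p.coeff k = 1) ∧
    ∀ k : ℕ, 2 * k + 3 = 2 * m.1 + 3 * (m.2 : ℕ) + (2 * n.1 + 3 * (n.2 : ℕ)) → q.coeff k = 1 := by
  obtain ⟨i, a⟩ := m
  obtain ⟨j, c⟩ := n
  rw [crBasis_apply, crBasis_apply, smul_mul_smul_comm, ← pow_add]
  fin_cases a <;> fin_cases c
  · refine ⟨X ^ (i + j), 0, by simp, ?_, ?_, ?_, ?_⟩ <;> intro k hk <;>
      simp [Polynomial.coeff_X_pow] at hk ⊢ <;> omega
  · refine ⟨0, X ^ (i + j), by simp, ?_, ?_, ?_, ?_⟩ <;> intro k hk <;>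
      simp [Polynomial.coeff_X_pow] at hk ⊢ <;> omega
  · refine ⟨0, X ^ (i + j), by simp, ?_, ?_, ?_, ?_⟩ <;> intro k hk <;>
      simp [Polynomial.coeff_X_pow] at hk ⊢ <;> omega
  · refine ⟨X ^ (i + j) * (X ^ 3 + C V.a₂ * X ^ 2 + C V.a₄ * X + C V.a₆),
      X ^ (i + j) * (-(C V.a₁ * X + C V.a₃)), ?_, ?_, ?_, ?_, ?_⟩
    · have h := Affine.CoordinateRing.smul_basis_mul_Y (W' := V) 0 1
      simp only [zero_smul, one_smul, zero_add, one_mul, zero_sub] at h
      simp only [Fin.mk_one, Affine.CoordinateRing.basis_one]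
      rw [h, smul_add, smul_smul, smul_smul]
    all_goals
      intro k hk
      simp [Polynomial.coeff_X_pow_mul', Polynomial.coeff_X_pow, Polynomial.coeff_C,
        Polynomial.coeff_X] at hk ⊢
      try (split_ifs <;> first | omega | rfl | simp_all)

/-- The product of two basis vectors has leading coefficient one. -/
theorem repr_mul_top (s t : poleOrds) (h : (s : ℕ) + t ∈ poleOrds) :
    (crBasis V).repr (crBasis V s * crBasis V t) ⟨s + t, h⟩ = 1 := by
  obtain ⟨m, rfl⟩ := monoIdx.surjective s
  obtain ⟨n, rfl⟩ := monoIdx.surjective t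
  obtain ⟨k, hk⟩ := monoIdx.surjective ⟨_, h⟩
  obtain ⟨p, q, e, -, -, h1, h2⟩ := crBasis_mul V m n
  have hk' := congrArg Subtype.val hk
  rw [← hk, e, crBasis_repr]
  obtain ⟨i, j⟩ := k
  fin_cases j
  · exact (if_pos rfl).trans (h1 i (by simpa [monoIdx] using hk'))
  · exact (if_neg (by simp)).trans (h2 i (by simpa [monoIdx] using hk'))

theorem repr_mul_high (s t u : poleOrds) (h : (s : ℕ) + t < u) :
    (crBasis V).repr (crBasis V s * crBasis V t) u = 0 := by
  obtain ⟨m, rfl⟩ := monoIdx.surjective s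
  obtain ⟨n, rfl⟩ := monoIdx.surjective t
  obtain ⟨⟨i, j⟩, rfl⟩ := monoIdx.surjective u
  obtain ⟨p, q, e, h1, h2, -, -⟩ := crBasis_mul V m n
  rw [e, crBasis_repr]
  fin_cases j
  · exact (if_pos rfl).trans (h1 i (by simpa [monoIdx] using h))
  · exact (if_neg (by simp)).trans (h2 i (by simpa [monoIdx] using h))

/-- The only gap of the pole orders is `1`. -/
theorem poleOrds_gaps : (poleOrdsᶜ : Set ℕ) = {1} := by ext n; simp

theorem poleOrds_add_mem : ∀ s ∈ poleOrds, ∀ t ∈ poleOrds, s + t ∈ poleOrds := by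
  intro s hs t ht
  change s ≠ 1 at hs
  change t ≠ 1 at ht
  show s + t ≠ 1
  omega

end Ring

/-- An invertible maximal ideal of a local domain is principal. -/
theorem isPrincipal_of_mul_eq_span {L : Type*} [CommRing L] [IsDomain L] [IsLocalRing L]
    {I : Ideal L} {d : L} (hd : d ≠ 0) (h : IsLocalRing.maximalIdeal L * I = Ideal.span {d}) :
    (IsLocalRing.maximalIdeal L).IsPrincipal := by
  obtain ⟨a, ha, b, hb, u, hu, e⟩ : ∃ a ∈ IsLocalRing.maximalIdeal L, ∃ b ∈ I, ∃ u : L,
      IsUnit u ∧ u * d = a * b := by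
    by_contra! hne
    have hle : IsLocalRing.maximalIdeal L * I ≤ IsLocalRing.maximalIdeal L * Ideal.span {d} := by
      refine Ideal.mul_le.2 fun a ha b hb => ?_
      obtain ⟨u, hu⟩ := Ideal.mem_span_singleton'.1 (h ▸ Ideal.mul_mem_mul ha hb)
      rw [← hu]
      exact Ideal.mul_mem_mul ((IsLocalRing.mem_maximalIdeal u).2 fun hu' => hne a ha b hb u hu' hu)
        (Ideal.mem_span_singleton_self d)
    rw [h, Ideal.span_singleton_le_iff_mem, Ideal.mem_mul_span_singleton] at hle
    obtain ⟨t, ht, he⟩ := hle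
    have ht1 : t = 1 := mul_right_cancel₀ hd (by rw [he, one_mul])
    exact (IsLocalRing.maximalIdeal.isMaximal L).ne_top
      ((Ideal.eq_top_iff_one _).2 (ht1 ▸ ht))
  obtain ⟨u, rfl⟩ := hu
  refine ⟨a, le_antisymm (fun x hx => ?_) ((Ideal.span_singleton_le_iff_mem _).2 ha)⟩
  obtain ⟨w, hw⟩ := Ideal.mem_span_singleton'.1 (h ▸ Ideal.mul_mem_mul hx hb)
  refine Ideal.mem_span_singleton'.2 ⟨w * ↑u⁻¹, ?_⟩
  have hb0 : b ≠ 0 := fun h0 => hd (by
    rw [h0, mul_zero, Units.mul_right_eq_zero] at e
    exact e)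
  refine mul_right_cancel₀ hb0 ?_
  rw [← hw, mul_assoc (w * _), ← e, mul_assoc, ← mul_assoc (↑u⁻¹ : L), Units.inv_mul, one_mul]

section Field

variable {K : Type*} [Field K] (V : WeierstrassCurve.Affine K)

/-- The coordinate ring with its pole orders at infinity. -/
def crPole : Flat.PoleBasis K V.CoordinateRing where
  S := poleOrds
  g := 1
  gaps_finite := by rw [poleOrds_gaps]; exact Set.finite_singleton 1
  gaps_card := by rw [poleOrds_gaps, Set.ncard_singleton]
  add_mem := poleOrds_add_mem
  b := crBasis V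
  zero_mem := show (0 : ℕ) ≠ 1 from zero_ne_one
  b_zero := crBasis_zero V
  coef_mul_top s t := by rw [repr_mul_top]; exact one_ne_zero
  coef_mul_high := repr_mul_high V

variable {V}

/-- Every maximal ideal of the coordinate ring over an algebraically closed field is that of a
point. -/
theorem exists_eq_XYIdeal [IsAlgClosed K] (hΔ : V.Δ ≠ 0) {Q : Ideal V.CoordinateRing}
    (hQ : Q.IsMaximal) (hQ0 : Q ≠ ⊥) :
    ∃ x y, V.Nonsingular x y ∧ Q = Affine.CoordinateRing.XYIdeal V x (C y) := by
  obtain ⟨x, hx⟩ := (crPole V).exists_const hQ hQ0 (Affine.CoordinateRing.mk V (C X))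
  obtain ⟨y, hy⟩ := (crPole V).exists_const hQ hQ0 (Affine.CoordinateRing.mk V Y)
  have hle : Affine.CoordinateRing.XYIdeal V x (C y) ≤ Q := by
    rw [Affine.CoordinateRing.XYIdeal, Ideal.span_le]
    rintro z (rfl | rfl)
    · rw [Affine.CoordinateRing.XClass, map_sub, map_sub]
      exact hx
    · rw [Affine.CoordinateRing.YClass, map_sub]
      exact hy
  have heq : V.Equation x y := by
    by_contra hne
    have hQK : algebraMap K V.CoordinateRing (V.polynomial.evalEval x y) ∈ Q := by
      have h1 : Affine.CoordinateRing.mk V V.polynomial = 0 := AdjoinRoot.mk_self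
      obtain ⟨r, hr⟩ : ∃ r, r ∈ Affine.CoordinateRing.XYIdeal V x (C y) ∧
          Affine.CoordinateRing.mk V V.polynomial - algebraMap K V.CoordinateRing
            (V.polynomial.evalEval x y) = r := by
        refine ⟨_, ?_, rfl⟩
        obtain ⟨f, hf⟩ : (X : K[X][Y]) - C (C y) ∣ V.polynomial - C (V.polynomial.eval (C y)) :=
          X_sub_C_dvd_sub_C_eval
        obtain ⟨g, hg⟩ : (X : K[X]) - C x ∣
            V.polynomial.eval (C y) - C (V.polynomial.evalEval x y) := by
          rw [Polynomial.evalEval]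
          exact X_sub_C_dvd_sub_C_eval
        have e : V.polynomial - C (C (V.polynomial.evalEval x y)) =
            (Y - C (C y)) * f + C (X - C x) * C g := by
          rw [← hf, ← C_mul, ← hg, C_sub]; ring
        have e' := congrArg (Affine.CoordinateRing.mk V) e
        rw [map_sub, map_add, map_mul, map_mul] at e'
        rw [show algebraMap K V.CoordinateRing (V.polynomial.evalEval x y) =
          Affine.CoordinateRing.mk V (C (C (V.polynomial.evalEval x y))) from rfl, e']
        exact Ideal.add_mem _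
          (Ideal.mul_mem_right _ _ (Ideal.subset_span (Set.mem_insert_of_mem _ rfl)))
          (Ideal.mul_mem_right _ _ (Ideal.subset_span (Set.mem_insert _ _)))
      rw [h1, zero_sub] at hr
      rw [← neg_mem_iff]
      exact hr.2 ▸ hle hr.1
    exact hQ.ne_top (Ideal.eq_top_of_isUnit_mem _ hQK ((IsUnit.mk0 _ hne).map _))
  refine ⟨x, y, (Affine.equation_iff_nonsingular_of_Δ_ne_zero hΔ).1 heq, ?_⟩
  have hmax : (Affine.CoordinateRing.XYIdeal V x (C y)).IsMaximal :=
    Ideal.Quotient.maximal_of_isField _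
      ((Affine.CoordinateRing.quotientXYIdealEquiv (y := C y) heq).toMulEquiv.isField
        (Field.toIsField K))
  exact (hmax.eq_of_le hQ.ne_top hle).symm

/-- The coordinate ring of a nonsingular curve over an algebraically closed field is normal. -/
theorem isIntegrallyClosed_coordinateRing [IsAlgClosed K] (hΔ : V.Δ ≠ 0) :
    IsIntegrallyClosed V.CoordinateRing := by
  have := (crPole V).isNoetherianRing
  have hdvr : IsDedekindDomainDvr V.CoordinateRing :=
    { is_dvr_at_nonzero_prime := fun Q hQ0 hQ => by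
        have hmax := (crPole V).isMaximal_of_isPrime hQ0 hQ
        obtain ⟨x, y, hns, hQxy⟩ := exists_eq_XYIdeal hΔ hmax hQ0
        have := IsLocalization.isNoetherianRing Q.primeCompl (Localization.AtPrime Q) inferInstance
        refine ((IsDiscreteValuationRing.TFAE _
          (IsLocalization.AtPrime.not_isField _ hQ0 (Localization.AtPrime Q))).out 0 4).2 ?_
        set f := algebraMap V.CoordinateRing (Localization.AtPrime Q)
        have hinj : Function.Injective f :=
          IsLocalization.injective _ (Ideal.primeCompl_le_nonZeroDivisors Q)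
        refine isPrincipal_of_mul_eq_span (d := f (Affine.CoordinateRing.XClass V x))
          (I := (Affine.CoordinateRing.XYIdeal V x (C (V.negY x y))).map f)
          (fun h0 => Affine.CoordinateRing.XClass_ne_zero x (hinj (h0.trans (map_zero f).symm))) ?_
        rw [← Localization.AtPrime.map_eq_maximalIdeal, ← Ideal.map_mul,
          show Q * Affine.CoordinateRing.XYIdeal V x (C (V.negY x y)) =
            Affine.CoordinateRing.XIdeal V x by
              rw [hQxy, mul_comm, Affine.CoordinateRing.XYIdeal_neg_mul hns],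
          Affine.CoordinateRing.XIdeal, Ideal.map_span, Set.image_singleton] }
  infer_instance

end Field

end Fermat.Agent.Raising.Tate
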