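import Fermat.Agent.Flat.Assembly
import Fermat.Agent.Raising.Tate.CurveRing

/-!
# A good model of an elliptic curve with good reduction at `p`

The coordinate ring over the localisation of `ℤ` at `p` with its pole orders, and the point ideals
that describe the group law; this is the input of the flatness of the torsion.
-/

noncomputable section

namespace Fermat.Agent.Raising.Tate

open WeierstrassCurve Polynomial Module Fermat.Agent.Flat
open scoped TensorProduct Polynomial.Bivariate

local notation "Qbar" => AlgebraicClosure ℚ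

variable (p : ℕ) (W : WeierstrassCurve ℤ)

/-- The curve over `ℤ_(p)`. -/
abbrev curveZl : WeierstrassCurve.Affine (Zl p) := (W.map (Int.castRingHom (Zl p))).toAffine

/-- A fibre of the coordinate ring is the coordinate ring of the fibre. -/
theorem exists_fibreEquiv (K : Type) [CommRing K] [Algebra (Zl p) K] (V : WeierstrassCurve.Affine K)
    (hV : V = ((curveZl p W).map (algebraMap (Zl p) K)).toAffine) :
    ∃ e : (K ⊗[Zl p] (curveZl p W).CoordinateRing) ≃ₐ[K] V.CoordinateRing,
      e (1 ⊗ₜ Affine.CoordinateRing.mk (curveZl p W) (C X)) = Affine.CoordinateRing.mk V (C X) ∧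
      e (1 ⊗ₜ Affine.CoordinateRing.mk (curveZl p W) Y) = Affine.CoordinateRing.mk V Y := by
  subst hV
  set W0 := curveZl p W
  set f := algebraMap (Zl p) K
  let φ : W0.CoordinateRing →ₐ[Zl p] (W0.map f).toAffine.CoordinateRing :=
    { Affine.CoordinateRing.map W0 f with
      commutes' := fun c => by
        show Affine.CoordinateRing.map W0 f (Affine.CoordinateRing.mk W0 (C (C c))) = _
        rw [Affine.CoordinateRing.map_mk, map_C]
        show Affine.CoordinateRing.mk (W0.map f).toAffine (C ((C c).map f)) = _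
        rw [map_C]
        rfl }
  have hφ : ∀ a, φ a = Affine.CoordinateRing.map W0 f a := fun _ => rfl
  let Φ : (K ⊗[Zl p] W0.CoordinateRing) →ₐ[K] (W0.map f).toAffine.CoordinateRing :=
    Algebra.TensorProduct.lift (Algebra.ofId _ _) φ fun _ _ => Commute.all _ _
  have hΦ : ∀ a, Φ (1 ⊗ₜ a) = Affine.CoordinateRing.map W0 f a := fun a => by
    rw [Algebra.TensorProduct.lift_tmul, map_one, one_mul, hφ]
  have hY : Affine.CoordinateRing.map W0 f (Affine.CoordinateRing.mk W0 Y) =
      Affine.CoordinateRing.mk (W0.map f).toAffine Y := by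
    rw [Affine.CoordinateRing.map_mk, map_X]
  have hmono : ∀ m, Affine.CoordinateRing.map W0 f (crBasis W0 (monoIdx m)) =
      crBasis (W0.map f).toAffine (monoIdx m) := by
    rintro ⟨i, j⟩
    rw [crBasis_apply, crBasis_apply, Affine.CoordinateRing.map_smul, Polynomial.map_pow, map_X]
    congr 1
    fin_cases j
    · simp
    · simpa using hY
  have hbij : Function.Bijective Φ := by
    have e : Φ.toLinearMap = (((crBasis W0).baseChange K).equiv (crBasis (W0.map f).toAffine)
        (Equiv.refl _)).toLinearMap := by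
      refine ((crBasis W0).baseChange K).ext fun s => ?_
      obtain ⟨m, rfl⟩ := monoIdx.surjective s
      rw [LinearEquiv.coe_coe, Basis.equiv_apply, Equiv.refl_apply, Basis.baseChange_apply,
        AlgHom.toLinearMap_apply, hΦ, hmono]
    rw [← AlgHom.coe_toLinearMap, e]
    exact LinearEquiv.bijective _
  refine ⟨AlgEquiv.ofBijective Φ hbij, ?_, ?_⟩
  · rw [AlgEquiv.coe_ofBijective, hΦ, Affine.CoordinateRing.map_mk, map_C]
    show Affine.CoordinateRing.mk (W0.map f).toAffine (C ((X : (Zl p)[X]).map f)) = _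
    rw [map_X]
  · rw [AlgEquiv.coe_ofBijective, hΦ, hY]

theorem map_curveZl (K : Type) [CommRing K] [Algebra (Zl p) K] :
    ((curveZl p W).map (algebraMap (Zl p) K)).toAffine = (W.map (Int.castRingHom K)).toAffine := by
  rw [← RingHom.ext_int ((algebraMap (Zl p) K).comp (Int.castRingHom (Zl p))) (Int.castRingHom K)]
  exact WeierstrassCurve.map_map _ _ _

/-- A fibre at which the discriminant does not vanish is normal. -/
theorem isIntegrallyClosed_fibre (K : Type) [Field K] [IsAlgClosed K] [Algebra (Zl p) K]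
    (hΔ : (W.Δ : K) ≠ 0) : IsIntegrallyClosed (K ⊗[Zl p] (curveZl p W).CoordinateRing) := by
  obtain ⟨e, -⟩ := exists_fibreEquiv p W K _ (map_curveZl p W K).symm
  have := isIntegrallyClosed_coordinateRing (V := (W.map (Int.castRingHom K)).toAffine) (by
    show (W.map (Int.castRingHom K)).Δ ≠ 0
    rwa [WeierstrassCurve.map_Δ])
  exact IsIntegrallyClosed.of_equiv e.symm.toRingEquiv

theorem red_disc_ne_zero [Fact p.Prime] (v : Pl p) (hp : ¬ (p : ℤ) ∣ W.Δ) : (W.Δ : v.k) ≠ 0 := by
  intro h
  obtain ⟨a, b, hab⟩ :=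
    (((Nat.prime_iff_prime_int.1 (Fact.out : p.Prime))).coprime_iff_not_dvd).2 hp
  have h1 := congrArg (fun z : ℤ => (z : v.k)) hab
  simp [h, red_natCast] at h1

/-- The pole orders of a fibre. -/
def fibrePoleEC (K : Type) [Field K] [Algebra (Zl p) K] :
    PoleBasis K (K ⊗[Zl p] (curveZl p W).CoordinateRing) where
  S := poleOrds
  g := 1
  gaps_finite := by rw [poleOrds_gaps]; exact Set.finite_singleton 1
  gaps_card := by rw [poleOrds_gaps, Set.ncard_singleton]
  add_mem := poleOrds_add_mem
  b := (crBasis (curveZl p W)).baseChange K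
  zero_mem := show (0 : ℕ) ≠ 1 from zero_ne_one
  b_zero := by rw [Basis.baseChange_apply, crBasis_zero]; rfl
  coef_mul_top s t := by
    rw [Basis.baseChange_apply, Basis.baseChange_apply, Algebra.TensorProduct.tmul_mul_tmul,
      one_mul,
      Basis.baseChange_repr_tmul, repr_mul_top]
    simp
  coef_mul_high s t u h := by
    rw [Basis.baseChange_apply, Basis.baseChange_apply, Algebra.TensorProduct.tmul_mul_tmul,
      one_mul,
      Basis.baseChange_repr_tmul, repr_mul_high _ s t u h, zero_smul]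

/-- The good model of an elliptic curve with good reduction at `p`. -/
def goodModelEC [Fact p.Prime] (hp : ¬ (p : ℤ) ∣ W.Δ) : GoodModel p where
  S := poleOrds
  g := 1
  gaps_finite := by rw [poleOrds_gaps]; exact Set.finite_singleton 1
  gaps_card := by rw [poleOrds_gaps, Set.ncard_singleton]
  add_mem := poleOrds_add_mem
  zero_mem := show (0 : ℕ) ≠ 1 from zero_ne_one
  Alg := (curveZl p W).CoordinateRing
  b := crBasis (curveZl p W)
  b_zero := crBasis_zero _
  mul_top s t := by rw [repr_mul_top]; exact one_ne_zero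
  mul_high := repr_mul_high _
  normal_generic :=
    isIntegrallyClosed_fibre p W Qbar (Int.cast_ne_zero.2 fun h => hp (h ▸ dvd_zero _))
  normal_special v := isIntegrallyClosed_fibre p W v.k (red_disc_ne_zero p W v hp)
  special v := fibrePoleEC p W v.k
  special_g _ := rfl
  special_mem v s := by
    refine (fibrePoleEC p W v.k).deg_b s ▸ (fibrePoleEC p W v.k).mem_L_deg _

/-- The ideal of a point on the generic fibre. -/
def pointIdeal : (W.map (Int.castRingHom Qbar)).toAffine.Point →
    Ideal (Qbar ⊗[Zl p] (curveZl p W).CoordinateRing)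
  | .zero => ⊤
  | @Affine.Point.some _ _ _ x y _ => Ideal.span
      {(1 : Qbar) ⊗ₜ[Zl p] Affine.CoordinateRing.mk (curveZl p W) (C X) - x ⊗ₜ[Zl p] 1,
        (1 : Qbar) ⊗ₜ[Zl p] Affine.CoordinateRing.mk (curveZl p W) Y - y ⊗ₜ[Zl p] 1}

variable {p W} (hp : ¬ (p : ℤ) ∣ W.Δ)

theorem equiv_tmul_one {V : WeierstrassCurve.Affine Qbar}
    (e : (Qbar ⊗[Zl p] (curveZl p W).CoordinateRing) ≃ₐ[Qbar] V.CoordinateRing) (c : Qbar) :
    e (c ⊗ₜ[Zl p] (1 : (curveZl p W).CoordinateRing)) = Affine.CoordinateRing.mk V (C (C c)) :=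
  e.commutes c

theorem map_pointIdeal
    (e : (Qbar ⊗[Zl p] (curveZl p W).CoordinateRing) ≃ₐ[Qbar]
      (W.map (Int.castRingHom Qbar)).toAffine.CoordinateRing)
    (heX : e (1 ⊗ₜ Affine.CoordinateRing.mk (curveZl p W) (C X)) =
      Affine.CoordinateRing.mk _ (C X))
    (heY : e (1 ⊗ₜ Affine.CoordinateRing.mk (curveZl p W) Y) = Affine.CoordinateRing.mk _ Y)
    {x y : Qbar} (h : (W.map (Int.castRingHom Qbar)).toAffine.Nonsingular x y) :
    (pointIdeal p W (.some x y h)).map e.toRingEquiv.toRingHom =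
      Affine.CoordinateRing.XYIdeal _ x (C y) := by
  show Ideal.map e.toRingEquiv.toRingHom (Ideal.span _) = _
  rw [Ideal.map_span, Set.image_pair]
  show Ideal.span {e (_ - _), e (_ - _)} = _
  rw [map_sub, map_sub, heX, heY, equiv_tmul_one e, equiv_tmul_one e,
    Affine.CoordinateRing.XYIdeal, Affine.CoordinateRing.XClass, Affine.CoordinateRing.YClass,
    map_sub, map_sub, map_sub]

/-- The class of a point. -/
theorem toClass_eq_mk
    (e : (Qbar ⊗[Zl p] (curveZl p W).CoordinateRing) ≃ₐ[Qbar]
      (W.map (Int.castRingHom Qbar)).toAffine.CoordinateRing)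
    (heX : e (1 ⊗ₜ Affine.CoordinateRing.mk (curveZl p W) (C X)) =
      Affine.CoordinateRing.mk _ (C X))
    (heY : e (1 ⊗ₜ Affine.CoordinateRing.mk (curveZl p W) Y) = Affine.CoordinateRing.mk _ Y)
    (P : (W.map (Int.castRingHom Qbar)).toAffine.Point) :
    ∃ I : (FractionalIdeal (nonZeroDivisors (W.map (Int.castRingHom Qbar)).toAffine.CoordinateRing)
        (W.map (Int.castRingHom Qbar)).toAffine.FunctionField)ˣ,
      (I : FractionalIdeal (nonZeroDivisors (W.map (Int.castRingHom Qbar)).toAffine.CoordinateRing)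
          (W.map (Int.castRingHom Qbar)).toAffine.FunctionField) =
        (↑((pointIdeal p W P).map e.toRingEquiv.toRingHom) :
          FractionalIdeal (nonZeroDivisors (W.map (Int.castRingHom Qbar)).toAffine.CoordinateRing)
            (W.map (Int.castRingHom Qbar)).toAffine.FunctionField) ∧
      (Affine.Point.toClass P).toMul = ClassGroup.mk _ I := by
  rcases P with _ | ⟨x, y, h⟩
  · refine ⟨1, ?_, ?_⟩
    · rw [show pointIdeal p W .zero = ⊤ from rfl, Ideal.map_top, Units.val_one,
        FractionalIdeal.coeIdeal_top]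
    · rw [map_one, ← Affine.Point.zero_def, map_zero]
      rfl
  · exact ⟨Affine.CoordinateRing.XYIdeal' h, by
      rw [map_pointIdeal e heX heY h]; rfl, rfl⟩

/-- The group law is multiplication of point ideals up to principal ideals. -/
theorem rel_iff (a b c : (W.map (Int.castRingHom Qbar)).toAffine.Point) :
    (∃ α β : Qbar ⊗[Zl p] (curveZl p W).CoordinateRing, α ≠ 0 ∧ β ≠ 0 ∧
      Ideal.span {α} * pointIdeal p W a = Ideal.span {β} * (pointIdeal p W b * pointIdeal p W c)) ↔
      a = b + c := by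
  obtain ⟨e, heX, heY⟩ := exists_fibreEquiv p W Qbar _ (map_curveZl p W Qbar).symm
  obtain ⟨Ia, hIa, ha⟩ := toClass_eq_mk e heX heY a
  obtain ⟨Ib, hIb, hb⟩ := toClass_eq_mk e heX heY b
  obtain ⟨Ic, hIc, hc⟩ := toClass_eq_mk e heX heY c
  rw [← (Affine.Point.toClass_injective).eq_iff, ← Additive.toMul.injective.eq_iff, map_add,
    toMul_add, ha, hb, hc, ← map_mul, ClassGroup.mk_eq_mk_of_coe_ideal hIa
      (J' := (pointIdeal p W b * pointIdeal p W c).map e.toRingEquiv.toRingHom)
      (by rw [Units.val_mul, hIb, hIc, Ideal.map_mul, FractionalIdeal.coeIdeal_mul])]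
  have hinj : Function.Injective
      (Ideal.map e.toRingEquiv.toRingHom : Ideal (Qbar ⊗[Zl p] _) → _) := fun I J hIJ => by
    have h := congrArg (Ideal.comap e.toRingEquiv.toRingHom) hIJ
    exact (Ideal.comap_map_of_bijective _ e.bijective).symm.trans
      (h.trans (Ideal.comap_map_of_bijective _ e.bijective))
  constructor
  · rintro ⟨α, β, hα, hβ, h⟩
    refine ⟨e α, e β, fun h0 => hα (e.injective (h0.trans (map_zero e).symm)),
      fun h0 => hβ (e.injective (h0.trans (map_zero e).symm)), ?_⟩
    have h' := congrArg (Ideal.map e.toRingEquiv.toRingHom) h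
    rwa [Ideal.map_mul, Ideal.map_mul, Ideal.map_span, Ideal.map_span, Set.image_singleton,
      Set.image_singleton] at h'
  · rintro ⟨x, y, hx, hy, h⟩
    obtain ⟨α, rfl⟩ := e.surjective x
    obtain ⟨β, rfl⟩ := e.surjective y
    refine ⟨α, β, fun h0 => hx (by rw [h0, map_zero]), fun h0 => hy (by rw [h0, map_zero]), hinj ?_⟩
    rw [Ideal.map_mul, Ideal.map_mul, Ideal.map_span, Ideal.map_span, Set.image_singleton,
      Set.image_singleton]
    exact h

theorem pointIdeal_ne_bot (a : (W.map (Int.castRingHom Qbar)).toAffine.Point) :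
    pointIdeal p W a ≠ ⊥ := by
  obtain ⟨e, heX, heY⟩ := exists_fibreEquiv p W Qbar _ (map_curveZl p W Qbar).symm
  obtain ⟨I, hI, -⟩ := toClass_eq_mk e heX heY a
  intro h
  rw [h, Ideal.map_bot, FractionalIdeal.coeIdeal_bot] at hI
  exact I.ne_zero hI

/-- Point ideals are Galois equivariant. -/
theorem pointIdeal_map [Fact p.Prime] (σ : Qbar ≃ₐ[ℚ] Qbar)
    {x y : Qbar} (h : (W.map (Int.castRingHom Qbar)).toAffine.Nonsingular x y)
    (h' : (W.map (Int.castRingHom Qbar)).toAffine.Nonsingular (σ x) (σ y)) :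
    pointIdeal p W (.some (σ x) (σ y) h') =
      (goodModelEC p W hp).galI σ (pointIdeal p W (.some x y h)) := by
  let g : (Qbar ⊗[Zl p] (curveZl p W).CoordinateRing) →+*
      (Qbar ⊗[Zl p] (curveZl p W).CoordinateRing) :=
    ((goodModelEC p W hp).galR σ).toRingEquiv.toRingHom
  show Ideal.span _ = Ideal.map g (Ideal.span _)
  rw [Ideal.map_span, Set.image_pair, map_sub, map_sub]
  show _ = Ideal.span {σ 1 ⊗ₜ[Zl p] _ - σ x ⊗ₜ[Zl p] _, σ 1 ⊗ₜ[Zl p] _ - σ y ⊗ₜ[Zl p] _}
  rw [map_one]
  rfl

end Fermat.Agent.Raising.Tate
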