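import Mathlib.RingTheory.Finiteness.Quotient
import Fermat.Prelude.Def_GaloisRep_Flat
import Fermat.Agent.EC.VarChange
import Fermat.Agent.Flat.Closure
import Fermat.Agent.Raising.Tate.Frame
import Fermat.Agent.Raising.Tate.GoodEC
import Fermat.Agent.Tate.Integral

/-!
# The Tate module at a prime of good reduction is flat

Every finite level of the Tate module is the generic fibre of a finite flat group scheme over
`ℤ_(p)`.
-/

noncomputable section

namespace Fermat.Agent.Raising.Tate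

open WeierstrassCurve Fermat.Agent.Flat
open scoped WeierstrassCurve.Affine

local notation "Qbar" => AlgebraicClosure ℚ
local notation "Gal0" => (AlgebraicClosure ℚ ≃ₐ[ℚ] AlgebraicClosure ℚ)

variable {p : ℕ} [Fact p.Prime] {W : WeierstrassCurve ℤ}

/-- The ideal of a point of `E(ℚ̄)`. -/
def qbarIdeal (P : ((W.map (Int.castRingHom ℚ))⁄Qbar).Point) :
    Ideal (TensorProduct (Zl p) Qbar (curveZl p W).CoordinateRing) :=
  pointIdeal p W (EC.pointCongr (Fermat.Agent.Tate.qbarCurve_eq W) P)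

omit [Fact (Nat.Prime p)] in
theorem qbarIdeal_zero :
    qbarIdeal (p := p) (0 : ((W.map (Int.castRingHom ℚ))⁄Qbar).Point) = ⊤ := by
  rw [qbarIdeal, map_zero]
  rfl

theorem qbarIdeal_smul (hp : ¬ (p : ℤ) ∣ W.Δ) (σ : Gal0)
    (P : ((W.map (Int.castRingHom ℚ))⁄Qbar).Point) :
    qbarIdeal (p := p) (σ • P) = (goodModelEC p W hp).galI σ (qbarIdeal P) := by
  rcases P with _ | ⟨x, y, h⟩
  · have e : σ • (0 : ((W.map (Int.castRingHom ℚ))⁄Qbar).Point) = 0 :=
      map_zero (Affine.Point.map (W' := (W.map (Int.castRingHom ℚ)).toAffine) σ.toAlgHom)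
    show qbarIdeal (σ • 0) = (goodModelEC p W hp).galI σ (qbarIdeal 0)
    rw [e]
    refine Eq.trans ?_ (congrArg ((goodModelEC p W hp).galI σ) qbarIdeal_zero).symm
    rw [qbarIdeal_zero]
    exact (GoodModel.galI_top (C := goodModelEC p W hp) σ).symm
  · rw [Fermat.Agent.Tate.smul_some, qbarIdeal, qbarIdeal]
    rw [EC.pointCongr_some, EC.pointCongr_some]
    exact pointIdeal_map hp σ _ _

theorem classRel_iff (hp : ¬ (p : ℤ) ∣ W.Δ) (a b c : ((W.map (Int.castRingHom ℚ))⁄Qbar).Point) :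
    (goodModelEC p W hp).Rel (qbarIdeal a) (qbarIdeal b * qbarIdeal c) ↔ a = b + c := by
  rw [← (EC.pointCongr (Fermat.Agent.Tate.qbarCurve_eq W)).injective.eq_iff, map_add]
  exact rel_iff _ _ _

/-- The `n`-torsion as a module of classes of the good model. -/
def torsionClasses (hp : ¬ (p : ℤ) ∣ W.Δ) (n : ℕ) (hn : n ≠ 0) :
    (goodModelEC p W hp).ClassData :=
  haveI : (W.map (Int.castRingHom ℚ)).IsElliptic := ⟨by
    rw [map_Δ, isUnit_iff_ne_zero]
    exact Int.cast_ne_zero.2 fun (h : W.Δ = 0) => hp (h ▸ dvd_zero _)⟩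
  haveI : Finite (Submodule.torsionBy ℤ ((W.map (Int.castRingHom ℚ))⁄Qbar).Point (n : ℤ)) :=
    EC.finite_torsionBy _ n (Nat.cast_ne_zero.2 hn)
  { M := Submodule.torsionBy ℤ ((W.map (Int.castRingHom ℚ))⁄Qbar).Point (n : ℤ)
    act := fun σ x => σ • x
    act_add := fun σ a b => smul_add σ a b
    act_mul := fun σ τ a => mul_smul σ τ a
    act_one := fun a => one_smul _ a
    J := fun x => qbarIdeal x.1
    ne_bot := fun a => pointIdeal_ne_bot _
    J_add := fun a b => (classRel_iff hp _ _ _).2 rfl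
    J_act := fun σ a => (qbarIdeal_smul hp σ a.1).symm ▸ GoodModel.Rel.refl _
    inj := fun a b h => Subtype.ext (((classRel_iff hp a.1 b.1 0).1 (by
      obtain ⟨α, β, hα, hβ, e⟩ := h
      exact ⟨α, β, hα, hβ, e.trans (congrArg _
        ((Ideal.mul_top _).symm.trans (congrArg _ qbarIdeal_zero.symm)))⟩)).trans (add_zero _)) }

/-- The `n`-torsion of an elliptic curve with good reduction at `p` has a finite flat model. -/
theorem hasFlatModel_torsion (hp : ¬ (p : ℤ) ∣ W.Δ) (n : ℕ) (hn : n ≠ 0) :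
    HasFlatModel p (torsionClasses hp n hn).M (torsionClasses hp n hn).act :=
  (torsionClasses hp n hn).hasFlatModel

/-- An ideal of `ℤ_[p]` with finite quotient is a power of `p`. -/
theorem exists_eq_span_pow (I : Ideal ℤ_[p]) [Finite (ℤ_[p] ⧸ I)] :
    ∃ n : ℕ, I = Ideal.span {(p : ℤ_[p]) ^ n} := by
  rcases eq_or_ne I ⊥ with rfl | hI
  · have : Finite ℤ_[p] := Finite.of_equiv _ (RingEquiv.quotientBot ℤ_[p]).toEquiv
    exact absurd this (not_finite_iff_infinite.2 inferInstance)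
  · obtain ⟨n, hn⟩ := IsDiscreteValuationRing.ideal_eq_span_pow_irreducible hI
      (PadicInt.irreducible_p (p := p))
    exact ⟨n, hn⟩

/-- **The Tate module is flat at a prime of good reduction.** -/
theorem TateFrame.isFlatAt (T : TateFrame (W.map (Int.castRingHom ℚ)) p)
    (hp : ¬ (p : ℤ) ∣ W.Δ) : T.ρ.IsFlatAt p := by
  refine ⟨Finite.of_equiv _ (PadicInt.residueField (p := p)).symm.toEquiv, fun I hI => ?_⟩
  obtain ⟨n, rfl⟩ := exists_eq_span_pow I
  have hn : p ^ n ≠ 0 := pow_ne_zero n (Fact.out : p.Prime).ne_zero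
  set N : Submodule ℤ_[p] T.ρ.V := Ideal.span {(p : ℤ_[p]) ^ n} • ⊤
  have hmem : ∀ v, T.pt n v ∈
      Submodule.torsionBy ℤ ((W.map (Int.castRingHom ℚ))⁄Qbar).Point ((p ^ n : ℕ) : ℤ) :=
    fun v => by
    rw [Submodule.mem_torsionBy_iff, natCast_zsmul]
    exact (T.range_pt n _).2 ⟨v, rfl⟩
  let f : T.ρ.V →+ (torsionClasses hp (p ^ n) hn).M :=
    AddMonoidHom.mk' (fun v => ⟨T.pt n v, hmem v⟩) fun a b => Subtype.ext (map_add (T.pt n) a b)
  have hf : N.toAddSubgroup ≤ f.ker := fun v hv => Subtype.ext ((T.pt_eq_zero n v).2 hv)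
  let j : (T.ρ.V ⧸ N) →+ (torsionClasses hp (p ^ n) hn).M :=
    QuotientAddGroup.lift N.toAddSubgroup f hf
  have hj : ∀ v, j (Submodule.Quotient.mk v) = f v := fun _ => rfl
  refine HasFlatModel.sub (act' := fun σ x => T.ρ.levelAction _ σ x)
    (hasFlatModel_torsion hp _ hn) j
    ?_ (fun σ x => ?_) fun σ => map_zero _
  · refine (injective_iff_map_eq_zero j).2 fun x hx => ?_
    obtain ⟨v, rfl⟩ := Submodule.Quotient.mk_surjective _ x
    rw [hj] at hx
    exact (Submodule.Quotient.mk_eq_zero _).2 ((T.pt_eq_zero n v).1 (congrArg Subtype.val hx))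
  · obtain ⟨v, rfl⟩ := Submodule.Quotient.mk_surjective _ x
    rw [show T.ρ.levelAction (Ideal.span {(p : ℤ_[p]) ^ n}) σ (Submodule.Quotient.mk v) =
      Submodule.Quotient.mk (T.ρ.ρ σ v) from rfl, hj, hj]
    exact Subtype.ext (T.pt_smul n σ v)

end Fermat.Agent.Raising.Tate
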