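import Mathlib.RingTheory.RootsOfUnity.AlgebraicallyClosed
import Fermat.Agent.Tate.Frobenius

/-!
# Torsion of exact order off the node

The smooth locus of `y² + xy = x³` is the multiplicative group through `y / (y + x)`, so it carries
a point of every order prime to the characteristic; it lifts to `y² + xy = x³ + t` as a root of the
division polynomial.
-/

noncomputable section

namespace Fermat.Agent.Raising.Tate

open WeierstrassCurve Polynomial
open Fermat.Agent.Tate
open Fermat.Agent.SmallExponents (vcHom vcHom_injective vcHom_surjective)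

lemma val_top_eq_one {k : Type*} [Field k] {x : k} (hx : x ≠ 0) :
    (⊤ : ValuationSubring k).valuation x = 1 := by
  refine ((mem_iff _).1 (ValuationSubring.mem_top _)).antisymm (not_lt.1 fun h => ?_)
  have h2 : (⊤ : ValuationSubring k).valuation x⁻¹ ≤ 1 := (mem_iff _).1 (ValuationSubring.mem_top _)
  rw [map_inv₀, inv_le_one₀ (zero_lt_iff.2 ((Valuation.ne_zero_iff _).2 hx))] at h2
  exact absurd h (not_lt.2 h2)

lemma eq_zero_of_val_top_lt {k : Type*} [Field k] {x : k}
    (hx : (⊤ : ValuationSubring k).valuation x < 1) : x = 0 := by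
  by_contra h
  exact hx.ne (val_top_eq_one h)

/-- A smooth point of exact order `N` on the nodal cubic. -/
theorem exists_nodal_point {k : Type*} [Field k] [DecidableEq k] [IsAlgClosed k] {N : ℕ}
    (hN : 2 ≤ N) (hNk : (N : k) ≠ 0) :
    ∃ (x y : k) (h : (nodeCurve (0 : k)).Nonsingular x y), x ≠ 0 ∧
      ∀ m : ℕ, m • Affine.Point.some x y h = 0 ↔ N ∣ m := by
  have : NeZero (N : k) := ⟨hNk⟩
  obtain ⟨ζ, hζ⟩ := HasEnoughRootsOfUnity.exists_primitiveRoot k N
  have hζ0 : ζ ≠ 0 := hζ.ne_zero (by omega)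
  have hζ1 : 1 - ζ ≠ 0 := sub_ne_zero.2 (hζ.ne_one (by omega)).symm
  set x := ζ / (1 - ζ) ^ 2 with hx
  set y := ζ ^ 2 / (1 - ζ) ^ 3 with hy
  have hx0 : x ≠ 0 := div_ne_zero hζ0 (pow_ne_zero _ hζ1)
  have hns : (nodeCurve (0 : k)).Nonsingular x y := by
    rw [Affine.nonsingular_iff', Affine.equation_iff]
    simp only [nodeCurve_a₁, nodeCurve_a₂, nodeCurve_a₃, nodeCurve_a₄, nodeCurve_a₆, mul_zero,
      zero_mul, add_zero, one_mul]
    have he : y ^ 2 + x * y = x ^ 3 := by rw [hx, hy]; field_simp; ring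
    refine ⟨he, ?_⟩
    by_contra hc
    push Not at hc
    obtain ⟨h1, h2⟩ := hc
    have hy3 : y = 3 * x ^ 2 := by linear_combination h1
    rw [hy3] at h2 he
    have h6 : 6 * x + 1 = 0 :=
      (mul_eq_zero.1 (show x * (6 * x + 1) = 0 by linear_combination h2)).resolve_left hx0
    have h9 : 9 * x + 2 = 0 :=
      (mul_eq_zero.1 (show x ^ 3 * (9 * x + 2) = 0 by linear_combination he)).resolve_left
        (pow_ne_zero _ hx0)
    exact one_ne_zero (show (1 : k) = 0 by linear_combination 2 * h9 - 3 * h6)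
  have hd : ¬ Deep (⊤ : ValuationSubring k) (Affine.Point.some x y hns) := by
    rw [deep_some, val_top_eq_one hx0]; exact lt_irrefl _
  have ht : (⊤ : ValuationSubring k).valuation (0 : k) < 1 := by rw [map_zero]; exact zero_lt_one
  have hf : fPar (Affine.Point.some x y hns) = ζ := by
    rw [fPar_some, hx, hy]
    field_simp
    ring
  have hfm : ∀ m : ℕ, fPar (m • Affine.Point.some x y hns) = ζ ^ m := fun m => by
    rw [← sub_eq_zero, ← hf]
    exact eq_zero_of_val_top_lt (val_fPar_nsmul ht hd m)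
  refine ⟨x, y, hns, hx0, fun m => ⟨fun h => hζ.dvd_of_pow_eq_one m ?_, fun h => ?_⟩⟩
  · rw [← hfm, h, fPar_zero]
  · have h1 := (inE1_iff_fPar ht (not_deep_nsmul ht hd m)).2 (by
      rw [hfm, (hζ.pow_eq_one_iff_dvd m).2 h, sub_self, map_zero]; exact zero_lt_one)
    cases hP : m • Affine.Point.some x y hns with
    | zero => rfl
    | some x' y' h' =>
      exact absurd (h1 x' y' h' hP) (not_lt.2 ((mem_iff _).1 (ValuationSubring.mem_top _)))

variable {K : Type*} [Field K] [DecidableEq K] [IsAlgClosed K] {A : ValuationSubring K}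
  [IsAlgClosed (IsLocalRing.ResidueField A)] {N : ℕ}

local notation "v" => A.valuation

/-- A point off the node of exact order `N`. -/
theorem exists_not_deep_exact_order {t : K} (ht : v t < 1) (hΔ : (nodeCurve t).Δ ≠ 0) (hN : 2 ≤ N)
    (hNv : v (N : K) = 1) :
    ∃ P : (nodeCurve t).Point, ¬ Deep A P ∧ N • P = 0 ∧ ∀ m : ℕ, m • P = 0 → N ∣ m := by
  classical
  let W₀ : WeierstrassCurve A := ⟨1, 0, 0, 0, ⟨t, (mem_iff A).2 ht.le⟩⟩
  have hmap : W₀.map A.subtype = nodeCurve t := by
    ext <;> simp [W₀, nodeCurve]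
  have ht0 : IsLocalRing.residue A ⟨t, (mem_iff A).2 ht.le⟩ = 0 := by
    rw [IsLocalRing.residue_eq_zero_iff, ValuationSubring.valuation_lt_one_iff]; exact ht
  have hres : W₀.map (IsLocalRing.residue A) =
      nodeCurve (0 : IsLocalRing.ResidueField A) := by
    ext <;> simp [W₀, nodeCurve, ht0]
  have hNk : (N : IsLocalRing.ResidueField A) ≠ 0 := by
    rw [← map_natCast (IsLocalRing.residue A), Ne, IsLocalRing.residue_eq_zero_iff,
      ValuationSubring.valuation_lt_one_iff]
    push_cast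
    rw [hNv]
    exact lt_irrefl _
  obtain ⟨xb, yb, hb, hxb, hord⟩ := exists_nodal_point hN hNk
  obtain ⟨c, hc⟩ := IsLocalRing.residue_surjective xb
  set f := (EC.den W₀ N).comp (X + C c) with hf
  have hf0 : IsLocalRing.residue A (f.coeff 0) = 0 := by
    rw [coeff_zero_eq_eval_zero, hf, eval_comp, eval_add, eval_X, eval_C, zero_add,
      ← eval₂_at_apply, ← eval_map, ← EC.den_map, hres, hc]
    exact (EC.nsmul_eq_zero_iff hb N).1 ((hord N).2 dvd_rfl)
  have hfne : f.map (IsLocalRing.residue A) ≠ 0 := by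
    rw [hf, Polynomial.map_comp, Polynomial.map_add, map_X, map_C, ← EC.den_map, hres,
      ← Polynomial.taylor_apply, Ne, Polynomial.taylor_eq_zero]
    exact EC.den_ne_zero _ hNk
  obtain ⟨r, hr, hr1⟩ := exists_root_lt_one hfne hf0
  rw [hf, Polynomial.map_comp, eval_comp, Polynomial.map_add, map_X, map_C, eval_add, eval_X,
    eval_C, ← EC.den_map, hmap] at hr
  have : WeierstrassCurve.IsElliptic (nodeCurve t) := ⟨isUnit_iff_ne_zero.2 hΔ⟩
  obtain ⟨y, hns⟩ := EC.exists_nonsingular (nodeCurve t) (r + c)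
  have hrA : r + (c : K) ∈ A := add_mem ((mem_iff A).2 hr1.le) c.2
  have hred : IsLocalRing.residue A ⟨r + c, hrA⟩ = xb := by
    rw [← hc, ← sub_eq_zero, ← map_sub, IsLocalRing.residue_eq_zero_iff,
      ValuationSubring.valuation_lt_one_iff]
    simpa using hr1
  have hnd : ¬ Deep A (Affine.Point.some _ _ hns) := by
    rw [deep_some]
    intro hlt
    refine hxb (hred.symm.trans ?_)
    rw [IsLocalRing.residue_eq_zero_iff, ValuationSubring.valuation_lt_one_iff]
    exact hlt
  refine ⟨_, hnd, (EC.nsmul_eq_zero_iff hns N).2 hr, fun m hm => (hord m).1 ?_⟩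
  rw [EC.nsmul_eq_zero_iff] at hm ⊢
  rw [← hred, ← hres, EC.den_map, eval_map, eval₂_at_apply]
  rw [← hmap, EC.den_map, eval_map] at hm
  have e := eval₂_at_apply (p := EC.den W₀ m) A.subtype ⟨r + c, hrA⟩
  erw [hm] at e
  rw [show (EC.den W₀ m).eval ⟨r + c, hrA⟩ = 0 from Subtype.ext e.symm, map_zero]

end Fermat.Agent.Raising.Tate
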