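import Fermat.Agent.Raising.Tate.Galois
import Fermat.Agent.Raising.Tate.NodeTorsion

/-!
# The Tate module at a prime `q ≠ p` of multiplicative reduction

At every level there is a point of exact order `p ^ n` with nonsingular reduction.  Inertia fixes it
and Frobenius multiplies it by `± q`; with cyclotomic determinant this gives unipotent inertia and
Frobenius trace `± (q + 1)`.
-/

noncomputable section

namespace Fermat.Agent.Raising.Tate

open IsLocalRing Module
open scoped WeierstrassCurve.Affine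
open Fermat.Agent.Tate
open Fermat.Agent.SmallExponents (vcHom vcHom_injective)

local notation "Qbar" => AlgebraicClosure ℚ

/-- An endomorphism of a plane killing a primitive vector modulo `I` has determinant in `I`. -/
lemma det_mem_of_apply_mem {R V : Type*} [CommRing R] [IsLocalRing R] [AddCommGroup V] [Module R V]
    (b : Basis (Fin 2) R V) (hV : finrank R V = 2) {I : Ideal R} {f : Module.End R V} {v : V}
    (hv : v ∉ (maximalIdeal R • ⊤ : Submodule R V)) (hf : f v ∈ (I • ⊤ : Submodule R V)) :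
    LinearMap.det f ∈ I := by
  have : Module.Free R V := Module.Free.of_basis b
  have : Module.Finite R V := Module.Finite.of_basis b
  have hff : f (f v) ∈ (I • ⊤ : Submodule R V) :=
    Submodule.smul_induction_on (p := fun z => f z ∈ (I • ⊤ : Submodule R V)) hf
      (fun r hr z _ => by rw [map_smul]; exact Submodule.smul_mem_smul hr Submodule.mem_top)
      (fun x y hx hy => by rw [map_add]; exact Submodule.add_mem _ hx hy)
  have hd : LinearMap.det f • v ∈ (I • ⊤ : Submodule R V) := by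
    have h := LinearMap.congr_fun (Gal.cayleyHamilton_two hV f) v
    rw [Module.End.mul_apply, LinearMap.sub_apply, LinearMap.smul_apply, LinearMap.smul_apply,
      Module.End.one_apply] at h
    have : LinearMap.det f • v = LinearMap.trace R V f • f v - f (f v) := by rw [h]; abel
    rw [this]
    exact Submodule.sub_mem _ (Submodule.smul_mem _ _ hf) hff
  obtain ⟨i, hi⟩ : ∃ i, b.repr v i ∉ maximalIdeal R := by
    by_contra h
    push Not at h
    refine hv ?_
    rw [← b.sum_repr v]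
    exact Submodule.sum_mem _ fun i _ => Submodule.smul_mem_smul (h i) Submodule.mem_top
  obtain ⟨u, hu⟩ := IsLocalRing.notMem_maximalIdeal.mp hi
  have h1 := Gal.repr_mem_of_mem_smul_top b hd i
  rw [map_smul, Finsupp.smul_apply, smul_eq_mul, ← hu] at h1
  simpa [mul_assoc] using I.mul_mem_right (↑u⁻¹ : R) h1

/-- The determinant of `f - c`. -/
lemma det_sub_smul_one {R V : Type*} [CommRing R] [AddCommGroup V] [Module R V]
    (b : Basis (Fin 2) R V) (f : Module.End R V) (c : R) :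
    LinearMap.det (f - c • 1) = c ^ 2 - c * LinearMap.trace R V f + LinearMap.det f := by
  rw [LinearMap.trace_eq_matrix_trace R b, ← LinearMap.det_toMatrix b, ← LinearMap.det_toMatrix b,
    map_sub, map_smul, LinearMap.toMatrix_one, Matrix.trace_fin_two, Matrix.det_fin_two,
    Matrix.det_fin_two]
  simp
  ring

variable {W : WeierstrassCurve ℤ} {A : ValuationSubring Qbar} {q : ℕ}

/-- At a multiplicative prime `q` there are points with nonsingular reduction of every exact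
order prime to `q`. -/
theorem exists_inE0_exact_order (hq : q.Prime) (hA : A.LiesOverPrime q) (hΔ0 : W.Δ ≠ 0)
    (hΔ : (q : ℤ) ∣ W.Δ) (hc₄ : ¬ (q : ℤ) ∣ W.c₄) {N : ℕ} (hN : 2 ≤ N) (hqN : ¬ q ∣ N) :
    ∃ P : ((W.map (Int.castRingHom ℚ))⁄Qbar).Point, InE0 A (W := qbarCurve W) P ∧ N • P = 0 ∧
      ∀ m : ℕ, m • P = 0 → N ∣ m := by
  classical
  obtain ⟨h0, hv, hc⟩ := qbarCurve_multiplicative hq hA hΔ0 hΔ hc₄
  obtain ⟨D, -⟩ := exists_normalData (W := qbarCurve W) (isInt_qbarCurve A W) h0 hv hc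
  have : IsAlgClosed (ResidueField A) := Gal.residueField_isAlgClosed
  have hnΔ : (nodeCurve D.t).Δ ≠ 0 := fun h => by
    have := val_nodeCurve_Δ (A := A) D.ht
    rw [h, map_zero, eq_comm, Valuation.zero_iff] at this; exact D.ht0 this
  have hNv : A.valuation (N : Qbar) = 1 := by
    rw [← Int.cast_natCast, val_intCast_eq_one_iff hq hA, Int.natCast_dvd_natCast]; exact hqN
  have hnode : ∀ {V : WeierstrassCurve.Affine Qbar}, V = nodeCurve D.t →
      ∃ P : V.Point, InE0 A P ∧ N • P = 0 ∧ ∀ m : ℕ, m • P = 0 → N ∣ m := by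
    rintro V rfl
    obtain ⟨P, hP, hNP, hm⟩ := exists_not_deep_exact_order D.ht hnΔ hN hNv
    exact ⟨P, (inE0_iff_not_deep D.ht P).2 hP, hNP, hm⟩
  obtain ⟨P, hP, hNP, hm⟩ := hnode D.hC
  refine ⟨vcHom (qbarCurve W) D.C P, (inE0_vcHom_iff D P).2 hP, ?_, fun m h => hm m ?_⟩
  · rw [← map_nsmul, hNP, map_zero]
  · refine vcHom_injective (qbarCurve W) D.C ?_
    rw [map_nsmul, map_zero]
    exact h

namespace TateFrame

variable {p : ℕ} [Fact p.Prime] (F : TateFrame (W.map (Int.castRingHom ℚ)) p)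

lemma nsmul_pt_add (m k : ℕ) (v : F.ρ.V) : p ^ k • F.pt (m + k) v = F.pt m v := by
  induction k with
  | zero => rw [pow_zero, one_nsmul, add_zero]
  | succ k ih => rw [pow_succ, mul_nsmul', ← add_assoc, F.pt_succ, ih]

/-- A vector whose level `n` point has exact order `p ^ n` is primitive. -/
lemma notMem_of_exact_order {n : ℕ} (hn : 0 < n) {v : F.ρ.V}
    (hv : ∀ m : ℕ, m • F.pt n v = 0 → p ^ n ∣ m) :
    v ∉ (maximalIdeal ℤ_[p] • ⊤ : Submodule ℤ_[p] F.ρ.V) := by
  intro hmem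
  rw [← pow_one (maximalIdeal ℤ_[p]), ← F.pt_eq_zero_iff_mem_pow] at hmem
  obtain ⟨k, rfl⟩ : ∃ k, n = 1 + k := ⟨n - 1, by omega⟩
  have h := Nat.le_of_dvd (pow_pos (Fact.out : p.Prime).pos k)
    (hv (p ^ k) (by rw [F.nsmul_pt_add, hmem]))
  exact absurd h (not_le.2 (Nat.pow_lt_pow_right (Fact.out : p.Prime).one_lt (by omega)))

/-- The primitive vectors with nonsingular reduction, one for each level. -/
lemma exists_primitive_inE0 (hq : q.Prime) (hqp : q ≠ p) (hA : A.LiesOverPrime q)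
    (hΔ0 : W.Δ ≠ 0) (hΔ : (q : ℤ) ∣ W.Δ) (hc₄ : ¬ (q : ℤ) ∣ W.c₄) {n : ℕ} (hn : 0 < n) :
    ∃ v : F.ρ.V, InE0 A (W := qbarCurve W) (F.pt n v) ∧
      v ∉ (maximalIdeal ℤ_[p] • ⊤ : Submodule ℤ_[p] F.ρ.V) := by
  have hp : p.Prime := Fact.out
  obtain ⟨P, hP, hNP, hm⟩ := exists_inE0_exact_order hq hA hΔ0 hΔ hc₄
    (hp.two_le.trans (Nat.le_self_pow hn.ne' p))
    (fun h => hqp ((Nat.prime_dvd_prime_iff_eq hq hp).mp (hq.dvd_of_dvd_pow h)))
  obtain ⟨v, rfl⟩ := (F.range_pt n P).mp hNP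
  exact ⟨v, hP, F.notMem_of_exact_order hn hm⟩

/-- **Inertia at a multiplicative prime `q ≠ p` acts unipotently.** -/
theorem isUnipotentOnInertiaAt_of_multiplicative (hdet : F.ρ.DetIsCyclotomic p) (hq : q.Prime)
    (hqp : q ≠ p) (hΔ0 : W.Δ ≠ 0) (hΔ : (q : ℤ) ∣ W.Δ) (hc₄ : ¬ (q : ℤ) ∣ W.c₄) :
    F.ρ.IsUnipotentOnInertiaAt q := by
  intro A hA σ hσ
  have hp : p.Prime := Fact.out
  have hqn : ∀ n : ℕ, ¬ q ∣ p ^ n := fun n h =>
    hqp ((Nat.prime_dvd_prime_iff_eq hq hp).mp (hq.dvd_of_dvd_pow h))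
  have hd : LinearMap.det (F.ρ.ρ σ) = 1 := by
    rw [F.det_eq_natCast hdet (a := 1) fun n μ hμ => by
      rw [pow_one]; exact Gal.inertia_rootOfUnity hq hA hσ (hqn n) hμ, Nat.cast_one]
  have htr : F.ρ.trace σ = 2 := by
    have h0 : (1 : ℤ_[p]) ^ 2 - 1 * F.ρ.trace σ + LinearMap.det (F.ρ.ρ σ) = 0 :=
      eq_zero_of_mem_pow fun n hn => by
        obtain ⟨v, hv, hprim⟩ := F.exists_primitive_inE0 hq hqp hA hΔ0 hΔ hc₄ hn
        rw [GaloisRepAdic.trace, ← det_sub_smul_one (Gal.basisTwo F.ρ.finrank_eq)]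
        refine det_mem_of_apply_mem (Gal.basisTwo F.ρ.finrank_eq) F.ρ.finrank_eq hprim ?_
        rw [LinearMap.sub_apply, one_smul, Module.End.one_apply, ← F.pt_eq_zero_iff_mem_pow,
          map_sub, F.pt_smul, sub_eq_zero]
        exact EC.inertia_fixes_torsion hq hA (hqn n) hσ
          ((inZeroComponentAt_iff_inE0 W A _).2 hv) (F.pow_nsmul_pt n v)
    rw [hd] at h0
    linear_combination -h0
  rw [Gal.charpoly_fin_two' F.ρ.finrank_eq, hd]
  rw [GaloisRepAdic.trace] at htr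
  rw [htr, map_one, map_ofNat]
  ring

/-- **The trace of Frobenius at a multiplicative prime `q ≠ p` is `± (q + 1)`.** -/
theorem trace_frobenius_of_multiplicative (hdet : F.ρ.DetIsCyclotomic p) (hq : q.Prime)
    (hqp : q ≠ p) (hΔ0 : W.Δ ≠ 0) (hΔ : (q : ℤ) ∣ W.Δ) (hc₄ : ¬ (q : ℤ) ∣ W.c₄)
    (hA : A.LiesOverPrime q) {σ : Qbar ≃ₐ[ℚ] Qbar} (hσ : A.IsFrobeniusAt σ q) :
    F.ρ.trace σ = (q : ℤ_[p]) + 1 ∨ F.ρ.trace σ = -((q : ℤ_[p]) + 1) := by
  have hp : p.Prime := Fact.out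
  have hqn : ∀ n : ℕ, ¬ q ∣ p ^ n := fun n h =>
    hqp ((Nat.prime_dvd_prime_iff_eq hq hp).mp (hq.dvd_of_dvd_pow h))
  have hd : LinearMap.det (F.ρ.ρ σ) = (q : ℤ_[p]) :=
    F.det_eq_natCast hdet fun n μ hμ => Gal.isFrobeniusAt_rootOfUnity hq hA hσ (hqn n) hμ
  set t := F.ρ.trace σ with ht
  have h0 : ((q : ℤ_[p]) ^ 2 - q * t + q) * ((-(q : ℤ_[p])) ^ 2 - (-(q : ℤ_[p])) * t + q) = 0 :=
    eq_zero_of_mem_pow fun n hn => by
      obtain ⟨v, hv, hprim⟩ := F.exists_primitive_inE0 hq hqp hA hΔ0 hΔ hc₄ hn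
      have key : ∀ c : ℤ, σ • F.pt n v = c • F.pt n v →
          (c : ℤ_[p]) ^ 2 - (c : ℤ_[p]) * t + q ∈ maximalIdeal ℤ_[p] ^ n := fun c hc => by
        rw [← hd, ht, GaloisRepAdic.trace, ← det_sub_smul_one (Gal.basisTwo F.ρ.finrank_eq)]
        refine det_mem_of_apply_mem (Gal.basisTwo F.ρ.finrank_eq) F.ρ.finrank_eq hprim ?_
        rw [LinearMap.sub_apply, LinearMap.smul_apply, Module.End.one_apply,
          ← F.pt_eq_zero_iff_mem_pow, map_sub, F.pt_smul, F.pt_intCast_smul, hc, sub_self]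
      rcases smul_eq_or_neg_of_frobenius hq hA hΔ0 hΔ hc₄ hσ (hqn n)
        (F.pow_nsmul_pt n v) hv with h | h
      · refine Ideal.mul_mem_right _ _ ?_
        have := key q (by rw [natCast_zsmul]; exact h)
        rwa [Int.cast_natCast] at this
      · refine Ideal.mul_mem_left _ _ ?_
        have := key (-q) (by rw [neg_zsmul, natCast_zsmul]; exact h)
        rwa [Int.cast_neg, Int.cast_natCast] at this
  have hq0 : (q : ℤ_[p]) ≠ 0 := Nat.cast_ne_zero.2 hq.ne_zero
  rcases mul_eq_zero.1 h0 with h | h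
  · exact Or.inl (mul_left_cancel₀ hq0 (by linear_combination -h))
  · exact Or.inr (mul_left_cancel₀ hq0 (by linear_combination h))

end TateFrame

end Fermat.Agent.Raising.Tate
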